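import Mathlib

/-!
# Truncated branches of a monic quartic with separable constant term
-/

set_option autoImplicit false

namespace Fermat.Agent.ThreeFive

open Polynomial Filter Topology

/-- A quartic without cubic term, with polynomial coefficients. -/
noncomputable def quart {R : Type*} [CommRing R] (p₂ p₁ p₀ U : R) : R :=
  U ^ 4 + p₂ * U ^ 2 + p₁ * U + p₀

variable {p₂ p₁ p₀ : ℂ[X]}

lemma exists_lift {r : ℂ} (hr : quart (p₂.coeff 0) (p₁.coeff 0) (p₀.coeff 0) r = 0)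
    (hd : 4 * r ^ 3 + 2 * p₂.coeff 0 * r + p₁.coeff 0 ≠ 0) (k : ℕ) :
    ∃ L : ℂ[X], L.coeff 0 = r ∧ X ^ (k + 1) ∣ quart p₂ p₁ p₀ L := by
  induction k with
  | zero =>
    refine ⟨C r, coeff_C_zero, ?_⟩
    rw [pow_one, X_dvd_iff, coeff_zero_eq_eval_zero]
    simp only [coeff_zero_eq_eval_zero] at hr
    simpa [quart] using hr
  | succ k ih =>
    obtain ⟨L, hL0, S, hS⟩ := ih
    set d := 4 * L ^ 3 + 2 * p₂ * L + p₁ with hdd
    have hd0 : d.coeff 0 ≠ 0 := by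
      rw [coeff_zero_eq_eval_zero, hdd]
      simp only [eval_add, eval_mul, eval_pow, eval_ofNat]
      rw [← coeff_zero_eq_eval_zero L, hL0, ← coeff_zero_eq_eval_zero, ← coeff_zero_eq_eval_zero]
      exact hd
    set c := -(S.coeff 0 / d.coeff 0)
    refine ⟨L + C c * X ^ (k + 1), ?_, ?_⟩
    · simp [hL0]
    · have e : quart p₂ p₁ p₀ (L + C c * X ^ (k + 1)) = X ^ (k + 1) * (S + C c * d) +
          X ^ (k + 2) * (C c ^ 2 * X ^ k * (6 * L ^ 2 + p₂ + 4 * L * (C c * X ^ (k + 1)) +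
            (C c * X ^ (k + 1)) ^ 2)) := by
        have : quart p₂ p₁ p₀ L = X ^ (k + 1) * S := hS
        simp only [quart, hdd] at this ⊢
        linear_combination this
      rw [e]
      refine dvd_add ?_ (dvd_mul_right _ _)
      rw [show k + 1 + 1 = (k + 1) + 1 from rfl, pow_succ]
      refine mul_dvd_mul_left _ (X_dvd_iff.2 ?_)
      rw [coeff_add, mul_coeff_zero, coeff_C_zero]
      simp only [c]; field_simp; ring

lemma separable_roots {a b c : ℂ}
    (hsep : ∀ r, quart a b c r = 0 → 4 * r ^ 3 + 2 * a * r + b ≠ 0) :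
    ∃ r : Fin 4 → ℂ, Function.Injective r ∧ ∀ i, quart a b c (r i) = 0 := by
  classical
  set q : ℂ[X] := X ^ 4 + C a * X ^ 2 + C b * X + C c with hq
  have hdeg : q.natDegree = 4 := by rw [hq]; compute_degree!
  have hq0 : q ≠ 0 := fun e => by rw [e, natDegree_zero] at hdeg; omega
  have hev : ∀ r, q.eval r = quart a b c r := fun r => by simp [hq, quart]
  have hnd : q.roots.Nodup := by
    rw [Multiset.nodup_iff_count_le_one]
    intro t
    rw [count_roots]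
    by_contra h
    obtain ⟨h1, h2⟩ := (one_lt_rootMultiplicity_iff_isRoot hq0).1 (not_le.1 h)
    refine hsep t ((hev t).symm.trans h1) (Eq.trans ?_ h2)
    simp [hq]; ring
  have hcard : q.roots.toFinset.card = 4 := by
    rw [Multiset.toFinset_card_of_nodup hnd, ← (IsAlgClosed.splits q).natDegree_eq_card_roots, hdeg]
  refine ⟨fun i => ((q.roots.toFinset.equivFinOfCardEq hcard).symm i).1,
    Subtype.val_injective.comp (Equiv.injective _), fun i => ?_⟩
  rw [← hev]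
  exact (mem_roots hq0).1 (Multiset.mem_toFinset.1 ((q.roots.toFinset.equivFinOfCardEq hcard).symm i).2)

lemma dvd_of_dvd_mul {N : ℕ} {d p : ℂ[X]} (hd : d.coeff 0 ≠ 0) (h : X ^ N ∣ d * p) : X ^ N ∣ p :=
  prime_X.pow_dvd_of_dvd_mul_left N (fun hx => hd (X_dvd_iff.1 hx)) h

/-- The quartic is the product of its branches, modulo `X^N`. -/
theorem exists_branches (hsep : ∀ r, quart (p₂.coeff 0) (p₁.coeff 0) (p₀.coeff 0) r = 0 →
      4 * r ^ 3 + 2 * p₂.coeff 0 * r + p₁.coeff 0 ≠ 0) (N : ℕ) :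
    ∃ (L : Fin 4 → ℂ[X]) (E : Fin 4 → ℂ[X]), Function.Injective (fun i => (L i).coeff 0) ∧
      (∀ i, X ^ (N + 1) ∣ quart p₂ p₁ p₀ (L i)) ∧
      ∀ U : ℂ[X], quart p₂ p₁ p₀ U =
        ∏ i, (U - L i) + X ^ (N + 1) * ∑ k : Fin 4, E k * U ^ (k : ℕ) := by
  obtain ⟨r, hrinj, hr⟩ := separable_roots hsep
  choose L hL0 hLdvd using fun i => exists_lift (hr i) (hsep _ (hr i)) N
  have hinj : Function.Injective (fun i => (L i).coeff 0) := by
    intro i j h; exact hrinj (by simpa [hL0] using h)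
  set e : Fin 4 → ℂ[X] := ![p₀ - L 0 * L 1 * L 2 * L 3,
    p₁ + (L 0 * L 1 * L 2 + L 0 * L 1 * L 3 + L 0 * L 2 * L 3 + L 1 * L 2 * L 3),
    p₂ - (L 0 * L 1 + L 0 * L 2 + L 0 * L 3 + L 1 * L 2 + L 1 * L 3 + L 2 * L 3),
    L 0 + L 1 + L 2 + L 3] with he
  have hid : ∀ U : ℂ[X], quart p₂ p₁ p₀ U = ∏ i, (U - L i) + ∑ k : Fin 4, e k * U ^ (k : ℕ) := by
    intro U
    simp [quart, Fin.prod_univ_four, Fin.sum_univ_four, he]
    ring
  have hdvd : ∀ i, X ^ (N + 1) ∣ (Matrix.vandermonde L).mulVec e i := by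
    intro i
    have h := hLdvd i
    rw [hid, Finset.prod_eq_zero (Finset.mem_univ i) (sub_self _), zero_add] at h
    simpa [Matrix.mulVec, dotProduct, Matrix.vandermonde, mul_comm] using h
  have hE : ∀ k, X ^ (N + 1) ∣ e k := by
    intro k
    refine dvd_of_dvd_mul (d := (Matrix.vandermonde L).det) ?_ ?_
    · have := RingHom.map_det (constantCoeff (R := ℂ)) (Matrix.vandermonde L)
      rw [show (Matrix.vandermonde L).det.coeff 0 = constantCoeff (Matrix.vandermonde L).det from rfl,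
        this]
      rw [show (constantCoeff (R := ℂ)).mapMatrix (Matrix.vandermonde L) =
        Matrix.vandermonde (fun i => (L i).coeff 0) by
          ext i j; simp [Matrix.vandermonde, constantCoeff_apply, coeff_zero_eq_eval_zero]]
      exact Matrix.det_vandermonde_ne_zero_iff.2 hinj
    · have h : (Matrix.vandermonde L).det * e k =
          ((Matrix.vandermonde L).adjugate.mulVec ((Matrix.vandermonde L).mulVec e)) k := by
        rw [Matrix.mulVec_mulVec, Matrix.adjugate_mul, Matrix.smul_mulVec, Matrix.one_mulVec]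
        simp
      rw [h]
      show X ^ (N + 1) ∣ ∑ j, (Matrix.vandermonde L).adjugate k j * _
      exact Finset.dvd_sum fun j _ => dvd_mul_of_dvd_right (hdvd j) _
  choose E hE using hE
  refine ⟨L, E, hinj, hLdvd, fun U => ?_⟩
  rw [hid, Finset.mul_sum]
  congr 1
  exact Finset.sum_congr rfl fun k _ => by rw [hE k]; ring

/-- Roots at small parameters are close to the branches. -/
theorem exists_near (hsep : ∀ r, quart (p₂.coeff 0) (p₁.coeff 0) (p₀.coeff 0) r = 0 →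
      4 * r ^ 3 + 2 * p₂.coeff 0 * r + p₁.coeff 0 ≠ 0) (N : ℕ) :
    ∃ L : Fin 4 → ℂ[X], (∀ i, X ^ (N + 1) ∣ quart p₂ p₁ p₀ (L i)) ∧ ∃ C₀ : ℝ,
      ∀ᶠ ε : ℂ in 𝓝 0, ∀ Y : ℂ, quart (p₂.eval ε) (p₁.eval ε) (p₀.eval ε) Y = 0 →
        ∃ i, ‖Y - (L i).eval ε‖ ≤ C₀ * ‖ε‖ ^ (N + 1) := by
  obtain ⟨L, E, hinj, hdvd, hid⟩ := exists_branches hsep N
  refine ⟨L, hdvd, ?_⟩
  set B := ‖p₂.eval 0‖ + ‖p₁.eval 0‖ + ‖p₀.eval 0‖ + 4 with hB
  set K := ∑ k : Fin 4, (‖(E k).eval 0‖ + 1) * B ^ (k : ℕ) with hK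
  set δ := (Finset.univ : Finset (Fin 4 × Fin 4)).inf' Finset.univ_nonempty
    (fun p => if p.1 = p.2 then (1 : ℝ) else ‖(L p.1).eval 0 - (L p.2).eval 0‖) with hδ
  have hδ0 : 0 < δ := by
    rw [hδ, Finset.lt_inf'_iff]
    rintro ⟨i, j⟩ -
    dsimp only
    split_ifs with h
    · exact one_pos
    · refine norm_pos_iff.2 (sub_ne_zero.2 fun e => h (hinj ?_))
      simpa [coeff_zero_eq_eval_zero] using e
  have hδle : ∀ i j, i ≠ j → δ ≤ ‖(L i).eval 0 - (L j).eval 0‖ := fun i j h => by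
    have := Finset.inf'_le (s := (Finset.univ : Finset (Fin 4 × Fin 4)))
      (fun p => if p.1 = p.2 then (1 : ℝ) else ‖(L p.1).eval 0 - (L p.2).eval 0‖)
      (Finset.mem_univ (i, j))
    rw [← hδ] at this
    simpa [h] using this
  refine ⟨K / (δ / 4) ^ 3, ?_⟩
  have hc : ∀ (p : ℂ[X]) (η : ℝ), 0 < η → ∀ᶠ ε in 𝓝 (0 : ℂ), ‖p.eval ε - p.eval 0‖ < η := by
    intro p η hη
    have := (p.continuous.tendsto 0).eventually (Metric.ball_mem_nhds (p.eval 0) hη)
    exact this.mono fun ε hε => by simpa [dist_eq_norm] using hε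
  filter_upwards [hc p₂ 1 one_pos, hc p₁ 1 one_pos, hc p₀ 1 one_pos,
    eventually_all.2 fun i => hc (L i) (δ / 4) (by positivity),
    eventually_all.2 fun k => hc (E k) 1 one_pos] with ε h2 h1 h0 hLε hEε Y hY
  have hn2 := norm_sub_norm_le (p₂.eval ε) (p₂.eval 0)
  have hn1 := norm_sub_norm_le (p₁.eval ε) (p₁.eval 0)
  have hn0 := norm_sub_norm_le (p₀.eval ε) (p₀.eval 0)
  have hYB : ‖Y‖ ≤ B := by
    rcases le_or_gt ‖Y‖ 1 with h | h
    · exact h.trans (by rw [hB]; linarith [norm_nonneg (p₂.eval 0), norm_nonneg (p₁.eval 0), norm_nonneg (p₀.eval 0)])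
    · have e : Y ^ 4 = -(p₂.eval ε * Y ^ 2 + p₁.eval ε * Y + p₀.eval ε) := by
        simp only [quart] at hY; linear_combination hY
      have hle : ‖Y‖ ^ 4 ≤ ‖p₂.eval ε‖ * ‖Y‖ ^ 2 + ‖p₁.eval ε‖ * ‖Y‖ + ‖p₀.eval ε‖ := by
        rw [← norm_pow, e, norm_neg]
        exact (norm_add₃_le).trans (by simp)
      have a2 : ‖Y‖ ^ 2 ≤ ‖Y‖ ^ 3 := pow_le_pow_right₀ h.le (by norm_num)
      have a1 : ‖Y‖ ≤ ‖Y‖ ^ 3 := le_self_pow₀ h.le (by norm_num)
      have a0 : (1 : ℝ) ≤ ‖Y‖ ^ 3 := one_le_pow₀ h.le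
      have : ‖Y‖ ^ 3 * ‖Y‖ ≤ ‖Y‖ ^ 3 * B := by
        calc ‖Y‖ ^ 3 * ‖Y‖ = ‖Y‖ ^ 4 := by ring
          _ ≤ _ := hle
          _ ≤ ‖p₂.eval ε‖ * ‖Y‖ ^ 3 + ‖p₁.eval ε‖ * ‖Y‖ ^ 3 + ‖p₀.eval ε‖ * ‖Y‖ ^ 3 := by
            gcongr; exact le_mul_of_one_le_right (norm_nonneg _) a0
          _ ≤ _ := by rw [hB]; nlinarith
      exact le_of_mul_le_mul_left this (by positivity)
  have hEb : ‖∑ k : Fin 4, (E k).eval ε * Y ^ (k : ℕ)‖ ≤ K := by
    refine (norm_sum_le _ _).trans (Finset.sum_le_sum fun k _ => ?_)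
    rw [norm_mul, norm_pow]
    gcongr
    linarith [hEε k, norm_sub_norm_le ((E k).eval ε) ((E k).eval 0)]
  have hprod : ∏ i, ‖Y - (L i).eval ε‖ ≤ ‖ε‖ ^ (N + 1) * K := by
    have h := congrArg (Polynomial.eval ε) (hid (C Y))
    simp only [quart, eval_add, eval_mul, eval_pow, eval_C, eval_prod, eval_sub, eval_X,
      eval_finset_sum] at h
    have hY' : ∏ i, (Y - (L i).eval ε) = -(ε ^ (N + 1) * ∑ k : Fin 4, (E k).eval ε * Y ^ (k : ℕ)) := by
      simp only [quart] at hY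
      linear_combination hY - h
    rw [← norm_prod, hY', norm_neg, norm_mul, norm_pow]
    gcongr
  obtain ⟨i, -, hi⟩ := Finset.exists_min_image (Finset.univ : Finset (Fin 4))
    (fun i => ‖Y - (L i).eval ε‖) Finset.univ_nonempty
  refine ⟨i, ?_⟩
  rw [div_mul_eq_mul_div, le_div_iff₀ (by positivity)]
  rw [← Finset.mul_prod_erase _ _ (Finset.mem_univ i)] at hprod
  refine le_trans (le_of_le_of_eq ?_ rfl) (hprod.trans (le_of_eq (mul_comm _ _)))
  gcongr
  have hk : ∀ k ∈ Finset.univ.erase i, δ / 4 ≤ ‖Y - (L k).eval ε‖ := by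
    intro k hk
    have h1 := hi k (Finset.mem_univ _)
    have h2 := hδle i k (Finset.ne_of_mem_erase hk).symm
    have h3 : ‖(L i).eval ε - (L k).eval ε‖ ≤ ‖Y - (L k).eval ε‖ + ‖Y - (L i).eval ε‖ := by
      rw [show (L i).eval ε - (L k).eval ε = (Y - (L k).eval ε) - (Y - (L i).eval ε) by ring]
      exact norm_sub_le _ _
    have h4 : ‖(L i).eval 0 - (L k).eval 0‖ ≤
        ‖(L i).eval ε - (L k).eval ε‖ + ‖(L i).eval ε - (L i).eval 0‖ + ‖(L k).eval ε - (L k).eval 0‖ := by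
      rw [show (L i).eval 0 - (L k).eval 0 = ((L i).eval ε - (L k).eval ε) +
        (-((L i).eval ε - (L i).eval 0)) + ((L k).eval ε - (L k).eval 0) by ring]
      refine norm_add₃_le.trans ?_
      rw [norm_neg]
    linarith [hLε i, hLε k]
  calc (δ / 4) ^ 3 = ∏ _k ∈ Finset.univ.erase i, δ / 4 := by
        rw [Finset.prod_const, Finset.card_erase_of_mem (Finset.mem_univ i)]; rfl
    _ ≤ _ := Finset.prod_le_prod (fun _ _ => by positivity) hk

end Fermat.Agent.ThreeFive
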