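import Fermat.Agent.ThreeFive.NoCommonZero

/-!
# The three-division polynomial of the pencil has no polynomial root
-/

set_option autoImplicit false

namespace Fermat.Agent.ThreeFive

open Polynomial

variable {K : Type*} [Field K]

/-- A linear form `εa + b`. -/
noncomputable def lin (a b : K) : K[X] := C a * X + C b

lemma eval_lin (a b t : K) : (lin a b).eval t = a * t + b := by simp [lin]

lemma derivative_dF_lin (a₁ a₂ b₁ b₂ : K) :
    derivative (dF (lin a₁ b₁) (lin a₂ b₂)) =
      -(C a₁) * wY (lin a₁ b₁) (lin a₂ b₂) + C a₂ * wX (lin a₁ b₁) (lin a₂ b₂) := by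
  simp only [dF, lin, wX, wY, derivative_mul, derivative_add, derivative_sub, derivative_C,
    derivative_X, derivative_pow, derivative_ofNat]
  norm_num [map_ofNat]
  ring

/-- The three-division polynomial in `ε`, evaluated at `U`. -/
noncomputable def divThree {R : Type*} [CommRing R] (A B U : R) : R :=
  U ^ 4 + 18 * A * U ^ 2 + 108 * B * U - 27 * A ^ 2

lemma natDegree_c4F_lin (a₁ a₂ b₁ b₂ : K) : (c4F (lin a₁ b₁) (lin a₂ b₂)).natDegree ≤ 20 := by
  simp only [c4F, c4Ab, lin]; compute_degree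

lemma natDegree_c6F_lin (a₁ a₂ b₁ b₂ : K) : (c6F (lin a₁ b₁) (lin a₂ b₂)).natDegree ≤ 30 := by
  simp only [c6F, c6Ab, lin]; compute_degree

lemma natDegree_dF_lin (a₁ a₂ b₁ b₂ : K) : (dF (lin a₁ b₁) (lin a₂ b₂)).natDegree ≤ 12 := by
  simp only [dF, lin]; compute_degree

lemma coeff_dF_lin (a₁ a₂ b₁ b₂ : K) :
    (dF (lin a₁ b₁) (lin a₂ b₂)).coeff 12 = dF a₁ a₂ := by
  simp only [dF, lin]
  compute_degree!

variable [CharZero K] [IsAlgClosed K]

theorem divThree_ne_zero {a₁ a₂ b₁ b₂ : K} (hda : dF a₁ a₂ ≠ 0)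
    (hdet : a₁ * b₂ - a₂ * b₁ ≠ 0) (P : K[X]) (hP : P.natDegree ≤ 10) :
    divThree (-27 * c4F (lin a₁ b₁) (lin a₂ b₂)) (-54 * c6F (lin a₁ b₁) (lin a₂ b₂)) P ≠ 0 := by
  classical
  intro hroot
  set x := lin a₁ b₁ with hx
  set y := lin a₂ b₂ with hy
  set A : K[X] := -27 * c4F x y with hA
  set B : K[X] := -54 * c6F x y with hB
  set D : K[X] := dF x y with hD
  have hid : C (432 * -(78732 * 1728) : K) * (P ^ 2 * D ^ 5) = (3 * A + P ^ 2) ^ 3 * (27 * A + P ^ 2) := by
    have h1 : 432 * P ^ 2 * (4 * A ^ 3 + 27 * B ^ 2) = (3 * A + P ^ 2) ^ 3 * (27 * A + P ^ 2) := by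
      rw [divThree] at hroot
      linear_combination (27 * A ^ 2 - P ^ 4 - 18 * A * P ^ 2 + 108 * B * P) * hroot
    rw [← h1, hA, hB, map_mul, map_neg, map_mul, map_ofNat, map_ofNat, map_ofNat]
    linear_combination (432 * 78732 : K[X]) * P ^ 2 * c4F_cube_sub x y
  have hz : ∀ {t : K}, ¬(a₁ * t + b₁ = 0 ∧ a₂ * t + b₂ = 0) := fun {t} ⟨h, h'⟩ => hdet (by
    linear_combination a₁ * h' - a₂ * h)
  have hDdeg : D.natDegree = 12 := le_antisymm (natDegree_dF_lin _ _ _ _)
    (le_natDegree_of_ne_zero (by rw [hD, hx, hy, coeff_dF_lin]; exact hda))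
  have hD0 : D ≠ 0 := fun e => by rw [e, natDegree_zero] at hDdeg; omega
  have hP0 : P ≠ 0 := by
    intro e
    rw [e] at hid
    have h4 : A ^ 4 * 729 = 0 := by linear_combination -hid
    have hA0 : c4F x y = 0 := by
      have h := eq_zero_of_pow_eq_zero ((mul_eq_zero.1 h4).resolve_right (by norm_num))
      rw [hA] at h; simpa using h
    obtain ⟨t, ht⟩ := IsAlgClosed.exists_root D (by rw [degree_eq_natDegree hD0, hDdeg]; decide)
    have e4 := congrArg (fun p => (evalRingHom t) p) hA0
    have ed : (evalRingHom t) D = 0 := ht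
    simp only [map_c4F, map_zero, coe_evalRingHom, hx, hy, eval_lin] at e4
    rw [hD, map_dF] at ed
    simp only [coe_evalRingHom, hx, hy, eval_lin] at ed
    exact hz (eq_zero_of_c4F_dF (by norm_num) e4 ed)
  set F₁ := 3 * A + P ^ 2 with hF₁
  set F₂ := 27 * A + P ^ 2 with hF₂
  have hc : C (432 * -(78732 * 1728) : K) ≠ 0 := C_ne_zero.2 (by norm_num)
  have hL0 : C (432 * -(78732 * 1728) : K) * (P ^ 2 * D ^ 5) ≠ 0 :=
    mul_ne_zero hc (mul_ne_zero (pow_ne_zero _ hP0) (pow_ne_zero _ hD0))
  have hF10 : F₁ ≠ 0 := fun e => hL0 (by rw [hid, e]; ring)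
  have hF20 : F₂ ≠ 0 := fun e => hL0 (by rw [hid, e]; ring)
  have hsimple : ∀ t, D.IsRoot t → D.rootMultiplicity t = 1 := by
    intro t htD
    refine le_antisymm ?_ ((rootMultiplicity_pos hD0).2 htD)
    by_contra hlt
    have := ((one_lt_rootMultiplicity_iff_isRoot hD0).1 (not_le.1 hlt)).2
    rw [IsRoot, hD, hx, hy, derivative_dF_lin, eval_add, eval_mul, eval_mul, eval_neg, eval_C,
      eval_C, ← coe_evalRingHom, map_wX, map_wY] at this
    simp only [coe_evalRingHom, eval_lin] at this
    have ed : (evalRingHom t) D = 0 := htD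
    rw [hD, map_dF] at ed
    simp only [coe_evalRingHom, hx, hy, eval_lin] at ed
    have e2 := det_w (a₁ * t + b₁) (a₂ * t + b₂)
    rw [ed, mul_zero] at e2
    set X' := a₁ * t + b₁
    set Y' := a₂ * t + b₂
    have hd : a₁ * Y' - a₂ * X' ≠ 0 := by
      convert hdet using 1; simp only [X', Y']; ring
    have k1 : wX X' Y' = 0 := (mul_eq_zero.1 (show (a₁ * Y' - a₂ * X') * wX X' Y' = 0 by
      linear_combination (-X') * this - a₁ * e2)).resolve_left hd
    have k2 : wY X' Y' = 0 := (mul_eq_zero.1 (show (a₁ * Y' - a₂ * X') * wY X' Y' = 0 by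
      linear_combination (-Y') * this - a₂ * e2)).resolve_left hd
    exact hz (eq_zero_of_wX_wY k1 k2)
  have hdiv : ∀ t ∈ D.roots, 5 ≤ F₂.rootMultiplicity t := by
    intro t ht
    have htD : D.IsRoot t := (mem_roots hD0).1 ht
    have hm1 := hsimple t htD
    have hA0 : A.eval t ≠ 0 := by
      intro e
      have e4 : c4F (a₁ * t + b₁) (a₂ * t + b₂) = 0 := by
        rw [hA, eval_mul, ← coe_evalRingHom, map_c4F] at e
        simpa [hx, hy, eval_lin] using e
      have ed : (evalRingHom t) D = 0 := htD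
      rw [hD, map_dF] at ed
      simp only [coe_evalRingHom, hx, hy, eval_lin] at ed
      exact hz (eq_zero_of_c4F_dF (by norm_num) e4 ed)
    have hev : ¬(F₁.IsRoot t ∧ F₂.IsRoot t) := by
      rintro ⟨e1, e2⟩
      simp only [IsRoot, hF₁, hF₂, eval_add, eval_mul, eval_ofNat] at e1 e2
      exact hA0 (by linear_combination (e2 - e1) / 24)
    have hPt : ¬ P.IsRoot t := by
      intro e
      have := congrArg (fun p => p.eval t) hid
      simp only [eval_mul, eval_pow, eval_add, eval_ofNat, hF₁, hF₂, e.eq_zero] at this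
      refine hA0 (eq_zero_of_pow_eq_zero (n := 4) ?_)
      linear_combination (-1 / 729 : K) * this
    have key := congrArg (rootMultiplicity t) hid
    rw [rootMultiplicity_mul hL0, rootMultiplicity_C, rootMultiplicity_mul (mul_ne_zero
      (pow_ne_zero _ hP0) (pow_ne_zero _ hD0)), rootMultiplicity_eq_zero (p := P ^ 2)
      (by simpa [IsRoot] using hPt), rootMultiplicity_mul (mul_ne_zero (pow_ne_zero _ hF10) hF20),
      ← count_roots, ← count_roots, roots_pow, roots_pow, Multiset.count_nsmul,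
      Multiset.count_nsmul, count_roots, count_roots, hm1] at key
    by_cases h1 : F₁.IsRoot t
    · rw [rootMultiplicity_eq_zero (fun h2 => hev ⟨h1, h2⟩)] at key; omega
    · rw [rootMultiplicity_eq_zero h1] at key; omega
  have hle : 5 • D.roots.dedup ≤ F₂.roots := by
    rw [Multiset.le_iff_count]
    intro t
    rw [Multiset.count_nsmul, Multiset.count_dedup, count_roots]
    split_ifs with ht
    · simpa using hdiv t ht
    · simp
  have hnd : D.roots.Nodup := by
    rw [Multiset.nodup_iff_count_le_one]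
    intro t
    rw [count_roots]
    by_cases ht : D.IsRoot t
    · exact (hsimple t ht).le
    · rw [rootMultiplicity_eq_zero ht]; exact Nat.zero_le _
  have hcard : D.roots.card = 12 := (IsAlgClosed.splits D).natDegree_eq_card_roots.symm.trans hDdeg
  have := (Multiset.card_le_card hle).trans (card_roots' F₂)
  rw [Multiset.card_nsmul, hnd.dedup, hcard] at this
  have hdeg : F₂.natDegree ≤ 20 := by
    refine (natDegree_add_le _ _).trans (max_le ?_ ?_)
    · rw [hA]
      refine natDegree_mul_le.trans ?_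
      have := natDegree_c4F_lin a₁ a₂ b₁ b₂
      simp only [natDegree_ofNat, zero_add]
      refine natDegree_mul_le.trans ?_
      simp only [natDegree_neg, natDegree_ofNat, zero_add]
      rw [hx, hy]; exact this
    · exact natDegree_pow_le.trans (by omega)
  omega

end Fermat.Agent.ThreeFive
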