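import Fermat.Agent.ThreeFive.Binomial
import Fermat.Agent.ThreeFive.Branches
import Fermat.Agent.ThreeFive.NoPolyRoot

/-!
# A parameter with no rational three-torsion abscissa
-/

set_option autoImplicit false

namespace Fermat.Agent.ThreeFive

open Polynomial Filter Topology

lemma quart_eq_divThree {R : Type*} [CommRing R] (A B U : R) :
    quart (18 * A) (108 * B) (-27 * A ^ 2) U = divThree A B U := by
  simp only [quart, divThree]; ring

/-- A branch which is not a polynomial in `n` cannot be integral on twelve nearby points. -/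
theorem eventually_not_all {L : ℂ[X]} (hL : ∃ m, 11 ≤ m ∧ m ≤ 41 ∧ L.coeff m ≠ 0) (C₀ : ℝ)
    {e : Fin 12 → ℕ} (he : Function.Injective e) :
    ∀ᶠ n : ℕ in atTop, ¬ ∀ j, ∃ U : ℤ,
      ‖(U : ℂ) - ((n + e j : ℕ) : ℂ) ^ 10 * L.eval ((n + e j : ℕ) : ℂ)⁻¹‖ ≤
        C₀ * ‖((n + e j : ℕ) : ℂ)⁻¹‖ ^ 60 := by
  classical
  have hex : ∃ m, 11 ≤ m ∧ L.coeff m ≠ 0 := hL.imp fun m h => ⟨h.1, h.2.2⟩
  obtain ⟨m₀, hm₀⟩ : ∃ m, m = Nat.find hex := ⟨_, rfl⟩
  have hm11 : 11 ≤ m₀ := hm₀ ▸ (Nat.find_spec hex).1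
  have hl : L.coeff m₀ ≠ 0 := hm₀ ▸ (Nat.find_spec hex).2
  have hm41 : m₀ ≤ 41 := by
    obtain ⟨m, h1, h2, h3⟩ := hL
    rw [hm₀]; exact (Nat.find_min' hex ⟨h1, h3⟩).trans h2
  have hbelow : ∀ m, 11 ≤ m → m < m₀ → L.coeff m = 0 := fun m h1 h2 => by
    by_contra h
    rw [hm₀] at h2
    exact Nat.find_min hex h2 ⟨h1, h⟩
  obtain ⟨c, hc0, hc11⟩ := exists_coeff (fun j => (e j : ℤ))
    (fun a b h => he (by simpa using h))
  set eC : Fin 12 → ℂ := fun j => (e j : ℂ) with heC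
  set cC : Fin 12 → ℂ := fun j => (c j : ℂ) with hcC
  have hmom : ∀ k ≤ 10, moment eC cC k = 0 := fun k hk => by
    simp only [moment, heC, hcC]; exact_mod_cast hc0 k hk
  have hmom11 : moment eC cC 11 ≠ 0 := by
    simp only [moment, heC, hcC]; exact_mod_cast hc11
  set lim := L.coeff m₀ * (-((m₀ - 11 + 11).choose 11 : ℂ) * moment eC cC 11) with hlim
  have hlim0 : lim ≠ 0 :=
    mul_ne_zero hl (mul_ne_zero (neg_ne_zero.2 (Nat.cast_ne_zero.2
      (Nat.choose_pos (by omega)).ne')) hmom11)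
  set main : ℕ → ℂ := fun n => ∑ j, cC j * (((n + e j : ℕ) : ℂ) ^ 10 *
    L.eval ((n + e j : ℕ) : ℂ)⁻¹) with hmain
  set D := L.natDegree + 42
  have hinv : Tendsto (fun n : ℕ => (n : ℂ)⁻¹) atTop (𝓝 0) :=
    tendsto_inv_atTop_nhds_zero_nat (𝕜 := ℂ)
  have hterm : ∀ m ∈ Finset.range D, Tendsto (fun n : ℕ => (n : ℂ) ^ (m₀ + 1) *
      (L.coeff m * ∑ j, cC j * (((n : ℂ) + eC j) ^ 10 / ((n : ℂ) + eC j) ^ m))) atTop
      (𝓝 (if m = m₀ then lim else 0)) := by
    intro m _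
    rcases lt_trichotomy m m₀ with hlt | rfl | hgt
    · rw [if_neg hlt.ne]
      refine tendsto_const_nhds.congr' ?_
      filter_upwards [eventually_gt_atTop 0] with n hn
      by_cases h10 : m ≤ 10
      · have hne : ∀ j, (n : ℂ) + eC j ≠ 0 := fun j => by
          simp only [heC]; exact_mod_cast (by omega : n + e j ≠ 0)
        have : ∀ j, ((n : ℂ) + eC j) ^ 10 / ((n : ℂ) + eC j) ^ m = ((n : ℂ) + eC j) ^ (10 - m) :=
          fun j => (pow_sub₀ _ (hne j) h10).symm.trans rfl |>.symm |> fun h => by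
            rw [pow_sub₀ _ (hne j) h10]; rfl
        simp only [this, sum_pow_eq_zero eC cC hmom (n : ℂ) (Nat.sub_le 10 m), mul_zero]
      · rw [hbelow m (by omega) hlt, zero_mul, mul_zero]
    · rw [if_pos rfl, hlim]
      have h := (tendsto_diff eC cC hmom (m - 11)).const_mul (L.coeff m)
      refine h.congr' ?_
      filter_upwards [eventually_gt_atTop 0] with n hn
      have hne : ∀ j, (n : ℂ) + eC j ≠ 0 := fun j => by
        simp only [heC]; exact_mod_cast (by omega : n + e j ≠ 0)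
      rw [show m - 11 + 12 = m + 1 by omega]
      simp only [Finset.mul_sum]
      refine Finset.sum_congr rfl fun j _ => ?_
      obtain ⟨r, rfl⟩ := Nat.exists_eq_add_of_le hm11
      rw [show 11 + r - 11 = r by omega, show 11 + r = 10 + (r + 1) by ring,
        pow_add ((n : ℂ) + eC j) 10 (r + 1), div_mul_cancel_left₀ (pow_ne_zero _ (hne j))]
      ring
    · rw [if_neg hgt.ne']
      have h := ((tendsto_diff eC cC hmom (m - 11)).const_mul (L.coeff m)).mul (hinv.pow (m - m₀))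
      rw [zero_pow (by omega), mul_zero] at h
      refine h.congr' ?_
      filter_upwards [eventually_gt_atTop 0] with n hn
      have hne : ∀ j, (n : ℂ) + eC j ≠ 0 := fun j => by
        simp only [heC]; exact_mod_cast (by omega : n + e j ≠ 0)
      have hn' : (n : ℂ) ≠ 0 := Nat.cast_ne_zero.2 hn.ne'
      rw [show m - 11 + 12 = (m₀ + 1) + (m - m₀) by omega, pow_add, inv_pow]
      simp only [Finset.mul_sum, Finset.sum_mul]
      refine Finset.sum_congr rfl fun j _ => ?_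
      obtain ⟨r, rfl⟩ := Nat.exists_eq_add_of_le (show 11 ≤ m by omega)
      rw [show 11 + r - 11 = r by omega, show 11 + r = 10 + (r + 1) by ring,
        pow_add ((n : ℂ) + eC j) 10 (r + 1), div_mul_cancel_left₀ (pow_ne_zero _ (hne j))]
      field_simp
  have hmainlim : Tendsto (fun n : ℕ => (n : ℂ) ^ (m₀ + 1) * main n) atTop (𝓝 lim) := by
    have h := tendsto_finset_sum (Finset.range D) hterm
    rw [Finset.sum_ite_eq' (Finset.range D) m₀, if_pos (Finset.mem_range.2 (by omega))] at h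
    refine h.congr' (Eventually.of_forall fun n => ?_)
    simp only [hmain, Finset.mul_sum]
    rw [Finset.sum_comm]
    refine Finset.sum_congr rfl fun j _ => ?_
    rw [eval_eq_sum_range' (show L.natDegree < D by omega), Finset.mul_sum, Finset.mul_sum,
      Finset.mul_sum]
    refine Finset.sum_congr rfl fun m _ => ?_
    simp only [heC, Nat.cast_add, inv_pow, div_eq_mul_inv]
    ring
  have hsmall : Tendsto (fun n : ℕ => (n : ℝ) ^ (m₀ + 1) *
      ((∑ j, |(c j : ℝ)|) * |C₀| * ((n : ℝ)⁻¹) ^ 60)) atTop (𝓝 0) := by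
    have h := ((tendsto_inv_atTop_nhds_zero_nat (𝕜 := ℝ)).pow (59 - m₀)).const_mul
      ((∑ j, |(c j : ℝ)|) * |C₀|)
    rw [zero_pow (by omega), mul_zero] at h
    refine h.congr' ?_
    filter_upwards [eventually_gt_atTop 0] with n hn
    have hn' : (n : ℝ) ≠ 0 := Nat.cast_ne_zero.2 hn.ne'
    rw [show (60 : ℕ) = (m₀ + 1) + (59 - m₀) by omega, pow_add]
    rw [inv_pow, inv_pow]
    field_simp
    ring
  have hpos : 0 < ‖lim‖ := norm_pos_iff.2 hlim0
  filter_upwards [(hmainlim.norm).eventually (eventually_gt_nhds (half_lt_self hpos)),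
    (hmainlim.norm).eventually (eventually_lt_nhds (lt_add_one ‖lim‖)),
    hsmall.eventually (eventually_lt_nhds (by positivity : (0 : ℝ) < ‖lim‖ / 4)),
    eventually_gt_atTop 0, eventually_ge_atTop ⌈2 * ‖lim‖ + 2⌉₊] with n hlow hup herr hn hnbig hall
  choose U hU using hall
  have hnr : (1 : ℝ) ≤ n := by exact_mod_cast hn
  have hdiff : ‖(∑ j, cC j * (U j : ℂ)) - main n‖ ≤ (∑ j, |(c j : ℝ)|) * |C₀| * ((n : ℝ)⁻¹) ^ 60 := by
    rw [hmain, ← Finset.sum_sub_distrib, Finset.sum_mul, Finset.sum_mul]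
    refine (norm_sum_le _ _).trans (Finset.sum_le_sum fun j _ => ?_)
    rw [← mul_sub, norm_mul, mul_assoc]
    refine mul_le_mul (le_of_eq ?_) ((hU j).trans ?_) (norm_nonneg _) (abs_nonneg _)
    · simp [hcC, Complex.norm_intCast]
    · refine (mul_le_mul_of_nonneg_right (le_abs_self C₀) (by positivity)).trans ?_
      refine mul_le_mul_of_nonneg_left ?_ (abs_nonneg _)
      refine pow_le_pow_left₀ (norm_nonneg _) ?_ 60
      rw [norm_inv, Complex.norm_natCast]
      gcongr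
      simp
  set G : ℤ := ∑ j, c j * U j with hG
  have hGC : (∑ j, cC j * (U j : ℂ)) = (G : ℂ) := by rw [hG]; simp [hcC]
  rw [hGC] at hdiff
  have hpow : (1 : ℝ) ≤ (n : ℝ) ^ (m₀ + 1) := one_le_pow₀ hnr
  have hscale : (n : ℝ) ^ (m₀ + 1) * ‖(G : ℂ) - main n‖ < ‖lim‖ / 4 :=
    lt_of_le_of_lt (mul_le_mul_of_nonneg_left hdiff (by positivity)) herr
  have hnm : ‖(n : ℂ) ^ (m₀ + 1) * main n‖ = (n : ℝ) ^ (m₀ + 1) * ‖main n‖ := by
    rw [norm_mul, norm_pow, Complex.norm_natCast]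
  rw [hnm] at hlow hup
  have hG0 : G = 0 := by
    by_contra hne
    have h1 : (1 : ℝ) ≤ ‖(G : ℂ)‖ := by
      rw [Complex.norm_intCast]; exact_mod_cast Int.one_le_abs hne
    have h2 : ‖(G : ℂ)‖ ≤ ‖(G : ℂ) - main n‖ + ‖main n‖ := norm_le_norm_sub_add _ _
    have h3 : (n : ℝ) ≤ (n : ℝ) ^ (m₀ + 1) := le_self_pow₀ hnr (by omega)
    have h4 : 2 * ‖lim‖ + 2 ≤ (n : ℝ) := Nat.ceil_le.1 hnbig
    nlinarith
  rw [hG0, Int.cast_zero, zero_sub, norm_neg] at hscale
  linarith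

/-- Some large parameter has no rational three-torsion abscissa. -/
theorem exists_good_param {a₁ a₂ b₁ b₂ : ℂ} (hda : dF a₁ a₂ ≠ 0) (hdb : dF b₁ b₂ ≠ 0)
    (hdet : a₁ * b₂ - a₂ * b₁ ≠ 0) (N : ℕ) :
    ∃ n : ℕ, N ≤ n ∧ ∀ U : ℤ,
      divThree (-27 * c4F (a₁ * (n : ℂ)⁻¹ + b₁) (a₂ * (n : ℂ)⁻¹ + b₂))
        (-54 * c6F (a₁ * (n : ℂ)⁻¹ + b₁) (a₂ * (n : ℂ)⁻¹ + b₂)) ((U : ℂ) * ((n : ℂ)⁻¹) ^ 10) ≠ 0 := by
  classical
  set A : ℂ[X] := -27 * c4F (lin a₁ b₁) (lin a₂ b₂) with hA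
  set B : ℂ[X] := -54 * c6F (lin a₁ b₁) (lin a₂ b₂) with hB
  have hevA : ∀ t, A.eval t = -27 * c4F (a₁ * t + b₁) (a₂ * t + b₂) := fun t => by
    rw [hA, eval_mul, ← coe_evalRingHom, map_c4F]; simp [eval_lin]
  have hevB : ∀ t, B.eval t = -54 * c6F (a₁ * t + b₁) (a₂ * t + b₂) := fun t => by
    rw [hB, eval_mul, ← coe_evalRingHom, map_c6F]; simp [eval_lin]
  have hsep : ∀ r, quart ((18 * A).coeff 0) ((108 * B).coeff 0) ((-27 * A ^ 2).coeff 0) r = 0 →
      4 * r ^ 3 + 2 * (18 * A).coeff 0 * r + (108 * B).coeff 0 ≠ 0 := by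
    intro r h h'
    simp only [coeff_zero_eq_eval_zero, eval_mul, eval_pow, eval_neg, eval_ofNat] at h h'
    set a := A.eval 0 with ha
    set b := B.eval 0 with hb
    rw [quart_eq_divThree, divThree] at h
    have e1 : (r ^ 2 + 3 * a) ^ 2 = 0 := by
      linear_combination (-1 / 3 : ℂ) * h + (r / 3) * h'
    have e1' : a = -r ^ 2 / 3 := by
      have := eq_zero_of_pow_eq_zero e1
      linear_combination this / 3
    have e2 : b = 2 * r ^ 3 / 27 := by
      linear_combination h' / 108 - (r / 3) * e1'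
    have e3 : 4 * a ^ 3 + 27 * b ^ 2 = 0 := by rw [e1', e2]; ring
    refine pow_ne_zero 5 hdb ?_
    rw [ha, hb, hevA, hevB] at e3
    simp only [mul_zero, zero_add] at e3
    have := c4F_cube_sub b₁ b₂
    linear_combination (-1 / (78732 * 1728) : ℂ) * e3 - (1 / 1728 : ℂ) * this
  obtain ⟨L, hdvd, C₀, hnear⟩ := exists_near hsep 69
  have hbranch : ∀ i, ∃ m, 11 ≤ m ∧ m ≤ 41 ∧ (L i).coeff m ≠ 0 := by
    intro i
    by_contra hc
    push Not at hc
    set P : ℂ[X] := ∑ m ∈ Finset.range 11, C ((L i).coeff m) * X ^ m with hP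
    have hPdeg : P.natDegree ≤ 10 := natDegree_sum_le_of_forall_le _ _ fun m hm =>
      (natDegree_C_mul_X_pow_le _ _).trans (by simp at hm; omega)
    have hsub : X ^ 42 ∣ L i - P := by
      rw [X_pow_dvd_iff]
      intro d hd
      simp only [coeff_sub, hP, finset_sum_coeff, coeff_C_mul_X_pow]
      rw [Finset.sum_ite_eq (Finset.range 11) d]
      by_cases h11 : d < 11
      · simp [h11]
      · simp [h11, hc d (by omega) (by omega)]
    have h42 : X ^ 42 ∣ divThree A B P := by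
      have e : divThree A B P = quart (18 * A) (108 * B) (-27 * A ^ 2) (L i) -
          (L i - P) * ((L i + P) * (L i ^ 2 + P ^ 2) + 18 * A * (L i + P) + 108 * B) := by
        simp only [quart, divThree]; ring
      rw [e]
      exact dvd_sub ((pow_dvd_pow X (by omega)).trans (hdvd i)) (dvd_mul_of_dvd_left hsub _)
    have hAdeg : A.natDegree ≤ 20 := by
      refine natDegree_mul_le.trans ?_
      simpa using natDegree_c4F_lin a₁ a₂ b₁ b₂
    have hBdeg : B.natDegree ≤ 30 := by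
      refine natDegree_mul_le.trans ?_
      simpa using natDegree_c6F_lin a₁ a₂ b₁ b₂
    have hdeg : (divThree A B P).natDegree ≤ 40 := by
      simp only [divThree]
      refine (natDegree_sub_le _ _).trans (max_le ((natDegree_add_le _ _).trans (max_le
        ((natDegree_add_le _ _).trans (max_le ?_ ?_)) ?_)) ?_)
      · exact natDegree_pow_le.trans (by omega)
      · refine natDegree_mul_le.trans ?_
        have := natDegree_mul_le (p := (18 : ℂ[X])) (q := A)
        have := natDegree_pow_le (p := P) (n := 2)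
        simp only [natDegree_ofNat] at *
        omega
      · refine natDegree_mul_le.trans ?_
        have := natDegree_mul_le (p := (108 : ℂ[X])) (q := B)
        simp only [natDegree_ofNat] at *
        omega
      · refine natDegree_mul_le.trans ?_
        have := natDegree_pow_le (p := A) (n := 2)
        simp only [natDegree_ofNat] at *
        omega
    refine divThree_ne_zero hda hdet P hPdeg ?_
    show divThree A B P = 0
    exact eq_zero_of_dvd_of_natDegree_lt h42 (by rw [natDegree_X_pow]; omega)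
  have hev : ∀ᶠ n : ℕ in atTop, ∀ (i : Fin 4) (e : Fin 12 → Fin 50), Function.Injective e →
      ¬ ∀ j, ∃ U : ℤ, ‖(U : ℂ) - ((n + (e j : ℕ) : ℕ) : ℂ) ^ 10 *
        (L i).eval ((n + (e j : ℕ) : ℕ) : ℂ)⁻¹‖ ≤ C₀ * ‖((n + (e j : ℕ) : ℕ) : ℂ)⁻¹‖ ^ 60 := by
    refine eventually_all.2 fun i => eventually_all.2 fun e => ?_
    by_cases he : Function.Injective e
    · filter_upwards [eventually_not_all (hbranch i) C₀
        (e := fun j => (e j : ℕ)) (Fin.val_injective.comp he)] with n hn _ using hn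
    · exact Eventually.of_forall fun n h => absurd h he
  have hsmall : ∀ᶠ n : ℕ in atTop, ∀ Y : ℂ,
      quart ((18 * A).eval (n : ℂ)⁻¹) ((108 * B).eval (n : ℂ)⁻¹) ((-27 * A ^ 2).eval (n : ℂ)⁻¹) Y = 0 →
        ∃ i, ‖Y - (L i).eval (n : ℂ)⁻¹‖ ≤ C₀ * ‖(n : ℂ)⁻¹‖ ^ (69 + 1) :=
    (tendsto_inv_atTop_nhds_zero_nat (𝕜 := ℂ)).eventually hnear
  obtain ⟨n₀, hn₀⟩ := eventually_atTop.1 (hev.and (hsmall.and (eventually_gt_atTop 0)))
  by_contra hall
  push Not at hall
  set n := max n₀ N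
  have hroot : ∀ o : Fin 50, ∃ i : Fin 4, ∃ U : ℤ, ‖(U : ℂ) - ((n + (o : ℕ) : ℕ) : ℂ) ^ 10 *
      (L i).eval ((n + (o : ℕ) : ℕ) : ℂ)⁻¹‖ ≤ C₀ * ‖((n + (o : ℕ) : ℕ) : ℂ)⁻¹‖ ^ 60 := by
    intro o
    obtain ⟨U, hU⟩ := hall (n + o) (by omega)
    obtain ⟨-, hs, hpos⟩ := hn₀ (n + o) (by omega)
    set ε := ((n + (o : ℕ) : ℕ) : ℂ)⁻¹ with hε
    obtain ⟨i, hi⟩ := hs ((U : ℂ) * ε ^ 10) (by
      rw [← hU, ← hevA, ← hevB, ← quart_eq_divThree]
      simp only [eval_mul, eval_pow, eval_neg, eval_ofNat])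
    refine ⟨i, U, ?_⟩
    have hM : ((n + (o : ℕ) : ℕ) : ℂ) ≠ 0 := Nat.cast_ne_zero.2 (by omega)
    have hx : (U : ℂ) - ((n + (o : ℕ) : ℕ) : ℂ) ^ 10 * (L i).eval ε =
        ((n + (o : ℕ) : ℕ) : ℂ) ^ 10 * ((U : ℂ) * ε ^ 10 - (L i).eval ε) := by
      rw [hε, inv_pow]; field_simp
    rw [hx, norm_mul, norm_pow]
    refine (mul_le_mul_of_nonneg_left hi (by positivity)).trans (le_of_eq ?_)
    rw [hε, norm_inv]
    have : ‖((n + (o : ℕ) : ℕ) : ℂ)‖ ≠ 0 := norm_ne_zero_iff.2 hM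
    generalize ‖((n + (o : ℕ) : ℕ) : ℂ)‖ = x at this ⊢
    rw [show (69 + 1 : ℕ) = 10 + 60 by norm_num, pow_add, inv_pow x 10]
    field_simp
  choose i hi using hroot
  obtain ⟨k, -, hk⟩ := Finset.exists_lt_card_fiber_of_mul_lt_card_of_maps_to
    (s := (Finset.univ : Finset (Fin 50))) (t := (Finset.univ : Finset (Fin 4))) (f := i) (n := 11)
    (fun a _ => Finset.mem_univ _) (by simp)
  obtain ⟨T, hT, hTcard⟩ := Finset.exists_subset_card_eq (show 12 ≤ _ from hk)
  refine (hn₀ n (le_max_left _ _)).1 k (fun j => ((T.equivFinOfCardEq hTcard).symm j).1)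
    (Subtype.val_injective.comp (Equiv.injective _)) fun j => ?_
  have hmem := hT ((T.equivFinOfCardEq hTcard).symm j).2
  rw [Finset.mem_filter] at hmem
  obtain ⟨U, hU⟩ := hi ((T.equivFinOfCardEq hTcard).symm j).1
  rw [hmem.2] at hU
  exact ⟨U, hU⟩

end Fermat.Agent.ThreeFive
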