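import Fermat.Agent.ThreeFive.Galois
import Fermat.Prelude.Def_FLTPrelim_ModularRep
import Fermat.Agent.ThreeFive.NoPolyRoot

/-!
# A reducible mod-three representation gives an integral root of the three-division polynomial
-/

set_option autoImplicit false
set_option linter.unusedSectionVars false

namespace Fermat.Agent.ThreeFive

open WeierstrassCurve WeierstrassCurve.Affine.Point Fermat.Agent.EC Fermat.Agent.Galois
open scoped WeierstrassCurve.Affine

local notation "Qb" => AlgebraicClosure ℚ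

/-- The equivariant embedding into the short model. -/
lemma exists_shortHom {W : WeierstrassCurve ℤ} (hΔ : W.Δ ≠ 0) :
    ∃ ι : ((W.map (Int.castRingHom ℚ))⁄Qb).toAffine.Point →+
        (sc (W.c₄ : Qb) (W.c₆ : Qb)).toAffine.Point,
      Function.Injective ι ∧ ∀ (σ : GQ) (P : ((W.map (Int.castRingHom ℚ))⁄Qb).toAffine.Point),
        ι (σ • P) = galPt σ (galois_intCast σ W.c₄) (galois_intCast σ W.c₆) (ι P) := by
  classical
  set E := ((W.map (Int.castRingHom ℚ))⁄Qb : WeierstrassCurve Qb) with hE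
  haveI hEl : E.IsElliptic := by
    rw [hE, isElliptic_iff, isUnit_iff_ne_zero]
    simpa [WeierstrassCurve.baseChange] using hΔ
  refine ⟨(sigmaPoint (RingHom.id Qb) (by rw [WeierstrassCurve.map_id]; exact shortC_smul W)).comp
      (vcHom (shortC W)), ?_, ?_⟩
  · rw [AddMonoidHom.coe_comp]
    refine Function.Injective.comp ?_ (vcHom_injective _)
    rw [injective_iff_map_eq_zero]
    rintro (_ | ⟨x, y, h⟩) e
    · rfl
    · exact absurd e (Affine.Point.some_ne_zero _)
  · intro σ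
    rintro (_ | ⟨x, y, h⟩)
    · rfl
    · obtain ⟨h', e⟩ := algEquiv_smul_some (K := Qb) (W.map (Int.castRingHom ℚ)).toAffine σ h
      refine (congrArg _ e).trans ?_
      refine (Affine.Point.some.injEq ..).mpr ⟨?_, ?_⟩ <;>
        simp [vcX, vcY, shortC, map_ofNat]

/-- A reducible mod-three representation gives an integral root. -/
theorem exists_root_of_reducible {W : WeierstrassCurve ℤ} (hΔ : W.Δ ≠ 0)
    (h : ¬ W.ModRepIsIrreducible 3) :
    ∃ U : ℤ, divThree (-27 * W.c₄) (-54 * W.c₆) U = 0 := by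
  classical
  haveI : Fact (Nat.Prime 3) := ⟨Nat.prime_three⟩
  haveI := sc_intCast_isElliptic hΔ
  haveI : ((W.map (Int.castRingHom ℚ))⁄Qb : WeierstrassCurve Qb).IsElliptic := by
    rw [isElliptic_iff, isUnit_iff_ne_zero]
    simpa [WeierstrassCurve.baseChange] using hΔ
  obtain ⟨N, hN, hN1⟩ := (not_irreducible_iff_exists_stable_line (K := Qb) ℚ
    (W.map (Int.castRingHom ℚ)).toAffine 3).1 h
  obtain ⟨P, hPN, hP0⟩ := Submodule.exists_mem_ne_zero_of_ne_bot
    (p := N) (fun e => by rw [e, finrank_bot] at hN1; omega)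
  obtain ⟨ι, hι, hισ⟩ := exists_shortHom hΔ
  have h3 : (3 : ℤ) • ι P.1 = 0 := by
    have := (Submodule.mem_torsionBy_iff _ _).1 P.2
    rw [← map_zsmul]
    exact (congrArg ι this).trans (_root_.map_zero ι)
  have hne : ι P.1 ≠ 0 := fun e => hP0 (Subtype.ext (hι (e.trans (_root_.map_zero ι).symm)))
  have hsign : ∀ σ : GQ, galPt σ (galois_intCast σ W.c₄) (galois_intCast σ W.c₆) (ι P.1) = ι P.1 ∨
      galPt σ (galois_intCast σ W.c₄) (galois_intCast σ W.c₆) (ι P.1) = -ι P.1 := by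
    intro σ
    obtain ⟨c, hc⟩ := exists_smul_eq (W' := (W.map (Int.castRingHom ℚ)).toAffine) 3 hN hN1 σ hPN hP0
    rw [← hισ]
    have hc' : σ • P.1 = (c • P).1 := congrArg Subtype.val hc
    obtain ⟨m, rfl⟩ := ZMod.intCast_surjective c
    rw [Int.cast_smul_eq_zsmul] at hc'
    have h3P : (3 : ℤ) • P.1 = 0 := (Submodule.mem_torsionBy_iff _ _).1 P.2
    have hm : m % 3 = 0 ∨ m % 3 = 1 ∨ m % 3 = 2 := by omega
    have hred : m • P.1 = (m % 3) • P.1 := by
      conv_lhs => rw [← Int.emod_add_mul_ediv m 3]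
      rw [add_zsmul, mul_comm (3 : ℤ), mul_zsmul, h3P, zsmul_zero, add_zero]
    have hval : (m • P).1 = m • P.1 := rfl
    rw [hval, hred] at hc'
    rcases hm with e | e | e <;> rw [e] at hc'
    · rw [zero_zsmul] at hc'
      refine absurd (Subtype.ext ?_) hP0
      exact MulAction.injective σ (hc'.trans (smul_zero σ).symm)
    · left; rw [hc', one_zsmul]
    · right
      rw [hc', ← map_neg]
      refine congrArg ι ?_
      rw [eq_neg_iff_add_eq_zero]
      nth_rewrite 2 [← one_zsmul P.1]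
      rw [← add_zsmul]; exact h3P
  rcases hP : ι P.1 with _ | ⟨X, Y, hXY⟩
  · exact absurd hP hne
  rw [hP] at h3 hsign
  have hfix : ∀ σ : GQ, σ X = X := by
    intro σ
    rcases hsign σ with e | e
    · exact ((Affine.Point.some.injEq ..).mp e).1
    · rw [Affine.Point.neg_some] at e
      exact ((Affine.Point.some.injEq ..).mp e).1
  obtain ⟨q, rfl⟩ := (InfiniteGalois.mem_range_algebraMap_iff_fixed X).2 hfix
  set x : Qb := algebraMap ℚ Qb q with hx
  have heq := sc_equation.1 hXY.1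
  have h2 : (Affine.Point.some x Y hXY : (sc (W.c₄ : Qb) (W.c₆ : Qb)).toAffine.Point) +
      Affine.Point.some x Y hXY = -Affine.Point.some x Y hXY := by
    rw [eq_neg_iff_add_eq_zero]
    refine Eq.trans ?_ h3
    rw [show (3 : ℤ) = 1 + 1 + 1 by norm_num, add_zsmul, add_zsmul, one_zsmul]
  have hY : Y ≠ (sc (W.c₄ : Qb) (W.c₆ : Qb)).toAffine.negY x Y := by
    intro e
    rw [Affine.Point.add_self_of_Y_eq e] at h2
    exact Affine.Point.some_ne_zero _ (neg_eq_zero.1 h2.symm)
  rw [Affine.Point.add_self_of_Y_ne hY, Affine.Point.neg_some] at h2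
  have hX := ((Affine.Point.some.injEq ..).mp h2).1
  set L := (sc (W.c₄ : Qb) (W.c₆ : Qb)).toAffine.slope x x Y Y with hL
  have hslope : L * (2 * Y) = 3 * x ^ 2 - 27 * (W.c₄ : Qb) := by
    rw [hL, Affine.slope_of_Y_ne rfl hY, sc_negY]
    have : Y - -Y ≠ 0 := by rw [← sc_negY (W.c₄ : Qb) (W.c₆ : Qb) x Y]; exact sub_ne_zero.2 hY
    rw [div_mul_eq_mul_div, div_eq_iff this]
    simp only [sc]; ring
  simp only [Affine.addX, sc] at hX
  have hroot : divThree (-27 * (W.c₄ : Qb)) (-54 * (W.c₆ : Qb)) (3 * x) = 0 := by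
    simp only [divThree]
    linear_combination (-108 : Qb) * Y ^ 2 * hX + 27 * (L * (2 * Y) + (3 * x ^ 2 - 27 * (W.c₄ : Qb))) * hslope
      - (324 : Qb) * x * heq
  have hint : _root_.IsIntegral ℤ (3 * x) := by
    obtain ⟨k₂, hk₂⟩ : ∃ k : ℤ, k = 18 * (-27 * W.c₄) := ⟨_, rfl⟩
    obtain ⟨k₁, hk₁⟩ : ∃ k : ℤ, k = 108 * (-54 * W.c₆) := ⟨_, rfl⟩
    obtain ⟨k₀, hk₀⟩ : ∃ k : ℤ, k = -27 * (-27 * W.c₄) ^ 2 := ⟨_, rfl⟩
    refine ⟨Polynomial.X ^ 4 + Polynomial.C k₂ * Polynomial.X ^ 2
      + Polynomial.C k₁ * Polynomial.X + Polynomial.C k₀, by monicity!, ?_⟩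
    simp only [divThree] at hroot
    simp only [Polynomial.eval₂_add, Polynomial.eval₂_mul, Polynomial.eval₂_C, Polynomial.eval₂_X_pow,
      Polynomial.eval₂_X]
    simp only [algebraMap_int_eq, eq_intCast, hk₂, hk₁, hk₀]
    push_cast
    linear_combination hroot
  have hint' : _root_.IsIntegral ℤ (3 * q) := by
    refine (isIntegral_algebraMap_iff (algebraMap ℚ Qb).injective).1 ?_
    rwa [map_mul, map_ofNat]
  obtain ⟨U, hU⟩ := IsIntegrallyClosed.isIntegral_iff.1 hint'
  refine ⟨U, ?_⟩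
  have h3x : (3 * x : Qb) = (U : Qb) := by
    rw [hx, show (3 : Qb) * algebraMap ℚ Qb q = algebraMap ℚ Qb (3 * q) by rw [map_mul, map_ofNat], ← hU]
    simp
  rw [h3x] at hroot
  refine Int.cast_injective (α := Qb) ?_
  simp only [divThree] at hroot ⊢
  push_cast
  linear_combination hroot

end Fermat.Agent.ThreeFive
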