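import Fermat.Agent.ThreeFive.Construct
import Fermat.Agent.ThreeFive.GoodParam
import Fermat.Agent.ThreeFive.Three

/-!
# The switch from five to three
-/

set_option autoImplicit false

namespace Fermat.Agent.ThreeFive

open WeierstrassCurve Polynomial Filter Topology Fermat.Agent.Galois

local notation "Qb" => AlgebraicClosure ℚ

/-- There is a semistable curve congruent modulo five with irreducible mod-three representation. -/
theorem exists_switch (W : WeierstrassCurve ℤ) (hΔ : W.Δ ≠ 0) (hW : W.IsSemistableModel) :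
    ∃ W' : WeierstrassCurve ℤ, W'.Δ ≠ 0 ∧ W'.IsSemistableModel ∧ W'.ModRepIsIrreducible 3 ∧
      ∀ ℓ : ℕ, ℓ.Prime → W.IsGoodPrimeFor ℓ → W'.IsGoodPrimeFor ℓ → ℓ ≠ 5 →
        (5 : ℤ) ∣ (W'.apOfModel ℓ - W.apOfModel ℓ) := by
  classical
  have h4 := c4_ne_zero_of_semistable hΔ hW
  have h6 := c6_ne_zero_of_semistable hΔ hW
  haveI := sc_intCast_isElliptic hΔ
  obtain ⟨v, hv⟩ := exists_isOver (K := Qb) (Int.cast_ne_zero.2 h4) (Int.cast_ne_zero.2 h6)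
    (sc_ne (c₄ := (W.c₄ : Qb)) (c₆ := (W.c₆ : Qb)))
  have hDv : dF v.1 v.2 ≠ 0 := dF_ne_zero hv
  obtain ⟨κ, hκ⟩ : ∃ κ : ℤ, dF (wX v.1 v.2 + (κ : Qb) * v.1) (wY v.1 v.2 + (κ : Qb) * v.2) ≠ 0 := by
    by_contra h
    push Not at h
    have hG : dF (lin v.1 (wX v.1 v.2)) (lin v.2 (wY v.1 v.2)) = 0 := by
      refine Polynomial.eq_zero_of_infinite_isRoot _ (Set.Infinite.mono ?_
        (Set.infinite_range_of_injective (Int.cast_injective (α := Qb))))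
      rintro _ ⟨k, rfl⟩
      show IsRoot _ _
      rw [IsRoot, ← coe_evalRingHom, map_dF]
      simp only [coe_evalRingHom, eval_lin]
      rw [← h k]
      congr 1 <;> ring
    have := congrArg (fun p => Polynomial.coeff p 12) hG
    simp only [coeff_dF_lin, coeff_zero] at this
    exact hDv this
  obtain ⟨d, hd, hden⟩ := exists_denominator
    {v.1, v.2, wX v.1 v.2 + κ * v.1, wY v.1 v.2 + κ * v.2}
  obtain ⟨M, hMdef⟩ : ∃ M : ℤ, M = d ^ 30 * (48 * 864 * (30 * W.Δ)) := ⟨_, rfl⟩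
  have hM : M ≠ 0 := by
    rw [hMdef]
    exact mul_ne_zero (pow_ne_zero _ (Int.natCast_ne_zero.2 hd.ne'))
      (mul_ne_zero (by norm_num) (mul_ne_zero (by norm_num) hΔ))
  let φ : Qb →ₐ[ℚ] ℂ := IsAlgClosed.lift
  have hφ : Function.Injective φ := φ.toRingHom.injective
  set a₁ := φ v.1
  set a₂ := φ v.2
  set b₁ := (M : ℂ) * φ (wX v.1 v.2 + κ * v.1) with hb₁
  set b₂ := (M : ℂ) * φ (wY v.1 v.2 + κ * v.2) with hb₂
  have hda : dF a₁ a₂ ≠ 0 := by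
    rw [show dF a₁ a₂ = φ.toRingHom (dF v.1 v.2) from (map_dF φ.toRingHom v.1 v.2).symm]
    exact fun e => hDv (hφ (e.trans (map_zero φ).symm))
  have hdb : dF b₁ b₂ ≠ 0 := by
    rw [hb₁, hb₂, dF_smul]
    refine mul_ne_zero (pow_ne_zero _ (Int.cast_ne_zero.2 hM)) fun e => hκ (hφ ?_)
    rw [map_zero, ← e]
    exact map_dF φ.toRingHom _ _
  have hdet : a₁ * b₂ - a₂ * b₁ ≠ 0 := by
    have e : a₁ * b₂ - a₂ * b₁ = (M : ℂ) * φ (-12 * dF v.1 v.2) := by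
      rw [← det_w, hb₁, hb₂]
      simp only [a₁, a₂, map_sub, map_mul, map_add, map_intCast]
      ring
    rw [e]
    refine mul_ne_zero (Int.cast_ne_zero.2 hM) fun e' => ?_
    exact mul_ne_zero (by norm_num : (-12 : Qb) ≠ 0) hDv (hφ (e'.trans (map_zero φ).symm))
  have hevD : ∀ᶠ n : ℕ in atTop,
      0 < n ∧ dF (a₁ * (n : ℂ)⁻¹ + b₁) (a₂ * (n : ℂ)⁻¹ + b₂) ≠ 0 := by
    have hinv : Tendsto (fun n : ℕ => (n : ℂ)⁻¹) atTop (𝓝 0) :=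
      tendsto_inv_atTop_nhds_zero_nat (𝕜 := ℂ)
    have hc : Tendsto (fun n : ℕ => dF (a₁ * (n : ℂ)⁻¹ + b₁) (a₂ * (n : ℂ)⁻¹ + b₂)) atTop
        (𝓝 (dF b₁ b₂)) := by
      have hcont : Continuous (fun ε : ℂ => dF (a₁ * ε + b₁) (a₂ * ε + b₂)) := by
        simp only [dF]; fun_prop
      simpa [Function.comp_def] using (hcont.tendsto 0).comp hinv
    exact (eventually_gt_atTop 0).and (hc.eventually_ne hdb)
  obtain ⟨N, hN⟩ := eventually_atTop.1 hevD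
  obtain ⟨n, hnN, hno⟩ := exists_good_param hda hdb hdet N
  obtain ⟨hn0, hDn⟩ := hN n hnN
  obtain ⟨W', hc4', hc6', hcd, hdd⟩ := exists_member hΔ h4 h6 hv κ hd hden (30 * W.Δ) (n : ℤ)
  rw [← hMdef] at hc4' hc6'
  have hv' : IsOver (W'.c₄ : Qb) (W'.c₆ : Qb) (pencil v (κ : Qb) ((M * n : ℤ) : Qb)) :=
    ⟨hc4'.symm, hc6'.symm⟩
  have hn : (n : ℂ) ≠ 0 := Nat.cast_ne_zero.2 hn0.ne'
  set z := pencil v (κ : Qb) ((M * n : ℤ) : Qb) with hz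
  have hz1 : φ z.1 = (n : ℂ) * (a₁ * (n : ℂ)⁻¹ + b₁) := by
    rw [hz, pencil, hb₁]
    simp only [a₁, map_add, map_mul, map_intCast, Int.cast_mul, Int.cast_natCast, map_natCast]
    field_simp
  have hz2 : φ z.2 = (n : ℂ) * (a₂ * (n : ℂ)⁻¹ + b₂) := by
    rw [hz, pencil, hb₂]
    simp only [a₂, map_add, map_mul, map_intCast, Int.cast_mul, Int.cast_natCast, map_natCast]
    field_simp
  have hC4 : (W'.c₄ : ℂ) = (n : ℂ) ^ 20 * c4F (a₁ * (n : ℂ)⁻¹ + b₁) (a₂ * (n : ℂ)⁻¹ + b₂) := by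
    rw [← c4F_smul, ← hz1, ← hz2, ← map_intCast φ.toRingHom, ← hv'.1]
    exact map_c4F φ.toRingHom _ _
  have hC6 : (W'.c₆ : ℂ) = (n : ℂ) ^ 30 * c6F (a₁ * (n : ℂ)⁻¹ + b₁) (a₂ * (n : ℂ)⁻¹ + b₂) := by
    rw [← c6F_smul, ← hz1, ← hz2, ← map_intCast φ.toRingHom, ← hv'.2]
    exact map_c6F φ.toRingHom _ _
  have hΔ' : W'.Δ ≠ 0 := by
    intro e
    have hr := congrArg (Int.cast : ℤ → ℂ) W'.c_relation
    rw [e] at hr
    push_cast at hr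
    rw [hC4, hC6] at hr
    have h5 := c4F_cube_sub (a₁ * (n : ℂ)⁻¹ + b₁) (a₂ * (n : ℂ)⁻¹ + b₂)
    generalize c4F (a₁ * (n : ℂ)⁻¹ + b₁) (a₂ * (n : ℂ)⁻¹ + b₂) = x at h5 hr
    generalize c6F (a₁ * (n : ℂ)⁻¹ + b₁) (a₂ * (n : ℂ)⁻¹ + b₂) = y at h5 hr
    refine pow_ne_zero 5 hDn (mul_left_cancel₀ (mul_ne_zero (pow_ne_zero 60 hn)
      (show (1728 : ℂ) ≠ 0 by norm_num)) ?_)
    linear_combination (-((n : ℂ) ^ 60)) * h5 - hr
  refine ⟨W', hΔ', isSemistableModel_member hW hv hv' hcd hdd, ?_, fun ℓ hℓ hg hg' h5 =>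
    five_dvd_apOfModel_sub hΔ h4 h6 hΔ' hv hv' hℓ hg hg' h5⟩
  by_contra hred
  obtain ⟨U, hU⟩ := exists_root_of_reducible hΔ' hred
  refine hno U ?_
  have hU' := congrArg (Int.cast : ℤ → ℂ) hU
  simp only [divThree] at hU' ⊢
  push_cast at hU'
  rw [hC4, hC6] at hU'
  generalize c4F (a₁ * (n : ℂ)⁻¹ + b₁) (a₂ * (n : ℂ)⁻¹ + b₂) = x at hU' ⊢
  generalize c6F (a₁ * (n : ℂ)⁻¹ + b₁) (a₂ * (n : ℂ)⁻¹ + b₂) = y at hU' ⊢
  refine mul_left_cancel₀ (pow_ne_zero 40 hn) ?_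
  rw [mul_zero, ← hU', inv_pow]
  field_simp

end Fermat.Agent.ThreeFive
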