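import Mathlib

/-!
# The icosahedral forms and the universal five-torsion points
-/

set_option autoImplicit false

namespace Fermat.Agent.ThreeFive

section Ring

variable {R : Type*} [CommRing R]

/-- `c₄` form in `a = x⁵`, `b = y⁵`. -/
def c4Ab (a b : R) : R :=
  (a ^ 2) ^ 2 + 228 * (a ^ 2) * (a * b) + 494 * ((a * b) * (a * b)) - 228 * (a * b) * (b ^ 2)
    + (b ^ 2) ^ 2

/-- `c₆` form in `a = x⁵`, `b = y⁵`. -/
def c6Ab (a b : R) : R :=
  -((a ^ 2) ^ 3 - 522 * (a ^ 2) ^ 2 * (a * b) - 10005 * (a ^ 2) ^ 2 * (b ^ 2)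
    - 10005 * (a ^ 2) * (b ^ 2) ^ 2 + 522 * (a * b) * (b ^ 2) ^ 2 + (b ^ 2) ^ 3)

/-- The invariant of degree 20. -/
def c4F (x y : R) : R := c4Ab (x ^ 5) (y ^ 5)

/-- The invariant of degree 30. -/
def c6F (x y : R) : R := c6Ab (x ^ 5) (y ^ 5)

/-- The invariant of degree 12. -/
def dF (x y : R) : R := x * y * ((x ^ 5) ^ 2 - 11 * (x ^ 5 * y ^ 5) - (y ^ 5) ^ 2)

/-- First component of the covariant vector: `∂D/∂y`. -/
def wX (x y : R) : R := x * ((x ^ 5) ^ 2 - 66 * (x ^ 5 * y ^ 5) - 11 * (y ^ 5) ^ 2)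

/-- Second component of the covariant vector: `-∂D/∂x`. -/
def wY (x y : R) : R := -(y * (11 * (x ^ 5) ^ 2 - 66 * (x ^ 5 * y ^ 5) - (y ^ 5) ^ 2))

lemma c4F_cube_sub (x y : R) : c4F x y ^ 3 - c6F x y ^ 2 = 1728 * dF x y ^ 5 := by
  simp only [c4F, c6F, dF, c4Ab, c6Ab]; ring

lemma det_w (x y : R) : x * wY x y - y * wX x y = -12 * dF x y := by
  simp only [wX, wY, dF]; ring

lemma map_c4F {S : Type*} [CommRing S] (φ : R →+* S) (x y : R) :
    φ (c4F x y) = c4F (φ x) (φ y) := by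
  simp [c4F, c4Ab, map_ofNat]

lemma map_c6F {S : Type*} [CommRing S] (φ : R →+* S) (x y : R) :
    φ (c6F x y) = c6F (φ x) (φ y) := by
  simp [c6F, c6Ab, map_ofNat]

lemma map_dF {S : Type*} [CommRing S] (φ : R →+* S) (x y : R) :
    φ (dF x y) = dF (φ x) (φ y) := by
  simp [dF, map_ofNat]

lemma map_wX {S : Type*} [CommRing S] (φ : R →+* S) (x y : R) :
    φ (wX x y) = wX (φ x) (φ y) := by
  simp [wX, map_ofNat]

lemma map_wY {S : Type*} [CommRing S] (φ : R →+* S) (x y : R) :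
    φ (wY x y) = wY (φ x) (φ y) := by
  simp [wY, map_ofNat]

lemma c4F_smul (s x y : R) : c4F (s * x) (s * y) = s ^ 20 * c4F x y := by
  simp only [c4F, c4Ab]; ring

lemma c6F_smul (s x y : R) : c6F (s * x) (s * y) = s ^ 30 * c6F x y := by
  simp only [c6F, c6Ab]; ring

lemma dF_smul (s x y : R) : dF (s * x) (s * y) = s ^ 12 * dF x y := by
  simp only [dF]; ring

lemma wX_smul (s x y : R) : wX (s * x) (s * y) = s ^ 11 * wX x y := by
  simp only [wX]; ring

lemma wY_smul (s x y : R) : wY (s * x) (s * y) = s ^ 11 * wY x y := by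
  simp only [wY]; ring

/-- The second point, `x`-coordinate (rational coefficients). -/
def xQ (x y : R) : R :=
  3 * x^10 + 36 * x^8 * y^2 + 36 * x^7 * y^3 + 72 * x^6 * y^4 - 90 * x^5 * y^5 +
    180 * x^4 * y^6 - 108 * x^3 * y^7 + 72 * x^2 * y^8 - 36 * x * y^9 + 3 * y^10

/-- The second point, `y`-coordinate (rational coefficients). -/
def yQ (x y : R) : R :=
  108 * x^13 * y^2 - 108 * x^12 * y^3 + 432 * x^11 * y^4 + 540 * x^9 * y^6 - 648 * x^8 * y^7 +
    2268 * x^7 * y^8 - 3132 * x^6 * y^9 + 2700 * x^5 * y^10 - 1620 * x^4 * y^11 +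
    972 * x^3 * y^12 - 432 * x^2 * y^13 + 108 * x * y^14

lemma map_xQ {S : Type*} [CommRing S] (φ : R →+* S) (x y : R) :
    φ (xQ x y) = xQ (φ x) (φ y) := by
  simp [xQ, map_ofNat]

lemma map_yQ {S : Type*} [CommRing S] (φ : R →+* S) (x y : R) :
    φ (yQ x y) = yQ (φ x) (φ y) := by
  simp [yQ, map_ofNat]

lemma xQ_smul (s x y : R) : xQ (s * x) (s * y) = s ^ 10 * xQ x y := by
  simp only [xQ]; ring

lemma yQ_smul (s x y : R) : yQ (s * x) (s * y) = s ^ 15 * yQ x y := by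
  simp only [yQ]; ring

end Ring

section Field

variable {K : Type*} [Field K]

/-- The first point, `x`-coordinate; `f` is a root of `X² - X - 1`. -/
def xP (f x y : K) : K :=
  ((-93 + 36 * f) * (x ^ 5) ^ 2 + (198 - 396 * f) * (x ^ 5 * y ^ 5)
    + (-57 - 36 * f) * (y ^ 5) ^ 2) / 5

/-- The first point, `y`-coordinate divided by `m`. -/
def yY (f x y : K) : K :=
  ((324 - 216 * f) * (x ^ 5 * (x ^ 5) ^ 2) + (-3456 + 2484 * f) * ((x ^ 5) ^ 2 * y ^ 5)
    + (-1512 - 972 * f) * (x ^ 5 * (y ^ 5) ^ 2) + (-108 - 108 * f) * (y ^ 5 * (y ^ 5) ^ 2)) / 5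

/-- The first point, `y`-coordinate; `m² = -f - 2`. -/
def yP (f m x y : K) : K := m * yY f x y

/-- The tangent slope at the first point, divided by `m`. -/
def kP (f x y : K) : K := ((-18 + 21 * f) * x ^ 5 + (24 - 3 * f) * y ^ 5) / 5

/-- The slope of the chord through the second point and minus the first. -/
def lS (z x y : K) : K :=
  (12/5) * z^3 * x^5 - 6 * z^3 * x^3 * y^2 - (6/5) * z^3 * y^5 - (6/5) * z^2 * x^5 +
    6 * z^2 * x^2 * y^3 - (12/5) * z^2 * y^5 + (6/5) * z * x^5 - 6 * z * x * y^4 -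
    (18/5) * z * y^5 + (3/5) * x^5 + 6 * x^3 * y^2 - 6 * x^2 * y^3 + 6 * x * y^4 - (9/5) * y^5

lemma map_xP {L : Type*} [Field L] (φ : K →+* L) (f x y : K) :
    φ (xP f x y) = xP (φ f) (φ x) (φ y) := by
  simp [xP, map_ofNat]

lemma map_yP {L : Type*} [Field L] (φ : K →+* L) (f m x y : K) :
    φ (yP f m x y) = yP (φ f) (φ m) (φ x) (φ y) := by
  simp [yP, yY, map_ofNat]

lemma xP_smul (f s x y : K) : xP f (s * x) (s * y) = s ^ 10 * xP f x y := by
  simp only [xP]; ring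

lemma yP_smul (f m s x y : K) : yP f m (s * x) (s * y) = s ^ 15 * yP f m x y := by
  simp only [yP, yY]; ring

end Field

end Fermat.Agent.ThreeFive
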