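import Mathlib

/-!
# Differences killing polynomials of degree ten, applied to negative powers
-/

set_option autoImplicit false

namespace Fermat.Agent.ThreeFive

open Polynomial Filter Topology

/-- Truncation of `(1 + X)^-(r+1)`. -/
noncomputable def negPowTrunc (r : ℕ) : ℂ[X] :=
  ∑ k ∈ Finset.range 12, C ((-1) ^ k * ((r + k).choose k : ℂ)) * X ^ k

lemma negPowTrunc_coeff (r d : ℕ) :
    (negPowTrunc r).coeff d = if d < 12 then (-1) ^ d * ((r + d).choose d : ℂ) else 0 := by
  simp only [negPowTrunc, finset_sum_coeff, coeff_C_mul_X_pow]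
  rw [Finset.sum_ite_eq (Finset.range 12) d]
  simp

lemma X_pow_dvd_negPow (r : ℕ) : (X : ℂ[X]) ^ 12 ∣ (1 + X) ^ (r + 1) * negPowTrunc r - 1 := by
  induction r with
  | zero =>
    rw [X_pow_dvd_iff]
    intro d hd
    rw [coeff_sub, pow_one, add_mul, one_mul, coeff_add, coeff_one]
    rcases d with _ | d
    · simp [negPowTrunc_coeff]
    · rw [coeff_X_mul, negPowTrunc_coeff, negPowTrunc_coeff, if_pos hd, if_pos (by omega)]
      simp [pow_succ]
  | succ r ih =>
    have h : (X : ℂ[X]) ^ 12 ∣ (1 + X) * negPowTrunc (r + 1) - negPowTrunc r := by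
      rw [X_pow_dvd_iff]
      intro d hd
      rw [coeff_sub, add_mul, one_mul, coeff_add]
      rcases d with _ | d
      · simp [negPowTrunc_coeff]
      · rw [coeff_X_mul, negPowTrunc_coeff, negPowTrunc_coeff, negPowTrunc_coeff, if_pos hd,
          if_pos (by omega), if_pos hd]
        have : (r + 1 + (d + 1)).choose (d + 1) = (r + 1 + d).choose d + (r + (d + 1)).choose (d + 1) := by
          rw [show r + 1 + (d + 1) = (r + 1 + d) + 1 by ring, Nat.choose_succ_succ,
            show r + (d + 1) = r + 1 + d by ring]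
        rw [this]; push_cast; ring
    have e : (1 + X) ^ (r + 1 + 1) * negPowTrunc (r + 1) - 1 =
        (1 + X) ^ (r + 1) * ((1 + X) * negPowTrunc (r + 1) - negPowTrunc r) +
          ((1 + X) ^ (r + 1) * negPowTrunc r - 1) := by ring
    rw [e]
    exact dvd_add (dvd_mul_of_dvd_right h _) ih

variable {ι : Type*} [Fintype ι] (e : ι → ℂ) (c : ι → ℂ)

/-- Moments of the coefficients. -/
noncomputable def moment (k : ℕ) : ℂ := ∑ j, c j * e j ^ k

lemma sum_pow_eq_zero (h : ∀ k ≤ 10, moment e c k = 0) (n : ℂ) {k : ℕ} (hk : k ≤ 10) :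
    ∑ j, c j * (n + e j) ^ k = 0 := by
  simp only [add_pow, Finset.mul_sum]
  rw [Finset.sum_comm]
  refine Finset.sum_eq_zero fun i hi => ?_
  rw [show ∑ j, c j * (n ^ i * e j ^ (k - i) * (k.choose i : ℂ)) =
    n ^ i * (k.choose i : ℂ) * moment e c (k - i) by
      rw [moment, Finset.mul_sum]; exact Finset.sum_congr rfl fun j _ => by ring]
  rw [h _ (le_trans (Nat.sub_le _ _) hk), mul_zero]

/-- The leading term of a difference of negative powers. -/
theorem tendsto_diff (h : ∀ k ≤ 10, moment e c k = 0) (r : ℕ) :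
    Tendsto (fun n : ℕ => (n : ℂ) ^ (r + 12) * ∑ j, c j / ((n : ℂ) + e j) ^ (r + 1)) atTop
      (𝓝 (-((r + 11).choose 11 : ℂ) * moment e c 11)) := by
  obtain ⟨S, hS⟩ := X_pow_dvd_negPow r
  have hinv : Tendsto (fun n : ℕ => (n : ℂ)⁻¹) atTop (𝓝 0) :=
    tendsto_inv_atTop_nhds_zero_nat (𝕜 := ℂ)
  have hR : Tendsto (fun n : ℕ => -((r + 11).choose 11 : ℂ) * moment e c 11 -
      (n : ℂ)⁻¹ * ∑ j, c j * e j ^ 12 * S.eval (e j * (n : ℂ)⁻¹) /
        (1 + e j * (n : ℂ)⁻¹) ^ (r + 1)) atTop (𝓝 (-((r + 11).choose 11 : ℂ) * moment e c 11)) := by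
    have h1 : Tendsto (fun n : ℕ => ∑ j, c j * e j ^ 12 * S.eval (e j * (n : ℂ)⁻¹) /
        (1 + e j * (n : ℂ)⁻¹) ^ (r + 1)) atTop (𝓝 (∑ j, c j * e j ^ 12 * S.eval 0 / 1)) := by
      refine tendsto_finset_sum _ fun j _ => ?_
      have hy : Tendsto (fun n : ℕ => e j * (n : ℂ)⁻¹) atTop (𝓝 0) := by
        simpa using hinv.const_mul (e j)
      refine Tendsto.div (tendsto_const_nhds.mul ((S.continuous.tendsto 0).comp hy)) ?_ one_ne_zero
      simpa using ((tendsto_const_nhds (x := (1 : ℂ))).add hy).pow (r + 1)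
    simpa using tendsto_const_nhds.sub (hinv.mul h1)
  refine hR.congr' ?_
  have hne : ∀ j, ∀ᶠ n : ℕ in atTop, (n : ℂ) + e j ≠ 0 := fun j => by
    have : Tendsto (fun n : ℕ => 1 + e j * (n : ℂ)⁻¹) atTop (𝓝 1) := by
      simpa using tendsto_const_nhds.add (hinv.const_mul (e j))
    filter_upwards [this.eventually_ne one_ne_zero, eventually_gt_atTop 0] with n hn hn0 h0
    refine hn ?_
    have : (n : ℂ) ≠ 0 := Nat.cast_ne_zero.2 hn0.ne'
    field_simp
    linear_combination h0
  filter_upwards [eventually_all.2 hne, eventually_gt_atTop 0] with n hn hn0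
  have hn' : (n : ℂ) ≠ 0 := Nat.cast_ne_zero.2 hn0.ne'
  set ε := (n : ℂ)⁻¹ with hε
  have key : ∀ j, (n : ℂ) ^ (r + 12) * (c j / ((n : ℂ) + e j) ^ (r + 1)) =
      (n : ℂ) ^ 11 * (c j * (negPowTrunc r).eval (e j * ε)) -
        ε * (c j * e j ^ 12 * S.eval (e j * ε) / (1 + e j * ε) ^ (r + 1)) := fun j => by
    have hpos : 1 + e j * ε ≠ 0 := by
      intro h0; refine hn j ?_
      have : (n : ℂ) * (1 + e j * ε) = 0 := by rw [h0, mul_zero]
      rw [← this, hε]; field_simp
    have hid := congrArg (Polynomial.eval (e j * ε)) hS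
    simp only [eval_sub, eval_mul, eval_pow, eval_add, eval_one, eval_X] at hid
    have hsum : (n : ℂ) + e j = n * (1 + e j * ε) := by rw [hε]; field_simp
    have hT : (negPowTrunc r).eval (e j * ε) =
        (1 + (e j * ε) ^ 12 * S.eval (e j * ε)) / (1 + e j * ε) ^ (r + 1) := by
      rw [eq_div_iff (pow_ne_zero _ hpos)]; linear_combination hid
    rw [hT, hsum, mul_pow (n : ℂ)]
    have hP : (1 + e j * ε) ^ (r + 1) ≠ 0 := pow_ne_zero _ hpos
    generalize (1 + e j * ε) ^ (r + 1) = P at hP ⊢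
    generalize S.eval (e j * ε) = s
    rw [hε]
    field_simp
    ring
  symm
  rw [Finset.mul_sum, Finset.sum_congr rfl fun j _ => key j, Finset.sum_sub_distrib]
  congr 1
  · simp only [negPowTrunc, eval_finset_sum, eval_mul, eval_C, eval_pow, eval_X, mul_pow,
      Finset.mul_sum]
    rw [Finset.sum_comm, Finset.sum_eq_single 11]
    · rw [moment, Finset.mul_sum]
      refine Finset.sum_congr rfl fun j _ => ?_
      rw [hε, inv_pow]
      field_simp
    · intro k hk hk11
      rw [show ∑ j, (n : ℂ) ^ 11 * (c j * ((-1) ^ k * ((r + k).choose k : ℂ) * (e j ^ k * ε ^ k))) =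
        (n : ℂ) ^ 11 * ((-1) ^ k * ((r + k).choose k : ℂ)) * ε ^ k * moment e c k by
          rw [moment, Finset.mul_sum]; exact Finset.sum_congr rfl fun j _ => by ring]
      rw [h k (by simp at hk; omega), mul_zero]
    · simp
  · rw [Finset.mul_sum]

/-- Integer coefficients killing the moments up to ten but not the eleventh. -/
theorem exists_coeff (e : Fin 12 → ℤ) (he : Function.Injective e) :
    ∃ c : Fin 12 → ℤ, (∀ k ≤ 10, ∑ j, c j * e j ^ k = 0) ∧ ∑ j, c j * e j ^ 11 ≠ 0 := by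
  set M := (Matrix.vandermonde e).transpose with hM
  have hdet : M.det ≠ 0 := by
    rw [hM, Matrix.det_transpose]
    exact Matrix.det_vandermonde_ne_zero_iff.2 he
  refine ⟨M.adjugate.mulVec (Pi.single 11 1), ?_⟩
  have hMc : M.mulVec (M.adjugate.mulVec (Pi.single 11 1)) = M.det • Pi.single 11 1 := by
    rw [Matrix.mulVec_mulVec, Matrix.mul_adjugate, Matrix.smul_mulVec, Matrix.one_mulVec]
  have hk : ∀ k : Fin 12, ∑ j, (M.adjugate.mulVec (Pi.single 11 1)) j * e j ^ (k : ℕ) =
      M.det * (Pi.single 11 1 : Fin 12 → ℤ) k := fun k => by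
    have := congrFun hMc k
    simp only [Pi.smul_apply, smul_eq_mul] at this
    rw [← this]
    simp [Matrix.mulVec, dotProduct, hM, Matrix.vandermonde, mul_comm]
  refine ⟨fun k hk10 => ?_, ?_⟩
  · have := hk ⟨k, by omega⟩
    rw [Pi.single_eq_of_ne (by intro h; simp [Fin.ext_iff] at h; omega), mul_zero] at this
    exact this
  · have := hk 11
    rw [Pi.single_eq_same, mul_one] at this
    simp only [show ((11 : Fin 12) : ℕ) = 11 from rfl] at this
    rw [this]; exact hdet

end Fermat.Agent.ThreeFive
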