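import Fermat.Agent.ThreeFive.Basic

/-!
# The invariants have no common zero
-/

set_option autoImplicit false

namespace Fermat.Agent.ThreeFive

variable {F : Type*} [Field F]

lemma eq_zero_of_c4F_dF {x y : F} (h5 : (5 : F) ≠ 0) (h4 : c4F x y = 0) (hd : dF x y = 0) :
    x = 0 ∧ y = 0 := by
  simp only [dF, mul_eq_zero] at hd
  simp only [c4F, c4Ab] at h4
  rcases hd with (rfl | rfl) | hd
  · simp [mul_eq_zero] at h4; exact ⟨rfl, h4⟩
  · simp [mul_eq_zero] at h4; exact ⟨h4, rfl⟩
  · set a := x ^ 5 with ha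
    set b := y ^ 5 with hb
    have e : (5 : F) ^ 5 * (b ^ 3 * (11 * a + b)) = 0 := by
      linear_combination h4 - (a ^ 2 + 239 * a * b + 3124 * b ^ 2) * hd
    rcases mul_eq_zero.1 ((mul_eq_zero.1 e).resolve_left (pow_ne_zero _ h5)) with hb0 | hab
    · have hb0 : b = 0 := eq_zero_of_pow_eq_zero hb0
      have ha0 : a = 0 := by
        rw [hb0] at hd; simpa using hd
      exact ⟨eq_zero_of_pow_eq_zero ha0, eq_zero_of_pow_eq_zero hb0⟩
    · have hbe : b = -11 * a := by linear_combination hab
      have ha0 : a = 0 := by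
        rw [hbe] at hd
        exact eq_zero_of_pow_eq_zero (n := 2) (by linear_combination hd)
      exact ⟨eq_zero_of_pow_eq_zero ha0, eq_zero_of_pow_eq_zero (hbe.trans (by rw [ha0, mul_zero]))⟩

lemma eq_zero_of_wX_wY [CharZero F] {x y : F} (h1 : wX x y = 0) (h2 : wY x y = 0) :
    x = 0 ∧ y = 0 := by
  simp only [wX, mul_eq_zero] at h1
  simp only [wY, neg_eq_zero, mul_eq_zero] at h2
  rcases h1 with rfl | h1
  · rcases h2 with rfl | h2
    · exact ⟨rfl, rfl⟩
    · simp at h2; exact ⟨rfl, h2⟩
  · rcases h2 with rfl | h2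
    · simp at h1; exact ⟨h1, rfl⟩
    · set a := x ^ 5 with ha
      set b := y ^ 5 with hb
      have e1 : a ^ 2 = -b ^ 2 := by linear_combination (h2 - h1) / 10
      have e2 : b * (12 * b + 66 * a) = 0 := by linear_combination e1 - h1
      have hb0 : b = 0 := by
        rcases mul_eq_zero.1 e2 with e | e
        · exact e
        · have : b = -11 / 2 * a := by linear_combination e / 12
          rw [this] at e1
          have ha0 : a = 0 := eq_zero_of_pow_eq_zero (n := 2) (by linear_combination (4 / 125 : F) * e1)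
          rw [this, ha0, mul_zero]
      have ha0 : a = 0 := eq_zero_of_pow_eq_zero (n := 2) (by rw [e1, hb0]; ring)
      exact ⟨eq_zero_of_pow_eq_zero ha0, eq_zero_of_pow_eq_zero hb0⟩

end Fermat.Agent.ThreeFive
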