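import Fermat.Agent.ThreeFive.Galois
import Fermat.Agent.ThreeFive.NoCommonZero

/-!
# Semistable members of the pencil
-/

set_option autoImplicit false
set_option linter.unusedSectionVars false

namespace Fermat.Agent.ThreeFive

open WeierstrassCurve Polynomial IsLocalRing Fermat.Agent.EC Fermat.Agent.Galois

local notation "Qb" => AlgebraicClosure ℚ

lemma c4_ne_zero_of_semistable {W : WeierstrassCurve ℤ} (hΔ : W.Δ ≠ 0) (hW : W.IsSemistableModel) :
    W.c₄ ≠ 0 := by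
  intro h
  have hone : W.Δ.natAbs = 1 := by
    by_contra hne
    obtain ⟨p, hp, hpd⟩ := Nat.exists_prime_and_dvd hne
    exact hW p hp (Int.natCast_dvd.2 hpd) (h ▸ dvd_zero _)
  have hc := W.c_relation
  rw [h] at hc
  rcases Int.natAbs_eq W.Δ with e | e <;> rw [e, hone] at hc <;> push_cast at hc
  · nlinarith [sq_nonneg W.c₆]
  · have hlo : 41 < |W.c₆| := by
      by_contra hle; nlinarith [sq_abs W.c₆, abs_nonneg W.c₆, not_lt.1 hle]
    have hhi : |W.c₆| < 42 := by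
      by_contra hle; nlinarith [sq_abs W.c₆, abs_nonneg W.c₆, not_lt.1 hle]
    omega

lemma c6_ne_zero_of_semistable {W : WeierstrassCurve ℤ} (hΔ : W.Δ ≠ 0) (hW : W.IsSemistableModel) :
    W.c₆ ≠ 0 := by
  intro h
  have hc := W.c_relation
  rw [h] at hc
  have hone : W.Δ.natAbs = 1 := by
    by_contra hne
    obtain ⟨p, hp, hpd⟩ := Nat.exists_prime_and_dvd hne
    have hpZ : (p : ℤ) ∣ W.Δ := Int.natCast_dvd.2 hpd
    refine hW p hp hpZ ((Nat.prime_iff_prime_int.1 hp).dvd_of_dvd_pow (n := 3) ?_)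
    rw [show W.c₄ ^ 3 = 1728 * W.Δ by linear_combination -hc]
    exact hpZ.mul_left _
  have h4 : W.c₄ = 12 ∨ W.c₄ = -12 := by
    have hd : W.c₄.natAbs ^ 3 = 1728 := by
      have : W.c₄ ^ 3 = 1728 * W.Δ := by linear_combination -hc
      rw [← Int.natAbs_pow, this, Int.natAbs_mul, hone]; rfl
    have : W.c₄.natAbs = 12 := Nat.pow_left_injective (n := 3) (by norm_num) (hd.trans (by norm_num))
    omega
  have hb2 : ∀ k, W.a₁ = 2 * k → W.b₂ = 4 * (k ^ 2 + W.a₂) := fun k hk => by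
    rw [WeierstrassCurve.b₂, hk]; ring
  rcases Int.even_or_odd' W.a₁ with ⟨k, hk | hk⟩
  · have : W.c₄ = 8 * (2 * (k ^ 2 + W.a₂) ^ 2 - 3 * W.b₄) := by
      rw [WeierstrassCurve.c₄, hb2 k hk]; ring
    omega
  · have : W.c₄ = 2 * (2 * (k ^ 2 + k + W.a₂) * (4 * (k ^ 2 + k + W.a₂) + 2) - 12 * W.b₄) + 1 := by
      rw [WeierstrassCurve.c₄, WeierstrassCurve.b₂, hk]; ring
    omega

/-- There is a vector with given invariants. -/
lemma exists_isOver {K : Type*} [Field K] [CharZero K] [IsAlgClosed K] {c₄ c₆ : K} (h4 : c₄ ≠ 0)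
    (h6 : c₆ ≠ 0) (hne : c₄ ^ 3 ≠ c₆ ^ 2) : ∃ v : K × K, IsOver c₄ c₆ v := by
  set G : K[X] := C (c₆ ^ 2) * c4F 1 X ^ 3 - C (c₄ ^ 3) * c6F 1 X ^ 2 with hG
  have hdeg : G.natDegree = 60 := by
    have h1 : (c4F 1 X : K[X]).natDegree = 20 := by simp only [c4F, c4Ab]; compute_degree!
    have e6 : (c6F 1 X : K[X]) = -X ^ 30 - C 522 * X ^ 25 + C 10005 * X ^ 20 + C 10005 * X ^ 10
        + C 522 * X ^ 5 - C 1 := by
      simp only [c6F, c6Ab, map_ofNat, map_one]; ring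
    have h2 : (c6F 1 X : K[X]).natDegree = 30 := by rw [e6]; compute_degree!
    have l1 : (c4F 1 X : K[X]).coeff 20 = 1 := by simp only [c4F, c4Ab]; compute_degree!
    have l2 : (c6F 1 X : K[X]).coeff 30 = -1 := by
      rw [e6]; simp [coeff_X_pow, coeff_one, -map_ofNat, -map_one]
    have k1 : (c4F 1 X ^ 3 : K[X]).coeff 60 = 1 := by
      rw [show 60 = 3 * 20 by norm_num, ← h1, coeff_pow_mul_natDegree, leadingCoeff, h1, l1, one_pow]
    have k2 : (c6F 1 X ^ 2 : K[X]).coeff 60 = 1 := by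
      rw [show 60 = 2 * 30 by norm_num, ← h2, coeff_pow_mul_natDegree, leadingCoeff, h2, l2]; ring
    refine le_antisymm ((natDegree_sub_le _ _).trans (max_le ?_ ?_)) (le_natDegree_of_ne_zero ?_)
    · exact (natDegree_C_mul_le _ _).trans (natDegree_pow_le.trans (by omega))
    · exact (natDegree_C_mul_le _ _).trans (natDegree_pow_le.trans (by omega))
    · rw [coeff_sub, coeff_C_mul, coeff_C_mul, k1, k2, mul_one, mul_one, sub_ne_zero]
      exact hne.symm
  obtain ⟨t, ht⟩ := IsAlgClosed.exists_root G (by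
    intro h; have := natDegree_eq_zero_iff_degree_le_zero.2 h.le; omega)
  rw [IsRoot, hG, eval_sub, eval_mul, eval_mul, eval_C, eval_C, eval_pow, eval_pow,
    ← coe_evalRingHom, map_c4F, map_c6F] at ht
  simp only [map_one, coe_evalRingHom, eval_X] at ht
  have hne4 : c4F 1 t ≠ 0 := by
    intro e
    rw [e] at ht
    have e6 : c6F 1 t = 0 := by simpa [h4] using ht
    have ed : dF (1 : K) t = 0 := by
      have := c4F_cube_sub (1 : K) t
      rw [e, e6] at this
      simpa using this.symm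
    exact one_ne_zero (eq_zero_of_c4F_dF (by norm_num) e ed).1
  have hne6 : c6F 1 t ≠ 0 := by
    intro e
    rw [e] at ht
    simp [h6, hne4] at ht
  set ρ := c₄ / c4F 1 t
  set π := c₆ / c6F 1 t
  have hρ : ρ ≠ 0 := div_ne_zero h4 hne4
  have hπρ : π ^ 2 = ρ ^ 3 := by
    simp only [ρ, π]; field_simp; linear_combination ht
  obtain ⟨s, hs⟩ := IsAlgClosed.exists_pow_nat_eq (π / ρ) (show 0 < 10 by norm_num)
  have hs20 : s ^ 20 = ρ := by
    rw [show s ^ 20 = (s ^ 10) ^ 2 by ring, hs, div_pow, hπρ]; field_simp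
  have hs30 : s ^ 30 = π := by
    rw [show s ^ 30 = s ^ 20 * s ^ 10 by ring, hs20, hs]; field_simp
  refine ⟨(s * 1, s * t), ?_, ?_⟩
  · rw [c4F_smul, hs20, div_mul_cancel₀ _ hne4]
  · rw [c6F_smul, hs30, div_mul_cancel₀ _ hne6]

lemma exists_denominator (s : Finset Qb) :
    ∃ d : ℕ, 0 < d ∧ ∀ y ∈ s, _root_.IsIntegral ℤ ((d : Qb) * y) := by
  classical
  induction s using Finset.induction_on with
  | empty => exact ⟨1, one_pos, by simp⟩
  | insert a s _ ih =>
    obtain ⟨d, hd, hds⟩ := ih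
    obtain ⟨k, hk, hka⟩ := ((IsFractionRing.isAlgebraic_iff ℤ ℚ Qb).mpr
      (Algebra.IsAlgebraic.isAlgebraic (R := ℚ) a)).exists_integral_multiple
    rw [zsmul_eq_mul] at hka
    have hka' : _root_.IsIntegral ℤ ((k.natAbs : Qb) * a) := by
      rcases Int.natAbs_eq k with e | e
      · have : ((k.natAbs : ℤ) : Qb) = (k : Qb) := by rw [← e]
        rw [← Int.cast_natCast, this]; exact hka
      · have : ((k.natAbs : ℤ) : Qb) = -(k : Qb) := by
          conv_rhs => rw [e]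
          push_cast; ring
        rw [← Int.cast_natCast, this, neg_mul]; exact hka.neg
    refine ⟨k.natAbs * d, Nat.mul_pos (Int.natAbs_pos.2 hk) hd, ?_⟩
    intro y hy
    rcases Finset.mem_insert.1 hy with rfl | hy
    · rw [Nat.cast_mul, mul_comm (k.natAbs : Qb), mul_assoc]
      exact IsIntegral.mul (isIntegral_natCast _) hka'
    · rw [Nat.cast_mul, mul_assoc]
      exact IsIntegral.mul (isIntegral_natCast _) (hds y hy)

/-- A rational algebraic integer is an integer. -/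
lemma exists_intCast {y : Qb} (hy : _root_.IsIntegral ℤ y) (hfix : ∀ σ : GQ, σ y = y) :
    ∃ m : ℤ, y = (m : Qb) := by
  obtain ⟨q, rfl⟩ := (InfiniteGalois.mem_range_algebraMap_iff_fixed y).2 hfix
  obtain ⟨m, hm⟩ := IsIntegrallyClosed.isIntegral_iff.1
    ((isIntegral_algebraMap_iff (algebraMap ℚ Qb).injective).1 hy)
  exact ⟨m, by rw [← hm]; simp⟩

section Congruence

/-- `d^k (F(v + tu) - F(v))` is a multiple of `t`. -/
lemma exists_sub_eq (F : ∀ {R : Type} [CommRing R], R → R → R) (k : ℕ)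
    (hmap : ∀ {R S : Type} [CommRing R] [CommRing S] (φ : R →+* S) (x y : R), φ (F x y) = F (φ x) (φ y))
    (hsmul : ∀ {R : Type} [CommRing R] (s x y : R), F (s * x) (s * y) = s ^ k * F x y)
    {v u : Qb × Qb} {d : ℕ} (hv₁ : _root_.IsIntegral ℤ ((d : Qb) * v.1))
    (hv₂ : _root_.IsIntegral ℤ ((d : Qb) * v.2)) (hu₁ : _root_.IsIntegral ℤ ((d : Qb) * u.1))
    (hu₂ : _root_.IsIntegral ℤ ((d : Qb) * u.2)) (t : ℤ) :
    ∃ r : Qb, _root_.IsIntegral ℤ r ∧
      (d : Qb) ^ k * (F (v.1 + t * u.1) (v.2 + t * u.2) - F v.1 v.2) = t * r := by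
  let V₁ : ZBar := ⟨_, hv₁⟩
  let V₂ : ZBar := ⟨_, hv₂⟩
  let U₁ : ZBar := ⟨_, hu₁⟩
  let U₂ : ZBar := ⟨_, hu₂⟩
  have hdvd : (t : ZBar) ∣ F (V₁ + t * U₁) (V₂ + t * U₂) - F V₁ V₂ := by
    rw [← Ideal.mem_span_singleton, ← Ideal.Quotient.eq, hmap, hmap]
    simp only [map_add, map_mul]
    rw [show (Ideal.Quotient.mk (Ideal.span {(t : ZBar)})) (t : ZBar) = 0 from
      Ideal.Quotient.eq_zero_iff_mem.2 (Ideal.mem_span_singleton_self _)]
    simp
  obtain ⟨r, hr⟩ := hdvd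
  refine ⟨r, r.2, ?_⟩
  have := congrArg (Subalgebra.val (integralClosure ℤ Qb)).toRingHom hr
  rw [map_sub, hmap, hmap, map_mul] at this
  simp only [map_add, map_mul, map_intCast] at this
  refine Eq.trans ?_ this
  rw [mul_sub, ← hsmul, ← hsmul]
  simp only [V₁, V₂, U₁, U₂, AlgHom.toRingHom_eq_coe, RingHom.coe_coe, Subalgebra.coe_val, mul_add]
  congr 2 <;> ring

end Congruence

section Member

variable {W : WeierstrassCurve ℤ}

/-- The members: congruent to `W` modulo `B` and with the invariants of the pencil. -/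
theorem exists_member (hΔ : W.Δ ≠ 0) (h4 : W.c₄ ≠ 0) (h6 : W.c₆ ≠ 0) {v : Qb × Qb}
    (hv : IsOver (W.c₄ : Qb) (W.c₆ : Qb) v) (κ : ℤ) {d : ℕ} (hd : 0 < d)
    (hden : ∀ y ∈ ({v.1, v.2, wX v.1 v.2 + κ * v.1, wY v.1 v.2 + κ * v.2} : Finset Qb),
      _root_.IsIntegral ℤ ((d : Qb) * y)) (B n : ℤ) :
    ∃ W' : WeierstrassCurve ℤ,
      (W'.c₄ : Qb) = c4F (pencil v (κ : Qb) ((d ^ 30 * (48 * 864 * B) * n : ℤ) : Qb)).1
        (pencil v (κ : Qb) ((d ^ 30 * (48 * 864 * B) * n : ℤ) : Qb)).2 ∧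
      (W'.c₆ : Qb) = c6F (pencil v (κ : Qb) ((d ^ 30 * (48 * 864 * B) * n : ℤ) : Qb)).1
        (pencil v (κ : Qb) ((d ^ 30 * (48 * 864 * B) * n : ℤ) : Qb)).2 ∧
      B ∣ W'.c₄ - W.c₄ ∧ B ∣ W'.Δ - W.Δ := by
  set t : ℤ := d ^ 30 * (48 * 864 * B) * n with ht
  have hd' : (d : Qb) ≠ 0 := Nat.cast_ne_zero.2 hd.ne'
  have key : ∀ (F : ∀ {R : Type} [CommRing R], R → R → R) (k : ℕ), k ≤ 30 →
      (∀ {R S : Type} [CommRing R] [CommRing S] (φ : R →+* S) (x y : R), φ (F x y) = F (φ x) (φ y)) →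
      (∀ {R : Type} [CommRing R] (s x y : R), F (s * x) (s * y) = s ^ k * F x y) →
      ∀ c : ℤ, F v.1 v.2 = (c : Qb) →
      (∀ σ : GQ, σ (F (pencil v (κ : Qb) (t : Qb)).1 (pencil v (κ : Qb) (t : Qb)).2) =
        F (pencil v (κ : Qb) (t : Qb)).1 (pencil v (κ : Qb) (t : Qb)).2) →
      ∃ m : ℤ, F (pencil v (κ : Qb) (t : Qb)).1 (pencil v (κ : Qb) (t : Qb)).2 =
        ((c + 48 * 864 * B * m : ℤ) : Qb) := by
    intro F k hk hmap hsmul c hc hfix
    obtain ⟨r, hr, he⟩ := exists_sub_eq F k hmap hsmul (v := v)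
      (u := (wX v.1 v.2 + κ * v.1, wY v.1 v.2 + κ * v.2)) (hden _ (by simp)) (hden _ (by simp))
      (hden _ (by simp)) (hden _ (by simp)) t
    change (d : Qb) ^ k * (F (pencil v (κ : Qb) (t : Qb)).1 (pencil v (κ : Qb) (t : Qb)).2 - F v.1 v.2) = _ at he
    rcases eq_or_ne B 0 with hB | hB
    · refine ⟨0, ?_⟩
      have ht1 : t = 0 := by rw [ht, hB]; ring
      simp only [ht1, Int.cast_zero, zero_mul, mul_eq_zero, sub_eq_zero] at he
      have ht0 : t = 0 := by rw [ht, hB]; ring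
      rw [ht0, Int.cast_zero, hB, mul_zero, add_zero, ← hc]
      exact he.resolve_left (pow_ne_zero _ hd')
    have hK : ((48 * 864 * B : ℤ) : Qb) ≠ 0 := by
      simp only [ne_eq, Int.cast_eq_zero]; positivity
    set q := ((n : Qb) * (d : Qb) ^ (30 - k) * r) with hq
    have hdiff : F (pencil v (κ : Qb) (t : Qb)).1 (pencil v (κ : Qb) (t : Qb)).2 - F v.1 v.2 =
        ((48 * 864 * B : ℤ) : Qb) * q := by
      refine mul_left_cancel₀ (pow_ne_zero k hd') (he.trans ?_)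
      rw [hq, ht, show (30 : ℕ) = k + (30 - k) by omega, pow_add, show k + (30 - k) - k = 30 - k by omega]
      push_cast
      ring
    obtain ⟨m, hm⟩ := exists_intCast (y := q)
      (IsIntegral.mul (IsIntegral.mul (isIntegral_intCast _) (IsIntegral.pow (isIntegral_natCast _) _)) hr) (fun σ => by
        have h1 := congrArg σ hdiff
        rw [map_sub, map_mul, galois_intCast, hfix σ, hc, galois_intCast, ← hc, hdiff] at h1
        exact (mul_left_cancel₀ hK h1).symm)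
    refine ⟨m, ?_⟩
    rw [hm, hc, sub_eq_iff_eq_add'] at hdiff
    rw [hdiff]; push_cast; ring
  have hf := fun σ : GQ => forms_fixed hΔ h4 h6 hv (κ := (κ : Qb)) (t := (t : Qb)) σ
    (galois_intCast σ κ) (galois_intCast σ t)
  obtain ⟨m₄, hm₄⟩ := key (fun {R} _ => c4F) 20 (by norm_num) (fun φ => map_c4F φ) (fun s => c4F_smul s) _ hv.1
    (fun σ => (hf σ).1)
  obtain ⟨m₆, hm₆⟩ := key (fun {R} _ => c6F) 30 le_rfl (fun φ => map_c6F φ) (fun s => c6F_smul s) _ hv.2
    (fun σ => (hf σ).2)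
  set x := -864 * B * m₄ with hx
  set y := -72 * B * W.b₂ * m₄ - 48 * B * m₆ with hy
  refine ⟨⟨W.a₁, W.a₂, W.a₃, W.a₄ + x, W.a₆ + y⟩, ?_, ?_, ?_, ?_⟩
  · rw [hm₄]
    congr 1
    simp only [WeierstrassCurve.c₄, WeierstrassCurve.b₂, WeierstrassCurve.b₄, hx]; ring
  · rw [hm₆]
    congr 1
    simp only [WeierstrassCurve.c₆, WeierstrassCurve.b₂, WeierstrassCurve.b₄, WeierstrassCurve.b₆,
      hx, hy]
    ring
  · refine ⟨48 * 864 * m₄, ?_⟩
    simp only [WeierstrassCurve.c₄, WeierstrassCurve.b₂, WeierstrassCurve.b₄, hx]; ring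
  · set f := Int.castRingHom (ZMod B.natAbs)
    have hB : f B = 0 := by
      simp only [f, eq_intCast, ZMod.intCast_zmod_eq_zero_iff_dvd]
      exact Int.natAbs_dvd.2 dvd_rfl
    have hmap : (⟨W.a₁, W.a₂, W.a₃, W.a₄ + x, W.a₆ + y⟩ : WeierstrassCurve ℤ).map f = W.map f := by
      ext <;> simp only [WeierstrassCurve.map, map_add, hx, hy, map_sub, map_mul, hB] <;> ring
    have := congrArg WeierstrassCurve.Δ hmap
    rw [map_Δ, map_Δ] at this
    simp only [f, eq_intCast] at this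
    exact Int.natAbs_dvd.1 ((ZMod.intCast_eq_intCast_iff_dvd_sub _ _ _).1 this.symm)

variable {W' : WeierstrassCurve ℤ}

lemma isUnit_of_valuation {A : ValuationSubring Qb} {x : A} (h : residue A x ≠ 0) : IsUnit x := by
  by_contra hu; exact h ((residue_eq_zero_iff x).2 hu)

lemma pow_dF_eq {v v' : Qb × Qb} (hv : IsOver (W.c₄ : Qb) (W.c₆ : Qb) v) (hv' : v' = v) :
    dF v'.1 v'.2 ^ 5 = (W.Δ : Qb) := by
  subst hv'
  have h := c4F_cube_sub v'.1 v'.2
  rw [hv.1, hv.2] at h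
  have hc : (1728 : Qb) * (W.Δ : Qb) = (W.c₄ : Qb) ^ 3 - (W.c₆ : Qb) ^ 2 := by
    exact_mod_cast W.c_relation
  exact mul_left_cancel₀ (show (1728 : Qb) ≠ 0 by norm_num) (by rw [hc, h])

end Member

section Coe

variable {A : ValuationSubring Qb} (a b : A)

lemma coe_c4F : ((c4F a b : A) : Qb) = c4F (a : Qb) (b : Qb) := map_c4F A.subtype a b

lemma coe_dF : ((dF a b : A) : Qb) = dF (a : Qb) (b : Qb) := map_dF A.subtype a b

lemma coe_wX : ((wX a b : A) : Qb) = wX (a : Qb) (b : Qb) := map_wX A.subtype a b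

lemma coe_wY : ((wY a b : A) : Qb) = wY (a : Qb) (b : Qb) := map_wY A.subtype a b

end Coe

/-- Both coordinates are integral at a place of good reduction away from `5`. -/
lemma mem_of_forms {A : ValuationSubring Qb} (h5 : residue A 5 ≠ 0) {x y : Qb} (h4 : c4F x y ∈ A)
    (hd : dF x y ^ 5 ∈ A) : x ∈ A ∧ y ∈ A := by
  have aux : ∀ {a r : Qb} (r₁ r₂ : A), a ∉ A → (r₁ : Qb) * a = x → (r₂ : Qb) * a = y →
      (residue A r₁ ≠ 0 ∨ residue A r₂ ≠ 0) → False := by
    intro a _ r₁ r₂ ha e1 e2 hr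
    have hi : a⁻¹ ∈ A := (A.mem_or_inv_mem a).resolve_left ha
    have ha0 : a ≠ 0 := fun e => ha (e ▸ A.zero_mem)
    have hres : residue A ⟨a⁻¹, hi⟩ = 0 := by
      by_contra h
      obtain ⟨w, hw⟩ := isUnit_of_valuation h
      apply ha
      have : ((w⁻¹ : Aˣ) : A) * ⟨a⁻¹, hi⟩ = 1 := by rw [← hw]; exact w.inv_mul
      have := congrArg (Subtype.val) this
      push_cast at this
      have e : a = (((w⁻¹ : Aˣ) : A) : Qb) := by field_simp at this; exact this.symm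
      rw [e]; exact Subtype.coe_prop _
    have key : ∀ (F : A) (c : A) (k : ℕ), 0 < k → (c : Qb) = (F : Qb) * a ^ k → residue A F = 0 := by
      intro F c k hk e
      have : F = c * ⟨a⁻¹, hi⟩ ^ k := Subtype.ext (by push_cast; rw [e, inv_pow]; field_simp)
      rw [this, map_mul, map_pow, hres, zero_pow hk.ne', mul_zero]
    have k4 : residue A (c4F r₁ r₂) = 0 := by
      refine key _ ⟨_, h4⟩ 20 (by norm_num) ?_
      show c4F x y = _
      rw [← e1, ← e2, mul_comm _ a, mul_comm _ a, c4F_smul]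
      rw [mul_comm, coe_c4F]
    have kd : residue A (dF r₁ r₂ ^ 5) = 0 := by
      refine key _ ⟨_, hd⟩ 60 (by norm_num) ?_
      show dF x y ^ 5 = _
      rw [← e1, ← e2, mul_comm _ a, mul_comm _ a, dF_smul, mul_pow, ← pow_mul]
      push_cast
      rw [mul_comm, coe_dF]
    rw [map_pow] at kd
    rw [map_c4F] at k4
    have := eq_zero_of_c4F_dF (by rw [← map_ofNat (residue A) 5]; exact h5) k4 (by rw [← map_dF]; exact eq_zero_of_pow_eq_zero kd)
    rcases hr with h | h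
    · exact h this.1
    · exact h this.2
  rcases eq_or_ne x 0 with rfl | hx
  · refine ⟨A.zero_mem, by_contra fun hy => ?_⟩
    exact aux (r := 0) 0 1 hy (by simp) (by simp) (Or.inr (by simp))
  rcases A.mem_or_inv_mem (y / x) with hm | hm
  · by_cases hxA : x ∈ A
    · exact ⟨hxA, by rw [← div_mul_cancel₀ y hx]; exact A.mul_mem _ _ hm hxA⟩
    · exact absurd (aux (r := 0) 1 ⟨_, hm⟩ hxA (by simp) (div_mul_cancel₀ y hx) (Or.inl (by simp))) id
  · rw [inv_div] at hm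
    by_cases hyA : y ∈ A
    · refine ⟨?_, hyA⟩
      rcases eq_or_ne y 0 with rfl | hy
      · by_contra hxA
        exact aux (r := 0) 1 0 hxA (by simp) (by simp) (Or.inl (by simp))
      · rw [← div_mul_cancel₀ x hy]; exact A.mul_mem _ _ hm hyA
    · have hy : y ≠ 0 := fun e => hyA (e ▸ A.zero_mem)
      exact absurd (aux (r := 0) ⟨_, hm⟩ 1 hyA (div_mul_cancel₀ x hy) (by simp) (Or.inr (by simp))) id

/-- The member is semistable. -/
theorem isSemistableModel_member {W W' : WeierstrassCurve ℤ} (hW : W.IsSemistableModel)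
    {v : Qb × Qb} (hv : IsOver (W.c₄ : Qb) (W.c₆ : Qb) v) {κ t : ℤ}
    (hv' : IsOver (W'.c₄ : Qb) (W'.c₆ : Qb) (pencil v (κ : Qb) (t : Qb)))
    (hc : 30 * W.Δ ∣ W'.c₄ - W.c₄) (hd : 30 * W.Δ ∣ W'.Δ - W.Δ) : W'.IsSemistableModel := by
  intro q hq hqΔ hq4
  by_cases hqB : (q : ℤ) ∣ 30 * W.Δ
  · refine hW q hq ?_ ?_
    · exact (dvd_sub_right hqΔ).1 (hqB.trans hd)
    · exact (dvd_sub_right hq4).1 (hqB.trans hc)
  obtain ⟨A, hA⟩ := exists_liesOverPrime hq
  have hres : ∀ m : ℤ, residue A (m : A) = 0 ↔ (q : ℤ) ∣ m := intCast_residue_eq_zero_iff hq hA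
  have h30 : ¬(q : ℤ) ∣ 30 := fun h => hqB (h.mul_right _)
  have hu : ∀ c : ℤ, c ∣ 30 ^ 2 → residue A (c : A) ≠ 0 := fun c hc h =>
    h30 ((Nat.prime_iff_prime_int.1 hq).dvd_of_dvd_pow (((hres c).1 h).trans hc))
  have h5 : residue A 5 ≠ 0 := by simpa using hu 5 (by norm_num)
  have h12 : residue A 12 ≠ 0 := by simpa using hu 12 (by norm_num)
  have hdF := pow_dF_eq hv rfl
  have hdF' := pow_dF_eq hv' rfl
  obtain ⟨hx, hy⟩ := mem_of_forms (A := A) h5 (x := v.1) (y := v.2)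
    (by rw [hv.1]; exact intCast_mem A _) (by rw [hdF]; exact intCast_mem A _)
  set X : A := ⟨v.1, hx⟩
  set Y : A := ⟨v.2, hy⟩
  set X' : A := X + t * (wX X Y + κ * X)
  set Y' : A := Y + t * (wY X Y + κ * Y)
  have eX : (X' : Qb) = (pencil v (κ : Qb) (t : Qb)).1 := by
    simp only [X', pencil]; push_cast
    rw [coe_wX]
  have eY : (Y' : Qb) = (pencil v (κ : Qb) (t : Qb)).2 := by
    simp only [Y', pencil]; push_cast
    rw [coe_wY]
  have k4 : residue A (c4F X' Y') = 0 := by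
    rw [show c4F X' Y' = (W'.c₄ : A) from Subtype.ext (by
      rw [show ((c4F X' Y' : A) : Qb) = A.subtype (c4F X' Y') from rfl, map_c4F]
      show c4F (X' : Qb) (Y' : Qb) = _
      rw [eX, eY, hv'.1]; push_cast; rfl), hres]
    exact hq4
  have kd : residue A (dF X' Y') = 0 := by
    refine eq_zero_of_pow_eq_zero (n := 5) ?_
    rw [← map_pow, show dF X' Y' ^ 5 = (W'.Δ : A) from Subtype.ext (by
      rw [show ((dF X' Y' ^ 5 : A) : Qb) = A.subtype (dF X' Y') ^ 5 from rfl, map_dF]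
      show dF (X' : Qb) (Y' : Qb) ^ 5 = _
      rw [eX, eY, hdF']; push_cast; rfl), hres]
    exact hqΔ
  have hD : residue A (dF X Y) ≠ 0 := by
    intro h
    have h' : residue A (dF X Y ^ 5) = 0 := by rw [map_pow, h]; simp
    rw [show dF X Y ^ 5 = (W.Δ : A) from Subtype.ext (by
      rw [show ((dF X Y ^ 5 : A) : Qb) = A.subtype (dF X Y) ^ 5 from rfl, map_dF]
      show dF v.1 v.2 ^ 5 = _
      rw [hdF]; push_cast; rfl), hres] at h'
    exact hqB (h'.mul_left _)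
  rw [map_c4F] at k4
  rw [map_dF] at kd
  obtain ⟨z1, z2⟩ := eq_zero_of_c4F_dF (by rw [← map_ofNat (residue A) 5]; exact h5) k4 kd
  have hdet : residue A (t : A) * (-12 * residue A (dF X Y)) = 0 := by
    have e : (t : A) * (-12 * dF X Y) = X * Y' - Y * X' := by
      rw [← det_w]; simp only [X', Y']; ring
    have := congrArg (residue A) e
    rw [map_mul, map_mul, map_neg, map_ofNat, map_sub, map_mul, map_mul, z1, z2] at this
    simpa using this
  have ht0 : residue A (t : A) = 0 :=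
    (mul_eq_zero.1 hdet).resolve_right (mul_ne_zero (neg_ne_zero.2 (by rw [← map_ofNat (residue A) 12]; exact h12)) hD)
  apply hD
  simp only [X', Y', map_add, map_mul, ht0, zero_mul, add_zero] at z1 z2
  rw [map_dF, z1, z2]
  simp [dF]

end Fermat.Agent.ThreeFive
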