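import Fermat.Agent.ThreeFive.Group
import Fermat.Agent.EC.FrobeniusTrace
import Fermat.Agent.EC.Local.VarChange

/-!
# Galois equivariance and the congruence between the traces
-/

set_option autoImplicit false
set_option linter.unusedSectionVars false

namespace Fermat.Agent.ThreeFive

open WeierstrassCurve WeierstrassCurve.Affine.Point Fermat.Agent.EC Fermat.Agent.Galois
open scoped WeierstrassCurve.Affine

local notation "Qb" => AlgebraicClosure ℚ

lemma exists_zeta : ∃ z : Qb, z ^ 4 + z ^ 3 + z ^ 2 + z + 1 = 0 := by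
  obtain ⟨z, hz⟩ := IsAlgClosed.exists_root
    (Polynomial.X ^ 4 + Polynomial.X ^ 3 + Polynomial.X ^ 2 + Polynomial.X + 1 : Polynomial Qb)
    (by
      rw [show (Polynomial.X ^ 4 + Polynomial.X ^ 3 + Polynomial.X ^ 2 + Polynomial.X + 1 :
        Polynomial Qb).degree = 4 by compute_degree!]
      decide)
  exact ⟨z, by simpa using hz⟩

lemma map_sc {c₄ c₆ : Qb} (σ : GQ) (h4 : σ c₄ = c₄) (h6 : σ c₆ = c₆) :
    (sc c₄ c₆).map (σ : Qb →+* Qb) = sc c₄ c₆ := by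
  ext <;> simp [sc, WeierstrassCurve.map, h4, h6, map_ofNat]

/-- Galois acting on the points of a short curve with rational invariants. -/
noncomputable def galPt {c₄ c₆ : Qb} (σ : GQ) (h4 : σ c₄ = c₄) (h6 : σ c₆ = c₆) :
    (sc c₄ c₆).toAffine.Point →+ (sc c₄ c₆).toAffine.Point :=
  sigmaPoint (σ : Qb →+* Qb) (map_sc σ h4 h6)

lemma galPt_mkPt {c₄ c₆ : Qb} [(sc c₄ c₆).IsElliptic] (σ : GQ) (h4 : σ c₄ = c₄) (h6 : σ c₆ = c₆)
    {x y x' y' : Qb} (h : y ^ 2 = x ^ 3 - 27 * c₄ * x - 54 * c₆)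
    (h' : y' ^ 2 = x' ^ 3 - 27 * c₄ * x' - 54 * c₆) (hx : σ x = x') (hy : σ y = y') :
    galPt σ h4 h6 (mkPt x y h) = mkPt x' y' h' := by
  subst hx hy; rfl

lemma isOver_galois {c₄ c₆ : Qb} {v : Qb × Qb} (σ : GQ) (h4 : σ c₄ = c₄) (h6 : σ c₆ = c₆)
    (hv : IsOver c₄ c₆ v) : IsOver c₄ c₆ (σ v.1, σ v.2) := by
  refine ⟨?_, ?_⟩
  · have := congrArg (σ : Qb →+* Qb) hv.1
    rw [map_c4F] at this
    exact this.trans h4
  · have := congrArg (σ : Qb →+* Qb) hv.2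
    rw [map_c6F] at this
    exact this.trans h6

lemma galPt_ptQ {c₄ c₆ : Qb} [(sc c₄ c₆).IsElliptic] (σ : GQ) (h4 : σ c₄ = c₄) (h6 : σ c₆ = c₆)
    {v : Qb × Qb} (hv : IsOver c₄ c₆ v) :
    galPt σ h4 h6 (ptQ hv) = ptQ (isOver_galois σ h4 h6 hv) :=
  galPt_mkPt σ h4 h6 _ _ (map_xQ (σ : Qb →+* Qb) _ _) (map_yQ (σ : Qb →+* Qb) _ _)

/-- Galois multiplies the first point by a scalar which does not depend on the vector. -/
lemma exists_galPt_ptP {z : Qb} (hz : z ^ 4 + z ^ 3 + z ^ 2 + z + 1 = 0) (σ : GQ) :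
    ∃ j : ℤ, ∀ {c₄ c₆ : Qb} [(sc c₄ c₆).IsElliptic] (h4 : σ c₄ = c₄) (h6 : σ c₆ = c₆)
      (v : Qb × Qb) (hv : IsOver c₄ c₆ v), galPt σ h4 h6 (ptP (phiMu_of_root hz) hv) =
        j • ptP (phiMu_of_root hz) (isOver_galois σ h4 h6 hv) := by
  have hfm := phiMu_of_root hz
  set f := -(z ^ 2 + z ^ 3)
  set m := z - z ^ 4
  have hf : σ f ^ 2 = σ f + 1 := by rw [← map_pow, hfm.1, map_add, map_one]
  have hm : σ m ^ 2 = -σ f - 2 := by rw [← map_pow, hfm.2, map_sub, map_neg, map_ofNat]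
  have hcases : (σ f - f) * (σ f - (1 - f)) = 0 := by linear_combination hf - hfm.1
  have key : ∀ {f' m' : Qb} (h' : PhiMu f' m'), σ f = f' → σ m = m' →
      ∀ {c₄ c₆ : Qb} [(sc c₄ c₆).IsElliptic] (h4 : σ c₄ = c₄) (h6 : σ c₆ = c₆)
      (v : Qb × Qb) (hv : IsOver c₄ c₆ v), galPt σ h4 h6 (ptP hfm hv) =
        ptP h' (isOver_galois σ h4 h6 hv) := by
    intro f' m' h' ef em c₄ c₆ _ h4 h6 v hv
    subst ef em
    exact galPt_mkPt σ h4 h6 _ _ (map_xP (σ : Qb →+* Qb) _ _ _) (map_yP (σ : Qb →+* Qb) _ _ _ _)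
  rcases mul_eq_zero.1 hcases with h | h <;> rw [sub_eq_zero] at h
  · have hsq : (σ m - m) * (σ m + m) = 0 := by linear_combination hm - hfm.2 - h
    rcases mul_eq_zero.1 hsq with e | e
    · exact ⟨1, fun {c₄ c₆} _ h4 h6 v hv => by
        rw [key hfm h (sub_eq_zero.1 e) h4 h6 v hv, one_zsmul]⟩
    · exact ⟨-1, fun {c₄ c₆} _ h4 h6 v hv => by
        rw [key hfm.neg h (eq_neg_of_add_eq_zero_left e) h4 h6 v hv, neg_zsmul, one_zsmul,
          ptP_neg]⟩
  · have hsq : (σ m - m * (f - 1)) * (σ m + m * (f - 1)) = 0 := by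
      linear_combination hm - hfm.conj.2 - h
    rcases mul_eq_zero.1 hsq with e | e
    · exact ⟨2, fun {c₄ c₆} _ h4 h6 v hv => by
        rw [key hfm.conj h (sub_eq_zero.1 e) h4 h6 v hv, two_zsmul, two_ptP]⟩
    · exact ⟨-2, fun {c₄ c₆} _ h4 h6 v hv => by
        rw [key hfm.conj.neg h (eq_neg_of_add_eq_zero_left e) h4 h6 v hv, neg_zsmul, two_zsmul,
          two_ptP, ptP_neg]⟩

lemma trace_of_pair {F V : Type*} [Field F] [AddCommGroup V] [Module F V]
    (hV : Module.finrank F V = 2) (T : Module.End F V) {p q : V} (a b c d : F)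
    (hli : LinearIndependent F ![p, q]) (hp : T p = a • p + c • q) (hq : T q = b • p + d • q) :
    LinearMap.trace F V T = a + d := by
  classical
  let e := basisOfLinearIndependentOfCardEqFinrank hli (by simp [hV])
  have he : ⇑e = ![p, q] := coe_basisOfLinearIndependentOfCardEqFinrank _ _
  have hM : LinearMap.toMatrix e e T = !![a, b; c, d] := by
    ext i j
    rw [LinearMap.toMatrix_apply]
    have h0 : T (e 0) = a • e 0 + c • e 1 := by simp [he, hp]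
    have h1 : T (e 1) = b • e 0 + d • e 1 := by simp [he, hq]
    fin_cases j
    · simp only [Fin.zero_eta, h0]
      fin_cases i <;> simp [Module.Basis.repr_self]
    · simp only [Fin.mk_one, h1]
      fin_cases i <;> simp [Module.Basis.repr_self]
  rw [LinearMap.trace_eq_matrix_trace F e, hM, Matrix.trace_fin_two]
  simp

section Transport

variable (W : WeierstrassCurve ℤ)

/-- The change of variables to the short model. -/
noncomputable def shortC : VariableChange Qb :=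
  { u := ⟨(6 : Qb)⁻¹, 6, by norm_num, by norm_num⟩
    r := -(W.b₂ : Qb) / 12
    s := -(W.a₁ : Qb) / 2
    t := -((W.a₃ : Qb) + -(W.b₂ : Qb) / 12 * (W.a₁ : Qb)) / 2 }

lemma shortC_smul :
    shortC W • ((W.map (Int.castRingHom ℚ))⁄Qb : WeierstrassCurve Qb) =
      sc (W.c₄ : Qb) (W.c₆ : Qb) := by
  ext <;>
    simp [shortC, sc, WeierstrassCurve.baseChange, variableChange_a₁, variableChange_a₂,
      variableChange_a₃, variableChange_a₄, variableChange_a₆, WeierstrassCurve.b₂,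
      WeierstrassCurve.b₄, WeierstrassCurve.b₆, WeierstrassCurve.c₄, WeierstrassCurve.c₆] <;>
    ring

variable {W}

lemma sc_intCast_isElliptic (hΔ : W.Δ ≠ 0) : (sc (W.c₄ : Qb) (W.c₆ : Qb)).IsElliptic := by
  refine sc_isElliptic fun h => hΔ ?_
  have h' : (W.c₄ ^ 3 - W.c₆ ^ 2 : ℤ) = 0 := by
    apply Int.cast_injective (α := Qb)
    push_cast
    rw [h, sub_self]
  have := W.c_relation
  omega

/-- Galois fixes integers. -/
lemma galois_intCast (σ : GQ) (n : ℤ) : σ (n : Qb) = n := map_intCast _ n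

/-- The trace of `σ` on `E[5]` computed on the universal points. -/
theorem galoisTrace_five {z : Qb} (hz : z ^ 4 + z ^ 3 + z ^ 2 + z + 1 = 0) (hΔ : W.Δ ≠ 0)
    (σ : GQ) {j : ℤ}
    (hj : ∀ {c₄ c₆ : Qb} [(sc c₄ c₆).IsElliptic] (h4 : σ c₄ = c₄) (h6 : σ c₆ = c₆)
      (v : Qb × Qb) (hv : IsOver c₄ c₆ v), galPt σ h4 h6 (ptP (phiMu_of_root hz) hv) =
        j • ptP (phiMu_of_root hz) (isOver_galois σ h4 h6 hv))
    {v : Qb × Qb} (hv : IsOver (W.c₄ : Qb) (W.c₆ : Qb) v) {g : (Qb × Qb) →ₗ[Qb] (Qb × Qb)} {M : Mat}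
    (hg : IsRealised hz g M) (hgv : g v = (σ v.1, σ v.2)) :
    galoisTrace (S := ℚ) (W.map (Int.castRingHom ℚ)).toAffine 5 σ =
      ((j * M.1 + M.2.2.2 : ℤ) : ZMod 5) := by
  classical
  haveI : Fact (Nat.Prime 5) := ⟨Nat.prime_five⟩
  haveI := sc_intCast_isElliptic hΔ
  set E := ((W.map (Int.castRingHom ℚ))⁄Qb : WeierstrassCurve Qb) with hE
  haveI hEl : E.IsElliptic := by
    rw [hE, isElliptic_iff, isUnit_iff_ne_zero]
    simpa [WeierstrassCurve.baseChange] using hΔ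
  let ι : E.toAffine.Point →+ (sc (W.c₄ : Qb) (W.c₆ : Qb)).toAffine.Point :=
    (sigmaPoint (RingHom.id Qb) (by rw [WeierstrassCurve.map_id]; exact shortC_smul W)).comp
      (vcHom (shortC W))
  have hι : Function.Injective ι := by
    rw [AddMonoidHom.coe_comp]
    refine Function.Injective.comp ?_ (vcHom_injective _)
    rw [injective_iff_map_eq_zero]
    rintro (_ | ⟨x, y, h⟩) e
    · rfl
    · exact absurd e (Affine.Point.some_ne_zero _)
  have h4 := galois_intCast σ W.c₄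
  have h6 := galois_intCast σ W.c₆
  have hισ : ∀ P : E.toAffine.Point, ι (σ • P) = galPt σ h4 h6 (ι P) := by
    rintro (_ | ⟨x, y, h⟩)
    · rfl
    · obtain ⟨h', e⟩ := algEquiv_smul_some (K := Qb) (W.map (Int.castRingHom ℚ)).toAffine σ h
      refine (congrArg ι e).trans ?_
      refine (Affine.Point.some.injEq ..).mpr ⟨?_, ?_⟩ <;>
        simp [vcX, vcY, shortC, map_ofNat]
  let T := Submodule.torsionBy ℤ (sc (W.c₄ : Qb) (W.c₆ : Qb)).toAffine.Point (5 : ℕ)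
  let ι5 : Etors W 5 → T := fun x => ⟨ι x.1, (Submodule.mem_torsionBy_iff _ _).2 (by
    rw [← map_zsmul, (Submodule.mem_torsionBy_iff _ _).1 x.2, _root_.map_zero])⟩
  haveI : Finite T := finite_torsionBy _ 5 (by norm_num)
  haveI : Finite (Etors W 5) := finite_torsionBy E 5 (by norm_num)
  have hsurj : Function.Surjective ι5 := by
    refine (Nat.bijective_iff_injective_and_card ι5).2 ⟨fun x y e => Subtype.ext (hι (congrArg Subtype.val e)), ?_⟩ |>.2
    exact (natCard_torsionBy E 5 (by norm_num)).trans (natCard_torsionBy _ 5 (by norm_num)).symm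
  have hfm := phiMu_of_root hz
  obtain ⟨p, hp⟩ := hsurj ⟨ptP hfm hv, (Submodule.mem_torsionBy_iff _ _).2 (five_ptP hfm hv)⟩
  obtain ⟨q, hq⟩ := hsurj ⟨ptQ hv, (Submodule.mem_torsionBy_iff _ _).2 (five_ptQ hfm hv)⟩
  replace hp : ι p.1 = ptP hfm hv := congrArg Subtype.val hp
  replace hq : ι q.1 = ptQ hv := congrArg Subtype.val hq
  have hval : ∀ (n : ℤ) (x : Etors W 5), ((n : ZMod 5) • x).1 = n • x.1 := fun n x => by
    rw [Int.cast_smul_eq_zsmul]; rfl
  have hli : LinearIndependent (ZMod 5) ![p, q] := by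
    rw [LinearIndependent.pair_iff]
    intro a b h
    obtain ⟨a, rfl⟩ := ZMod.intCast_surjective a
    obtain ⟨b, rfl⟩ := ZMod.intCast_surjective b
    have h' : ι (((a : ZMod 5) • p + (b : ZMod 5) • q : Etors W 5).1) = 0 := by
      rw [h]; exact _root_.map_zero ι
    rw [Submodule.coe_add, hval, hval, map_add, map_zsmul, map_zsmul, hp, hq] at h'
    obtain ⟨ha, hb⟩ := indep hfm hv h'
    exact ⟨(ZMod.intCast_zmod_eq_zero_iff_dvd a 5).2 ha, (ZMod.intCast_zmod_eq_zero_iff_dvd b 5).2 hb⟩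
  have hgal : IsOver (W.c₄ : Qb) (W.c₆ : Qb) (g v) := hg.isOver hv
  obtain ⟨a1, a2⟩ := hg.act v hv hgal
  have hP : ptP hfm (isOver_galois σ h4 h6 hv) = ptP hfm hgal := mkPt_congr (by rw [hgv]) (by rw [hgv])
  have hQ : ptQ (isOver_galois σ h4 h6 hv) = ptQ hgal := mkPt_congr (by rw [hgv]) (by rw [hgv])
  rw [galoisTrace_def, trace_of_pair (finrank_torsionBy (K := Qb) (W.map (Int.castRingHom ℚ)).toAffine 5)
    _ ((j * M.1 : ℤ) : ZMod 5) (M.2.1 : ZMod 5) ((j * M.2.2.1 : ℤ) : ZMod 5) (M.2.2.2 : ZMod 5) hli]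
  · push_cast; rfl
  · apply Subtype.ext
    apply hι
    show ι (σ • p.1) = ι _
    rw [hισ, hp, hj h4 h6 v hv, hP, a1, Submodule.coe_add, hval, hval, map_add, map_zsmul,
      map_zsmul, hp, hq, zsmul_add, ← mul_zsmul, ← mul_zsmul]
  · apply Subtype.ext
    apply hι
    show ι (σ • q.1) = ι _
    rw [hισ, hq, galPt_ptQ, hQ, a2, Submodule.coe_add, hval, hval, map_add, map_zsmul,
      map_zsmul, hp, hq]

end Transport

/-- The point `v + t (w(v) + κ v)` of the pencil. -/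
def pencil {K : Type*} [CommRing K] (v : K × K) (κ t : K) : K × K :=
  (v.1 + t * (wX v.1 v.2 + κ * v.1), v.2 + t * (wY v.1 v.2 + κ * v.2))

lemma pencil_map {z : Qb} {hz : z ^ 4 + z ^ 3 + z ^ 2 + z + 1 = 0}
    {g : (Qb × Qb) →ₗ[Qb] (Qb × Qb)} {M : Mat} (hg : IsRealised hz g M) {v : Qb × Qb} {κ t : Qb}
    {σ : GQ} (hκ : σ κ = κ) (ht : σ t = t) (hgv : g v = (σ v.1, σ v.2)) :
    g (pencil v κ t) = (σ (pencil v κ t).1, σ (pencil v κ t).2) := by
  have e : pencil v κ t = v + t • (wV v + κ • v) := by ext <;> simp [pencil, wV] <;> ring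
  rw [e, map_add, map_smul, map_add, map_smul, ← hg.w, hgv]
  ext
  · have := map_wX (σ : Qb →+* Qb) v.1 v.2
    simp [wV, hκ, ht, RingHom.coe_coe] at this ⊢
    rw [this]; ring
  · have := map_wY (σ : Qb →+* Qb) v.1 v.2
    simp [wV, hκ, ht, RingHom.coe_coe] at this ⊢
    rw [this]; ring

/-- The forms are rational along the pencil. -/
theorem forms_fixed {W : WeierstrassCurve ℤ} (hΔ : W.Δ ≠ 0) (h4 : W.c₄ ≠ 0) (h6 : W.c₆ ≠ 0)
    {v : Qb × Qb} (hv : IsOver (W.c₄ : Qb) (W.c₆ : Qb) v) {κ t : Qb}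
    (σ : GQ) (hκ : σ κ = κ) (ht : σ t = t) :
    σ (c4F (pencil v κ t).1 (pencil v κ t).2) = c4F (pencil v κ t).1 (pencil v κ t).2 ∧
    σ (c6F (pencil v κ t).1 (pencil v κ t).2) = c6F (pencil v κ t).1 (pencil v κ t).2 := by
  haveI := sc_intCast_isElliptic hΔ
  obtain ⟨z, hz⟩ := exists_zeta
  obtain ⟨g, M, hg, hgv⟩ := exists_realised hz (Int.cast_ne_zero.2 h4) (Int.cast_ne_zero.2 h6) hv
    (isOver_galois σ (galois_intCast σ _) (galois_intCast σ _) hv)
  have h := pencil_map hg hκ ht hgv.symm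
  constructor
  · refine (map_c4F (σ : Qb →+* Qb) _ _).trans ?_
    rw [← hg.c4 (pencil v κ t), h]; rfl
  · refine (map_c6F (σ : Qb →+* Qb) _ _).trans ?_
    rw [← hg.c6 (pencil v κ t), h]; rfl

/-- Curves on the pencil have congruent traces modulo five. -/
theorem five_dvd_apOfModel_sub {W W' : WeierstrassCurve ℤ} (hΔ : W.Δ ≠ 0) (h4 : W.c₄ ≠ 0)
    (h6 : W.c₆ ≠ 0) (hΔ' : W'.Δ ≠ 0) {v : Qb × Qb} (hv : IsOver (W.c₄ : Qb) (W.c₆ : Qb) v)
    {κ t : ℤ} (hv' : IsOver (W'.c₄ : Qb) (W'.c₆ : Qb) (pencil v (κ : Qb) (t : Qb)))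
    {ℓ : ℕ} (hℓ : ℓ.Prime) (hg : W.IsGoodPrimeFor ℓ) (hg' : W'.IsGoodPrimeFor ℓ) (h5 : ℓ ≠ 5) :
    (5 : ℤ) ∣ W'.apOfModel ℓ - W.apOfModel ℓ := by
  haveI := sc_intCast_isElliptic hΔ
  obtain ⟨A, hA⟩ := exists_liesOverPrime hℓ
  obtain ⟨σ, hσ⟩ := exists_isFrobeniusAt hℓ hA
  obtain ⟨z, hz⟩ := exists_zeta
  obtain ⟨g, M, hgr, hgv⟩ := exists_realised hz (Int.cast_ne_zero.2 h4) (Int.cast_ne_zero.2 h6) hv
    (isOver_galois σ (galois_intCast σ _) (galois_intCast σ _) hv)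
  obtain ⟨j, hj⟩ := exists_galPt_ptP hz σ
  have e1 := galoisTrace_five (W := W) hz hΔ σ hj hv hgr hgv.symm
  have e2 := galoisTrace_five (W := W') hz hΔ' σ hj hv' hgr
    (pencil_map hgr (galois_intCast σ κ) (galois_intCast σ t) hgv.symm)
  rw [(galoisTrace_frobenius W hℓ hg hA hσ Nat.prime_five (by norm_num) h5.symm).1] at e1
  rw [(galoisTrace_frobenius W' hℓ hg' hA hσ Nat.prime_five (by norm_num) h5.symm).1] at e2
  exact (ZMod.intCast_eq_intCast_iff_dvd_sub _ _ 5).1 (e1.trans e2.symm)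

end Fermat.Agent.ThreeFive
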