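import Fermat.Agent.ThreeFive.Points

/-!
# The icosahedral group: every vector over given invariants is realised
-/

set_option autoImplicit false
set_option linter.unusedSectionVars false

namespace Fermat.Agent.ThreeFive

open WeierstrassCurve

/-- Integer two by two matrices `(a, b, c, d)`. -/
abbrev Mat : Type := ℤ × ℤ × ℤ × ℤ

/-- Product. -/
def matMul : Mat → Mat → Mat
  | (a, b, c, d), (p, q, r, s) => (a * p + b * r, a * q + b * s, c * p + d * r, c * q + d * s)

/-- Class of a matrix modulo five and up to sign. -/
def matKey : Mat → ℕ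
  | (a, b, c, d) =>
    min ((((a % 5).toNat * 5 + (b % 5).toNat) * 5 + (c % 5).toNat) * 5 + (d % 5).toNat)
      (((((-a) % 5).toNat * 5 + ((-b) % 5).toNat) * 5 + ((-c) % 5).toNat) * 5 + ((-d) % 5).toNat)

/-- Matrices of the two generators. -/
def genMat : Bool → Mat
  | false => (1, -1, 0, 1)
  | true => (0, -1, 1, 0)

/-- Matrix of a word. -/
def wordMat : List Bool → Mat
  | [] => (1, 0, 0, 1)
  | b :: l => matMul (wordMat l) (genMat b)

/-- Sixty words. -/
def words : List (List Bool) :=
  [[],
    [false],
    [true],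
    [false, false],
    [true, false],
    [false, true],
    [false, false, false],
    [true, false, false],
    [false, true, false],
    [false, false, true],
    [true, false, true],
    [false, false, false, false],
    [true, false, false, false],
    [false, true, false, false],
    [false, false, true, false],
    [true, false, true, false],
    [false, false, false, true],
    [true, false, false, true],
    [false, true, false, true],
    [false, true, false, false, false],
    [false, false, true, false, false],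
    [true, false, true, false, false],
    [false, false, false, true, false],
    [true, false, false, true, false],
    [true, false, false, false, true],
    [false, true, false, false, true],
    [false, false, true, false, true],
    [false, false, true, false, false, false],
    [true, false, true, false, false, false],
    [false, false, false, true, false, false],
    [true, false, false, true, false, false],
    [true, false, false, false, true, false],
    [false, true, false, false, false, true],
    [false, false, true, false, false, true],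
    [true, false, true, false, false, true],
    [false, false, false, true, false, true],
    [true, false, false, true, false, true],
    [false, false, false, true, false, false, false],
    [true, false, false, true, false, false, false],
    [true, false, false, false, true, false, false],
    [false, true, false, false, false, true, false],
    [false, false, true, false, false, false, true],
    [true, false, true, false, false, false, true],
    [false, false, false, true, false, false, true],
    [true, false, false, true, false, false, true],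
    [true, false, false, false, true, false, true],
    [true, false, false, false, true, false, false, false],
    [false, true, false, false, false, true, false, false],
    [false, false, true, false, false, false, true, false],
    [true, false, true, false, false, false, true, false],
    [true, false, false, true, false, false, false, true],
    [true, false, false, false, true, false, false, true],
    [false, true, false, false, false, true, false, false, false],
    [false, false, true, false, false, false, true, false, false],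
    [true, false, true, false, false, false, true, false, false],
    [true, false, false, true, false, false, false, true, false],
    [false, true, false, false, false, true, false, false, true],
    [false, false, true, false, false, false, true, false, false, false],
    [true, false, true, false, false, false, true, false, false, false],
    [true, false, false, true, false, false, false, true, false, false]]

lemma words_length : words.length = 60 := by decide

lemma words_nodup : (words.map fun l => matKey (wordMat l)).Nodup := by decide +kernel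

variable {K : Type*} [Field K] [CharZero K] [DecidableEq K]

/-- A linear map of the plane realising a matrix on the five-torsion. -/
structure IsRealised {z : K} (hz : z ^ 4 + z ^ 3 + z ^ 2 + z + 1 = 0)
    (g : (K × K) →ₗ[K] (K × K)) (M : Mat) : Prop where
  c4 : ∀ v, c4F (g v).1 (g v).2 = c4F v.1 v.2
  c6 : ∀ v, c6F (g v).1 (g v).2 = c6F v.1 v.2
  w : ∀ v, wV (g v) = g (wV v)
  act : ∀ {c₄ c₆ : K} [(sc c₄ c₆).IsElliptic] (v : K × K) (hv : IsOver c₄ c₆ v)
    (hv' : IsOver c₄ c₆ (g v)),
    ptP (phiMu_of_root hz) hv' = M.1 • ptP (phiMu_of_root hz) hv + M.2.2.1 • ptQ hv ∧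
      ptQ hv' = M.2.1 • ptP (phiMu_of_root hz) hv + M.2.2.2 • ptQ hv

variable {z : K} {hz : z ^ 4 + z ^ 3 + z ^ 2 + z + 1 = 0}

lemma IsRealised.isOver {g : (K × K) →ₗ[K] (K × K)} {M : Mat} (h : IsRealised hz g M) {c₄ c₆ : K}
    {v : K × K} (hv : IsOver c₄ c₆ v) : IsOver c₄ c₆ (g v) :=
  ⟨(h.c4 v).trans hv.1, (h.c6 v).trans hv.2⟩

theorem IsRealised.one : IsRealised hz LinearMap.id (1, 0, 0, 1) where
  c4 _ := rfl
  c6 _ := rfl
  w _ := rfl
  act v hv hv' := ⟨by simp [ptP], by simp [ptQ]⟩

theorem IsRealised.comp {g h : (K × K) →ₗ[K] (K × K)} {M N : Mat} (hg : IsRealised hz g M)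
    (hh : IsRealised hz h N) : IsRealised hz (g ∘ₗ h) (matMul N M) where
  c4 v := (hg.c4 _).trans (hh.c4 v)
  c6 v := (hg.c6 _).trans (hh.c6 v)
  w v := by simp only [LinearMap.comp_apply, hg.w, hh.w]
  act v hv hv' := by
    obtain ⟨h1, h2⟩ := hh.act v hv (hh.isOver hv)
    obtain ⟨g1, g2⟩ := hg.act (h v) (hh.isOver hv) hv'
    obtain ⟨a, b, c, d⟩ := M
    obtain ⟨p, q, r, s⟩ := N
    simp only [matMul]
    refine ⟨g1.trans ?_, g2.trans ?_⟩ <;>
      rw [h1, h2, zsmul_add, zsmul_add, ← mul_zsmul, ← mul_zsmul, ← mul_zsmul, ← mul_zsmul,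
        add_zsmul, add_zsmul] <;>
      simp only [mul_comm] <;> abel

theorem realised_sV (hz : z ^ 4 + z ^ 3 + z ^ 2 + z + 1 = 0) :
    IsRealised hz (sV z) (genMat false) where
  c4 := c4F_sV hz
  c6 := c6F_sV hz
  w v := by
    simp only [wV, sV, LinearMap.coe_mk, AddHom.coe_mk, wX, wY, (pow_fifth hz _).1,
      (pow_fifth hz _).2]
    ext <;> ring
  act v hv hv' := by
    simp only [genMat, one_zsmul, zero_zsmul, add_zero, neg_zsmul]
    exact ⟨ptP_sV hz hv, (ptQ_sV hz hv).trans (add_comm _ _)⟩

theorem realised_tV (hz : z ^ 4 + z ^ 3 + z ^ 2 + z + 1 = 0) :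
    IsRealised hz (tV (-(z ^ 2 + z ^ 3)) (z - z ^ 4)) (genMat true) where
  c4 := c4F_tV (phiMu_of_root hz)
  c6 := c6F_tV (phiMu_of_root hz)
  w v := by
    have h := phiMu_of_root hz
    have hm := h.ne_zero
    simp only [wV, tV_apply, wX_smul, wY_smul, wX_M h.1, wY_M h.1, ← m_pow10 h.1 h.2]
    ext <;> field_simp
  act v hv hv' := by
    simp only [genMat, one_zsmul, zero_zsmul, add_zero, zero_add, neg_zsmul]
    exact ⟨ptP_tV _ hv, ptQ_tV _ hv⟩

/-- Scalars of order dividing ten. -/
def scalarMat (s : K) : Mat := if s ^ 5 = 1 then (1, 0, 0, 1) else (-1, 0, 0, -1)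

theorem realised_scalar (hz : z ^ 4 + z ^ 3 + z ^ 2 + z + 1 = 0) {s : K} (hs : s ^ 10 = 1) :
    IsRealised hz (s • LinearMap.id) (scalarMat s) where
  c4 v := by
    simp only [LinearMap.smul_apply, LinearMap.id_apply, Prod.smul_fst, Prod.smul_snd,
      smul_eq_mul, c4F_smul]
    linear_combination (s ^ 10 + 1) * c4F v.1 v.2 * hs
  c6 v := by
    simp only [LinearMap.smul_apply, LinearMap.id_apply, Prod.smul_fst, Prod.smul_snd,
      smul_eq_mul, c6F_smul]
    linear_combination (s ^ 20 + s ^ 10 + 1) * c6F v.1 v.2 * hs
  w v := by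
    simp only [LinearMap.smul_apply, LinearMap.id_apply, Prod.smul_fst, Prod.smul_snd,
      smul_eq_mul, wV, wX_smul, wY_smul, Prod.smul_mk, Prod.mk.injEq]
    exact ⟨by linear_combination s * wX v.1 v.2 * hs, by linear_combination s * wY v.1 v.2 * hs⟩
  act v hv hv' := by
    have h5 : (s ^ 5 - 1) * (s ^ 5 + 1) = 0 := by linear_combination hs
    rcases mul_eq_zero.1 h5 with h | h
    · have hs5 : s ^ 5 = 1 := sub_eq_zero.1 h
      simp only [scalarMat, hs5, if_pos, one_zsmul, zero_zsmul, add_zero, zero_add]
      refine ⟨mkPt_congr ?_ ?_, mkPt_congr ?_ ?_⟩ <;>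
        simp only [LinearMap.smul_apply, LinearMap.id_apply, Prod.smul_fst, Prod.smul_snd,
          smul_eq_mul, xP_smul, yP_smul, xQ_smul, yQ_smul]
      · rw [hs, one_mul]
      · rw [show s ^ 15 = (s ^ 5) ^ 3 by ring, hs5, one_pow, one_mul]
      · rw [hs, one_mul]
      · rw [show s ^ 15 = (s ^ 5) ^ 3 by ring, hs5, one_pow, one_mul]
    · have hs5 : s ^ 5 = -1 := eq_neg_of_add_eq_zero_left h
      have hne : s ^ 5 ≠ 1 := by rw [hs5]; norm_num
      simp only [scalarMat, if_neg hne, neg_zsmul, one_zsmul, zero_zsmul, add_zero, zero_add]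
      simp only [ptP, ptQ, neg_mkPt]
      refine ⟨mkPt_congr ?_ ?_, mkPt_congr ?_ ?_⟩ <;>
        simp only [LinearMap.smul_apply, LinearMap.id_apply, Prod.smul_fst, Prod.smul_snd,
          smul_eq_mul, xP_smul, yP_smul, xQ_smul, yQ_smul]
      · rw [hs, one_mul]
      · rw [show s ^ 15 = (s ^ 5) ^ 3 by ring, hs5]; ring
      · rw [hs, one_mul]
      · rw [show s ^ 15 = (s ^ 5) ^ 3 by ring, hs5]; ring

/-- The linear map of a word. -/
def wordMap (z : K) : List Bool → (K × K) →ₗ[K] (K × K)
  | [] => LinearMap.id
  | false :: l => sV z ∘ₗ wordMap z l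
  | true :: l => tV (-(z ^ 2 + z ^ 3)) (z - z ^ 4) ∘ₗ wordMap z l

theorem realised_word (hz : z ^ 4 + z ^ 3 + z ^ 2 + z + 1 = 0) :
    ∀ l, IsRealised hz (wordMap z l) (wordMat l)
  | [] => IsRealised.one
  | false :: l => (realised_sV hz).comp (realised_word hz l)
  | true :: l => (realised_tV hz).comp (realised_word hz l)

open Polynomial in
/-- Every vector with the invariants of `v` is the image of `v` by a realised map. -/
theorem exists_realised (hz : z ^ 4 + z ^ 3 + z ^ 2 + z + 1 = 0) {c₄ c₆ : K}
    [(sc c₄ c₆).IsElliptic] (h4 : c₄ ≠ 0) (h6 : c₆ ≠ 0) {v u : K × K} (hv : IsOver c₄ c₆ v)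
    (hu : IsOver c₄ c₆ u) : ∃ g M, IsRealised hz g M ∧ u = g v := by
  classical
  have hfst : ∀ {u : K × K}, IsOver c₄ c₆ u → u.1 ≠ 0 := fun {u} hu e =>
    dF_ne_zero hu (by simp [dF, e])
  set d := dF v.1 v.2 with hd
  set G : K[X] := C (d ^ 5) * c4F 1 X ^ 3 - C (c₄ ^ 3) * dF 1 X ^ 5 with hG
  have heval : ∀ t, G.eval t = d ^ 5 * c4F 1 t ^ 3 - c₄ ^ 3 * dF 1 t ^ 5 := fun t => by
    simp only [hG, eval_sub, eval_mul, eval_C, eval_pow]
    rw [← coe_evalRingHom, map_c4F, map_dF]
    simp
  have hdeg : G.natDegree ≤ 60 := by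
    have h1 : (c4F 1 X : K[X]).natDegree ≤ 20 := by simp only [c4F, c4Ab]; compute_degree
    have h2 : (dF 1 X : K[X]).natDegree ≤ 11 := by simp only [dF]; compute_degree
    refine (natDegree_sub_le _ _).trans (max_le ?_ ?_)
    · exact (natDegree_C_mul_le _ _).trans ((natDegree_pow_le).trans (by omega))
    · exact (natDegree_C_mul_le _ _).trans ((natDegree_pow_le).trans (by omega))
  have hG0 : G ≠ 0 := by
    intro e
    have := heval 0
    rw [e, eval_zero] at this
    simp [c4F, c4Ab, dF] at this
    exact pow_ne_zero _ (dF_ne_zero hv) this.symm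
  have hroot : ∀ {u : K × K}, IsOver c₄ c₆ u → G.IsRoot (u.2 / u.1) := fun {u} hu => by
    have ha := hfst hu
    have e4 : c4F u.1 u.2 = u.1 ^ 20 * c4F 1 (u.2 / u.1) := by
      rw [← c4F_smul, mul_one, mul_div_cancel₀ _ ha]
    have ed : dF u.1 u.2 = u.1 ^ 12 * dF 1 (u.2 / u.1) := by
      rw [← dF_smul, mul_one, mul_div_cancel₀ _ ha]
    have e5 : dF u.1 u.2 ^ 5 = d ^ 5 := by
      refine mul_left_cancel₀ (show (1728 : K) ≠ 0 by norm_num) ?_
      rw [← c4F_cube_sub, hd, ← c4F_cube_sub, hu.1, hu.2, hv.1, hv.2]
    rw [IsRoot, heval]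
    refine mul_left_cancel₀ (pow_ne_zero 60 ha) ?_
    rw [mul_zero]
    calc _ = d ^ 5 * (u.1 ^ 20 * c4F 1 (u.2 / u.1)) ^ 3
          - c₄ ^ 3 * (u.1 ^ 12 * dF 1 (u.2 / u.1)) ^ 5 := by ring
      _ = 0 := by rw [← e4, ← ed, e5, hu.1]; ring
  set t : List Bool → K := fun l => (wordMap z l v).2 / (wordMap z l v).1 with ht
  have hline : ∀ {u u' : K × K}, IsOver c₄ c₆ u → IsOver c₄ c₆ u' → u.2 / u.1 = u'.2 / u'.1 →
      ∃ s : K, s ^ 10 = 1 ∧ u = s • u' := fun {u u'} hu hu' e => by
    have ha := hfst hu
    have ha' := hfst hu'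
    have hu_eq : u = (u.1 / u'.1) • u' := by
      ext
      · simp [div_mul_cancel₀ _ ha']
      · rw [div_eq_div_iff ha ha'] at e
        simp only [Prod.smul_snd, smul_eq_mul]
        field_simp
        linear_combination e
    refine ⟨_, ?_, hu_eq⟩
    set s := u.1 / u'.1
    have e4 : s ^ 20 = 1 := mul_right_cancel₀ h4 <| by
      rw [one_mul]
      conv_rhs => rw [← hu.1, hu_eq]
      simp [c4F_smul, hu'.1]
    have e6 : s ^ 30 = 1 := mul_right_cancel₀ h6 <| by
      rw [one_mul]
      conv_rhs => rw [← hu.2, hu_eq]
      simp [c6F_smul, hu'.2]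
    calc s ^ 10 = s ^ 10 * s ^ 20 := by rw [e4, mul_one]
      _ = 1 := by rw [← pow_add, e6]
  have hinj : ∀ l l', t l = t l' → matKey (wordMat l) = matKey (wordMat l') := fun l l' e => by
    obtain ⟨s, hs, he⟩ := hline ((realised_word hz l).isOver hv) ((realised_word hz l').isOver hv) e
    have hr := (realised_scalar hz hs).comp (realised_word hz l')
    have h1 := (realised_word hz l).act v hv ((realised_word hz l).isOver hv)
    have h2 := hr.act v hv (hr.isOver hv)
    have hP : ptP (phiMu_of_root hz) ((realised_word hz l).isOver hv) =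
        ptP (phiMu_of_root hz) (hr.isOver hv) :=
      mkPt_congr (by simp [he]) (by simp [he])
    have hQ : ptQ ((realised_word hz l).isOver hv) = ptQ (hr.isOver hv) :=
      mkPt_congr (by simp [he]) (by simp [he])
    rw [h1.1, h2.1] at hP
    rw [h1.2, h2.2] at hQ
    have key : ∀ {a b a' b' : ℤ}, a • ptP (phiMu_of_root hz) hv + b • ptQ hv =
        a' • ptP (phiMu_of_root hz) hv + b' • ptQ hv → (5 : ℤ) ∣ a - a' ∧ (5 : ℤ) ∣ b - b' :=
      fun {a b a' b'} e => indep (phiMu_of_root hz) hv (by
        rw [sub_zsmul, sub_zsmul]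
        linear_combination (norm := abel) e)
    obtain ⟨k1, k2⟩ := key hP
    obtain ⟨k3, k4⟩ := key hQ
    revert k1 k2 k3 k4
    obtain ⟨a, b, c, d⟩ := wordMat l
    obtain ⟨p, q, r, w⟩ := wordMat l'
    simp only [scalarMat]
    split_ifs <;> simp only [matMul, matKey] <;> intro k1 k2 k3 k4 <;>
      simp only [mul_one, mul_zero, add_zero, zero_add, mul_neg] at k1 k2 k3 k4
    · rw [(Int.emod_eq_emod_iff_emod_sub_eq_zero.2 (Int.emod_eq_zero_of_dvd k1)),
        (Int.emod_eq_emod_iff_emod_sub_eq_zero.2 (Int.emod_eq_zero_of_dvd k2)),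
        (Int.emod_eq_emod_iff_emod_sub_eq_zero.2 (Int.emod_eq_zero_of_dvd k3)),
        (Int.emod_eq_emod_iff_emod_sub_eq_zero.2 (Int.emod_eq_zero_of_dvd k4))]
      rw [show (-a) % 5 = (-p) % 5 by omega, show (-b) % 5 = (-q) % 5 by omega,
        show (-c) % 5 = (-r) % 5 by omega, show (-d) % 5 = (-w) % 5 by omega]
    · rw [show a % 5 = (-p) % 5 by omega, show b % 5 = (-q) % 5 by omega,
        show c % 5 = (-r) % 5 by omega, show d % 5 = (-w) % 5 by omega,
        show (-a) % 5 = p % 5 by omega, show (-b) % 5 = q % 5 by omega,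
        show (-c) % 5 = r % 5 by omega, show (-d) % 5 = w % 5 by omega, min_comm]
  set T : List K := words.map t
  have hnd : T.Nodup := by
    have hw := words_nodup
    rw [List.nodup_map_iff_inj_on (List.Nodup.of_map _ hw)]
    intro l hl l' hl' e
    exact List.inj_on_of_nodup_map hw hl hl' (hinj l l' e)
  have hsub : T.toFinset ⊆ G.roots.toFinset := by
    intro x hx
    obtain ⟨l, -, rfl⟩ := List.mem_map.1 (List.mem_toFinset.1 hx)
    exact Multiset.mem_toFinset.2 ((mem_roots hG0).2 (hroot ((realised_word hz l).isOver hv)))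
  have hcard : G.roots.toFinset.card ≤ T.toFinset.card := by
    rw [List.toFinset_card_of_nodup hnd, List.length_map, words_length]
    exact (Multiset.toFinset_card_le _).trans ((card_roots' G).trans hdeg)
  have hmem : u.2 / u.1 ∈ T.toFinset := by
    rw [Finset.eq_of_subset_of_card_le hsub hcard]
    exact Multiset.mem_toFinset.2 ((mem_roots hG0).2 (hroot hu))
  obtain ⟨l, -, hl⟩ := List.mem_map.1 (List.mem_toFinset.1 hmem)
  obtain ⟨s, hs, he⟩ := hline hu ((realised_word hz l).isOver hv) hl.symm
  exact ⟨_, _, (realised_scalar hz hs).comp (realised_word hz l), by simpa using he⟩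

end Fermat.Agent.ThreeFive
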