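import Fermat.Agent.ThreeFive.Basic

/-!
# Identities between the icosahedral forms

The long cofactors below were computed by polynomial division.
-/

set_option autoImplicit false
set_option maxHeartbeats 1000000

namespace Fermat.Agent.ThreeFive

variable {K : Type*} [Field K] [CharZero K] {f m z : K}

theorem c4F_M (hf : f ^ 2 = f + 1) (x y : K) :
    c4F (f * x + y) (x - f * y) = (106250 + 171875 * f) * c4F x y := by
  have hr : f ^ 2 - f - 1 = 0 := by rw [hf]; ring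
  have hA : (f * x + y) ^ 5 =
      5 * f * x^5 + 15 * f * x^4 * y + 20 * f * x^3 * y^2 + 10 * f * x^2 * y^3 + 5 * f * x * y^4
      + 3 * x^5 + 10 * x^4 * y + 10 * x^3 * y^2 + 10 * x^2 * y^3 + y^5 := by
    linear_combination (f^3 * x^5 + f^2 * x^5 + 5 * f^2 * x^4 * y + 2 * f * x^5 + 5 * f * x^4 * y + 10 * f * x^3 *
      y^2 + 3 * x^5 + 10 * x^4 * y + 10 * x^3 * y^2 + 10 * x^2 * y^3) * hr
  have hB : (x - f * y) ^ 5 =
      -5 * f * x^4 * y + 10 * f * x^3 * y^2 - 20 * f * x^2 * y^3 + 15 * f * x * y^4 - 5 * f *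
      y^5 + x^5 + 10 * x^3 * y^2 - 10 * x^2 * y^3 + 10 * x * y^4 - 3 * y^5 := by
    linear_combination (-f^3 * y^5 + 5 * f^2 * x * y^4 - f^2 * y^5 - 10 * f * x^2 * y^3 + 5 * f * x * y^4 - 2 * f
      * y^5 + 10 * x^3 * y^2 - 10 * x^2 * y^3 + 10 * x * y^4 - 3 * y^5) * hr
  have hA2 : ((f * x + y) ^ 5) ^ 2 =
      55 * f * x^10 + 340 * f * x^9 * y + 945 * f * x^8 * y^2 + 1560 * f * x^7 * y^3 + 1680 * f
      * x^6 * y^4 + 1260 * f * x^5 * y^5 + 630 * f * x^4 * y^6 + 240 * f * x^3 * y^7 + 45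
      * f * x^2 * y^8 + 10 * f * x * y^9 + 34 * x^10 + 210 * x^9 * y + 585 * x^8 * y^2 +
      960 * x^7 * y^3 + 1050 * x^6 * y^4 + 756 * x^5 * y^5 + 420 * x^4 * y^6 + 120 * x^3 *
      y^7 + 45 * x^2 * y^8 + y^10 := by
    rw [hA]
    linear_combination (25 * x^10 + 150 * x^9 * y + 425 * x^8 * y^2 + 700 * x^7 * y^3 + 750 * x^6 * y^4 + 550 *
      x^5 * y^5 + 300 * x^4 * y^6 + 100 * x^3 * y^7 + 25 * x^2 * y^8) * hr
  have hAB : (f * x + y) ^ 5 * (x - f * y) ^ 5 =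
      5 * f * x^10 - 25 * f * x^9 * y + 25 * f * x^8 * y^2 + 50 * f * x^7 * y^3 - 75 * f * x^6 *
      y^4 - 55 * f * x^5 * y^5 + 75 * f * x^4 * y^6 + 50 * f * x^3 * y^7 - 25 * f * x^2 *
      y^8 - 25 * f * x * y^9 - 5 * f * y^10 + 3 * x^10 - 15 * x^9 * y + 15 * x^8 * y^2 +
      30 * x^7 * y^3 - 45 * x^6 * y^4 - 33 * x^5 * y^5 + 45 * x^4 * y^6 + 30 * x^3 * y^7 -
      15 * x^2 * y^8 - 15 * x * y^9 - 3 * y^10 := by
    rw [hA, hB]
    linear_combination (-25 * x^9 * y - 25 * x^8 * y^2 - 50 * x^7 * y^3 - 75 * x^6 * y^4 - 125 * x^5 * y^5 + 75 *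
      x^4 * y^6 - 50 * x^3 * y^7 + 25 * x^2 * y^8 - 25 * x * y^9) * hr
  have hB2 : ((x - f * y) ^ 5) ^ 2 =
      -10 * f * x^9 * y + 45 * f * x^8 * y^2 - 240 * f * x^7 * y^3 + 630 * f * x^6 * y^4 - 1260
      * f * x^5 * y^5 + 1680 * f * x^4 * y^6 - 1560 * f * x^3 * y^7 + 945 * f * x^2 * y^8
      - 340 * f * x * y^9 + 55 * f * y^10 + x^10 + 45 * x^8 * y^2 - 120 * x^7 * y^3 + 420
      * x^6 * y^4 - 756 * x^5 * y^5 + 1050 * x^4 * y^6 - 960 * x^3 * y^7 + 585 * x^2 * y^8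
      - 210 * x * y^9 + 34 * y^10 := by
    rw [hB]
    linear_combination (25 * x^8 * y^2 - 100 * x^7 * y^3 + 300 * x^6 * y^4 - 550 * x^5 * y^5 + 750 * x^4 * y^6 -
      700 * x^3 * y^7 + 425 * x^2 * y^8 - 150 * x * y^9 + 25 * y^10) * hr
  simp only [c4F, c4Ab]
  rw [hA2, hAB, hB2]
  linear_combination (78075 * x^20 - 600 * x^19 * y - 3600 * x^18 * y^2 - 13200 * x^17 * y^3 - 34800 * x^16 *
      y^4 + 17744100 * x^15 * y^5 - 108600 * x^14 * y^6 - 123600 * x^13 * y^7 - 151200 *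
      x^12 * y^8 - 67800 * x^11 * y^9 + 38446050 * x^10 * y^10 + 67800 * x^9 * y^11 -
      151200 * x^8 * y^12 + 123600 * x^7 * y^13 - 108600 * x^6 * y^14 - 17744100 * x^5 *
      y^15 - 34800 * x^4 * y^16 + 13200 * x^3 * y^17 - 3600 * x^2 * y^18 + 600 * x * y^19
      + 78075 * y^20) * hr

theorem c6F_M (hf : f ^ 2 = f + 1) (x y : K) :
    c6F (f * x + y) (x - f * y) = -((65859375 + 106562500 * f)) * c6F x y := by
  have hr : f ^ 2 - f - 1 = 0 := by rw [hf]; ring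
  have hA : (f * x + y) ^ 5 =
      5 * f * x^5 + 15 * f * x^4 * y + 20 * f * x^3 * y^2 + 10 * f * x^2 * y^3 + 5 * f * x * y^4
      + 3 * x^5 + 10 * x^4 * y + 10 * x^3 * y^2 + 10 * x^2 * y^3 + y^5 := by
    linear_combination (f^3 * x^5 + f^2 * x^5 + 5 * f^2 * x^4 * y + 2 * f * x^5 + 5 * f * x^4 * y + 10 * f * x^3 *
      y^2 + 3 * x^5 + 10 * x^4 * y + 10 * x^3 * y^2 + 10 * x^2 * y^3) * hr
  have hB : (x - f * y) ^ 5 =
      -5 * f * x^4 * y + 10 * f * x^3 * y^2 - 20 * f * x^2 * y^3 + 15 * f * x * y^4 - 5 * f *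
      y^5 + x^5 + 10 * x^3 * y^2 - 10 * x^2 * y^3 + 10 * x * y^4 - 3 * y^5 := by
    linear_combination (-f^3 * y^5 + 5 * f^2 * x * y^4 - f^2 * y^5 - 10 * f * x^2 * y^3 + 5 * f * x * y^4 - 2 * f
      * y^5 + 10 * x^3 * y^2 - 10 * x^2 * y^3 + 10 * x * y^4 - 3 * y^5) * hr
  have hA2 : ((f * x + y) ^ 5) ^ 2 =
      55 * f * x^10 + 340 * f * x^9 * y + 945 * f * x^8 * y^2 + 1560 * f * x^7 * y^3 + 1680 * f
      * x^6 * y^4 + 1260 * f * x^5 * y^5 + 630 * f * x^4 * y^6 + 240 * f * x^3 * y^7 + 45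
      * f * x^2 * y^8 + 10 * f * x * y^9 + 34 * x^10 + 210 * x^9 * y + 585 * x^8 * y^2 +
      960 * x^7 * y^3 + 1050 * x^6 * y^4 + 756 * x^5 * y^5 + 420 * x^4 * y^6 + 120 * x^3 *
      y^7 + 45 * x^2 * y^8 + y^10 := by
    rw [hA]
    linear_combination (25 * x^10 + 150 * x^9 * y + 425 * x^8 * y^2 + 700 * x^7 * y^3 + 750 * x^6 * y^4 + 550 *
      x^5 * y^5 + 300 * x^4 * y^6 + 100 * x^3 * y^7 + 25 * x^2 * y^8) * hr
  have hAB : (f * x + y) ^ 5 * (x - f * y) ^ 5 =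
      5 * f * x^10 - 25 * f * x^9 * y + 25 * f * x^8 * y^2 + 50 * f * x^7 * y^3 - 75 * f * x^6 *
      y^4 - 55 * f * x^5 * y^5 + 75 * f * x^4 * y^6 + 50 * f * x^3 * y^7 - 25 * f * x^2 *
      y^8 - 25 * f * x * y^9 - 5 * f * y^10 + 3 * x^10 - 15 * x^9 * y + 15 * x^8 * y^2 +
      30 * x^7 * y^3 - 45 * x^6 * y^4 - 33 * x^5 * y^5 + 45 * x^4 * y^6 + 30 * x^3 * y^7 -
      15 * x^2 * y^8 - 15 * x * y^9 - 3 * y^10 := by
    rw [hA, hB]
    linear_combination (-25 * x^9 * y - 25 * x^8 * y^2 - 50 * x^7 * y^3 - 75 * x^6 * y^4 - 125 * x^5 * y^5 + 75 *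
      x^4 * y^6 - 50 * x^3 * y^7 + 25 * x^2 * y^8 - 25 * x * y^9) * hr
  have hB2 : ((x - f * y) ^ 5) ^ 2 =
      -10 * f * x^9 * y + 45 * f * x^8 * y^2 - 240 * f * x^7 * y^3 + 630 * f * x^6 * y^4 - 1260
      * f * x^5 * y^5 + 1680 * f * x^4 * y^6 - 1560 * f * x^3 * y^7 + 945 * f * x^2 * y^8
      - 340 * f * x * y^9 + 55 * f * y^10 + x^10 + 45 * x^8 * y^2 - 120 * x^7 * y^3 + 420
      * x^6 * y^4 - 756 * x^5 * y^5 + 1050 * x^4 * y^6 - 960 * x^3 * y^7 + 585 * x^2 * y^8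
      - 210 * x * y^9 + 34 * y^10 := by
    rw [hB]
    linear_combination (25 * x^8 * y^2 - 100 * x^7 * y^3 + 300 * x^6 * y^4 - 550 * x^5 * y^5 + 750 * x^4 * y^6 -
      700 * x^3 * y^7 + 425 * x^2 * y^8 - 150 * x * y^9 + 25 * y^10) * hr
  simp only [c6F, c6Ab]
  rw [hA2, hAB, hB2]
  linear_combination (7728875 * f * x^30 - 247599000 * f * x^29 * y - 2228391000 * f * x^28 * y^2 - 12875148000
      * f * x^27 * y^3 - 53728983000 * f * x^26 * y^4 - 183543747750 * f * x^25 * y^5 -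
      444440205000 * f * x^24 * y^6 - 940876200000 * f * x^23 * y^7 - 1675007235000 * f *
      x^22 * y^8 - 2519319825000 * f * x^21 * y^9 - 3518953494375 * f * x^20 * y^10 -
      3607517430000 * f * x^19 * y^11 - 3810548610000 * f * x^18 * y^12 - 2634453360000 *
      f * x^17 * y^13 - 3198979080000 * f * x^16 * y^14 - 3198979080000 * f * x^14 * y^16
      + 2634453360000 * f * x^13 * y^17 - 3810548610000 * f * x^12 * y^18 + 3607517430000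
      * f * x^11 * y^19 - 3518953494375 * f * x^10 * y^20 + 2519319825000 * f * x^9 * y^21
      - 1675007235000 * f * x^8 * y^22 + 940876200000 * f * x^7 * y^23 - 444440205000 * f
      * x^6 * y^24 + 183543747750 * f * x^5 * y^25 - 53728983000 * f * x^4 * y^26 +
      12875148000 * f * x^3 * y^27 - 2228391000 * f * x^2 * y^28 + 247599000 * f * x *
      y^29 + 7728875 * f * y^30 + 52184000 * x^30 - 157563000 * x^29 * y - 1418067000 *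
      x^28 * y^2 - 8193276000 * x^27 * y^3 - 34191171000 * x^26 * y^4 - 141473223000 *
      x^25 * y^5 - 282825585000 * x^24 * y^6 - 598739400000 * x^23 * y^7 - 1065913695000 *
      x^22 * y^8 - 1603203525000 * x^21 * y^9 - 2712226620000 * x^20 * y^10 -
      2295692910000 * x^19 * y^11 - 2424894570000 * x^18 * y^12 - 1676470320000 * x^17 *
      y^13 - 2035713960000 * x^16 * y^14 - 2035713960000 * x^14 * y^16 + 1676470320000 *
      x^13 * y^17 - 2424894570000 * x^12 * y^18 + 2295692910000 * x^11 * y^19 -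
      2712226620000 * x^10 * y^20 + 1603203525000 * x^9 * y^21 - 1065913695000 * x^8 *
      y^22 + 598739400000 * x^7 * y^23 - 282825585000 * x^6 * y^24 + 141473223000 * x^5 *
      y^25 - 34191171000 * x^4 * y^26 + 8193276000 * x^3 * y^27 - 1418067000 * x^2 * y^28
      + 157563000 * x * y^29 + 52184000 * y^30) * hr

theorem xP_M (hf : f ^ 2 = f + 1) (x y : K) :
    xP f (f * x + y) (x - f * y) = -((175 + 275 * f)) * xQ x y := by
  have hr : f ^ 2 - f - 1 = 0 := by rw [hf]; ring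
  have hA : (f * x + y) ^ 5 =
      5 * f * x^5 + 15 * f * x^4 * y + 20 * f * x^3 * y^2 + 10 * f * x^2 * y^3 + 5 * f * x * y^4
      + 3 * x^5 + 10 * x^4 * y + 10 * x^3 * y^2 + 10 * x^2 * y^3 + y^5 := by
    linear_combination (f^3 * x^5 + f^2 * x^5 + 5 * f^2 * x^4 * y + 2 * f * x^5 + 5 * f * x^4 * y + 10 * f * x^3 *
      y^2 + 3 * x^5 + 10 * x^4 * y + 10 * x^3 * y^2 + 10 * x^2 * y^3) * hr
  have hB : (x - f * y) ^ 5 =
      -5 * f * x^4 * y + 10 * f * x^3 * y^2 - 20 * f * x^2 * y^3 + 15 * f * x * y^4 - 5 * f *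
      y^5 + x^5 + 10 * x^3 * y^2 - 10 * x^2 * y^3 + 10 * x * y^4 - 3 * y^5 := by
    linear_combination (-f^3 * y^5 + 5 * f^2 * x * y^4 - f^2 * y^5 - 10 * f * x^2 * y^3 + 5 * f * x * y^4 - 2 * f
      * y^5 + 10 * x^3 * y^2 - 10 * x^2 * y^3 + 10 * x * y^4 - 3 * y^5) * hr
  have hA2 : ((f * x + y) ^ 5) ^ 2 =
      55 * f * x^10 + 340 * f * x^9 * y + 945 * f * x^8 * y^2 + 1560 * f * x^7 * y^3 + 1680 * f
      * x^6 * y^4 + 1260 * f * x^5 * y^5 + 630 * f * x^4 * y^6 + 240 * f * x^3 * y^7 + 45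
      * f * x^2 * y^8 + 10 * f * x * y^9 + 34 * x^10 + 210 * x^9 * y + 585 * x^8 * y^2 +
      960 * x^7 * y^3 + 1050 * x^6 * y^4 + 756 * x^5 * y^5 + 420 * x^4 * y^6 + 120 * x^3 *
      y^7 + 45 * x^2 * y^8 + y^10 := by
    rw [hA]
    linear_combination (25 * x^10 + 150 * x^9 * y + 425 * x^8 * y^2 + 700 * x^7 * y^3 + 750 * x^6 * y^4 + 550 *
      x^5 * y^5 + 300 * x^4 * y^6 + 100 * x^3 * y^7 + 25 * x^2 * y^8) * hr
  have hAB : (f * x + y) ^ 5 * (x - f * y) ^ 5 =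
      5 * f * x^10 - 25 * f * x^9 * y + 25 * f * x^8 * y^2 + 50 * f * x^7 * y^3 - 75 * f * x^6 *
      y^4 - 55 * f * x^5 * y^5 + 75 * f * x^4 * y^6 + 50 * f * x^3 * y^7 - 25 * f * x^2 *
      y^8 - 25 * f * x * y^9 - 5 * f * y^10 + 3 * x^10 - 15 * x^9 * y + 15 * x^8 * y^2 +
      30 * x^7 * y^3 - 45 * x^6 * y^4 - 33 * x^5 * y^5 + 45 * x^4 * y^6 + 30 * x^3 * y^7 -
      15 * x^2 * y^8 - 15 * x * y^9 - 3 * y^10 := by
    rw [hA, hB]
    linear_combination (-25 * x^9 * y - 25 * x^8 * y^2 - 50 * x^7 * y^3 - 75 * x^6 * y^4 - 125 * x^5 * y^5 + 75 *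
      x^4 * y^6 - 50 * x^3 * y^7 + 25 * x^2 * y^8 - 25 * x * y^9) * hr
  have hB2 : ((x - f * y) ^ 5) ^ 2 =
      -10 * f * x^9 * y + 45 * f * x^8 * y^2 - 240 * f * x^7 * y^3 + 630 * f * x^6 * y^4 - 1260
      * f * x^5 * y^5 + 1680 * f * x^4 * y^6 - 1560 * f * x^3 * y^7 + 945 * f * x^2 * y^8
      - 340 * f * x * y^9 + 55 * f * y^10 + x^10 + 45 * x^8 * y^2 - 120 * x^7 * y^3 + 420
      * x^6 * y^4 - 756 * x^5 * y^5 + 1050 * x^4 * y^6 - 960 * x^3 * y^7 + 585 * x^2 * y^8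
      - 210 * x * y^9 + 34 * y^10 := by
    rw [hB]
    linear_combination (25 * x^8 * y^2 - 100 * x^7 * y^3 + 300 * x^6 * y^4 - 550 * x^5 * y^5 + 750 * x^4 * y^6 -
      700 * x^3 * y^7 + 425 * x^2 * y^8 - 150 * x * y^9 + 25 * y^10) * hr
  simp only [xP, xQ]
  rw [hA2, hAB, hB2]
  linear_combination (4500 * x^9 * y + 4500 * x^8 * y^2 + 9000 * x^7 * y^3 + 13500 * x^6 * y^4 + 22500 * x^5 *
      y^5 - 13500 * x^4 * y^6 + 9000 * x^3 * y^7 - 4500 * x^2 * y^8 + 4500 * x * y^9) * hr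

theorem yP_M (hf : f ^ 2 = f + 1) (x y : K) :
    yY f (f * x + y) (x - f * y) = -((2250 + 3625 * f)) * yQ x y := by
  have hr : f ^ 2 - f - 1 = 0 := by rw [hf]; ring
  have hA : (f * x + y) ^ 5 =
      5 * f * x^5 + 15 * f * x^4 * y + 20 * f * x^3 * y^2 + 10 * f * x^2 * y^3 + 5 * f * x * y^4
      + 3 * x^5 + 10 * x^4 * y + 10 * x^3 * y^2 + 10 * x^2 * y^3 + y^5 := by
    linear_combination (f^3 * x^5 + f^2 * x^5 + 5 * f^2 * x^4 * y + 2 * f * x^5 + 5 * f * x^4 * y + 10 * f * x^3 *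
      y^2 + 3 * x^5 + 10 * x^4 * y + 10 * x^3 * y^2 + 10 * x^2 * y^3) * hr
  have hB : (x - f * y) ^ 5 =
      -5 * f * x^4 * y + 10 * f * x^3 * y^2 - 20 * f * x^2 * y^3 + 15 * f * x * y^4 - 5 * f *
      y^5 + x^5 + 10 * x^3 * y^2 - 10 * x^2 * y^3 + 10 * x * y^4 - 3 * y^5 := by
    linear_combination (-f^3 * y^5 + 5 * f^2 * x * y^4 - f^2 * y^5 - 10 * f * x^2 * y^3 + 5 * f * x * y^4 - 2 * f
      * y^5 + 10 * x^3 * y^2 - 10 * x^2 * y^3 + 10 * x * y^4 - 3 * y^5) * hr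
  have hA2 : ((f * x + y) ^ 5) ^ 2 =
      55 * f * x^10 + 340 * f * x^9 * y + 945 * f * x^8 * y^2 + 1560 * f * x^7 * y^3 + 1680 * f
      * x^6 * y^4 + 1260 * f * x^5 * y^5 + 630 * f * x^4 * y^6 + 240 * f * x^3 * y^7 + 45
      * f * x^2 * y^8 + 10 * f * x * y^9 + 34 * x^10 + 210 * x^9 * y + 585 * x^8 * y^2 +
      960 * x^7 * y^3 + 1050 * x^6 * y^4 + 756 * x^5 * y^5 + 420 * x^4 * y^6 + 120 * x^3 *
      y^7 + 45 * x^2 * y^8 + y^10 := by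
    rw [hA]
    linear_combination (25 * x^10 + 150 * x^9 * y + 425 * x^8 * y^2 + 700 * x^7 * y^3 + 750 * x^6 * y^4 + 550 *
      x^5 * y^5 + 300 * x^4 * y^6 + 100 * x^3 * y^7 + 25 * x^2 * y^8) * hr
  have hAB : (f * x + y) ^ 5 * (x - f * y) ^ 5 =
      5 * f * x^10 - 25 * f * x^9 * y + 25 * f * x^8 * y^2 + 50 * f * x^7 * y^3 - 75 * f * x^6 *
      y^4 - 55 * f * x^5 * y^5 + 75 * f * x^4 * y^6 + 50 * f * x^3 * y^7 - 25 * f * x^2 *
      y^8 - 25 * f * x * y^9 - 5 * f * y^10 + 3 * x^10 - 15 * x^9 * y + 15 * x^8 * y^2 +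
      30 * x^7 * y^3 - 45 * x^6 * y^4 - 33 * x^5 * y^5 + 45 * x^4 * y^6 + 30 * x^3 * y^7 -
      15 * x^2 * y^8 - 15 * x * y^9 - 3 * y^10 := by
    rw [hA, hB]
    linear_combination (-25 * x^9 * y - 25 * x^8 * y^2 - 50 * x^7 * y^3 - 75 * x^6 * y^4 - 125 * x^5 * y^5 + 75 *
      x^4 * y^6 - 50 * x^3 * y^7 + 25 * x^2 * y^8 - 25 * x * y^9) * hr
  have hB2 : ((x - f * y) ^ 5) ^ 2 =
      -10 * f * x^9 * y + 45 * f * x^8 * y^2 - 240 * f * x^7 * y^3 + 630 * f * x^6 * y^4 - 1260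
      * f * x^5 * y^5 + 1680 * f * x^4 * y^6 - 1560 * f * x^3 * y^7 + 945 * f * x^2 * y^8
      - 340 * f * x * y^9 + 55 * f * y^10 + x^10 + 45 * x^8 * y^2 - 120 * x^7 * y^3 + 420
      * x^6 * y^4 - 756 * x^5 * y^5 + 1050 * x^4 * y^6 - 960 * x^3 * y^7 + 585 * x^2 * y^8
      - 210 * x * y^9 + 34 * y^10 := by
    rw [hB]
    linear_combination (25 * x^8 * y^2 - 100 * x^7 * y^3 + 300 * x^6 * y^4 - 550 * x^5 * y^5 + 750 * x^4 * y^6 -
      700 * x^3 * y^7 + 425 * x^2 * y^8 - 150 * x * y^9 + 25 * y^10) * hr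
  simp only [yY, yQ]
  rw [hA2, hB2, hA, hB]
  linear_combination (-11880 * f * x^15 - 235980 * f * x^14 * y - 1058940 * f * x^13 * y^2 - 2323620 * f * x^12
      * y^3 - 4605660 * f * x^11 * y^4 - 6220260 * f * x^10 * y^5 - 7745220 * f * x^9 *
      y^6 - 3998160 * f * x^8 * y^7 - 5328180 * f * x^7 * y^8 + 2494260 * f * x^6 * y^9 -
      3837780 * f * x^5 * y^10 + 1761480 * f * x^4 * y^11 - 1479060 * f * x^3 * y^12 +
      420120 * f * x^2 * y^13 - 132840 * f * x * y^14 + 5940 * f * y^15 + 17820 * x^15 +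
      85320 * x^14 * y + 169560 * x^13 * y^2 + 1426680 * x^12 * y^3 + 1412640 * x^11 * y^4
      + 2970540 * x^10 * y^5 + 1140480 * x^9 * y^6 + 4425840 * x^8 * y^7 - 4056480 * x^7 *
      y^8 + 8922960 * x^6 * y^9 - 6769980 * x^5 * y^10 + 4342680 * x^4 * y^11 - 2707560 *
      x^3 * y^12 + 1057320 * x^2 * y^13 - 278640 * x * y^14 + 5940 * y^15) * hr

theorem wX_M (hf : f ^ 2 = f + 1) (x y : K) :
    wX (f * x + y) (x - f * y) = -((175 + 275 * f)) * (f * wX x y + wY x y) := by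
  have hr : f ^ 2 - f - 1 = 0 := by rw [hf]; ring
  have hA : (f * x + y) ^ 5 =
      5 * f * x^5 + 15 * f * x^4 * y + 20 * f * x^3 * y^2 + 10 * f * x^2 * y^3 + 5 * f * x * y^4
      + 3 * x^5 + 10 * x^4 * y + 10 * x^3 * y^2 + 10 * x^2 * y^3 + y^5 := by
    linear_combination (f^3 * x^5 + f^2 * x^5 + 5 * f^2 * x^4 * y + 2 * f * x^5 + 5 * f * x^4 * y + 10 * f * x^3 *
      y^2 + 3 * x^5 + 10 * x^4 * y + 10 * x^3 * y^2 + 10 * x^2 * y^3) * hr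
  have hB : (x - f * y) ^ 5 =
      -5 * f * x^4 * y + 10 * f * x^3 * y^2 - 20 * f * x^2 * y^3 + 15 * f * x * y^4 - 5 * f *
      y^5 + x^5 + 10 * x^3 * y^2 - 10 * x^2 * y^3 + 10 * x * y^4 - 3 * y^5 := by
    linear_combination (-f^3 * y^5 + 5 * f^2 * x * y^4 - f^2 * y^5 - 10 * f * x^2 * y^3 + 5 * f * x * y^4 - 2 * f
      * y^5 + 10 * x^3 * y^2 - 10 * x^2 * y^3 + 10 * x * y^4 - 3 * y^5) * hr
  have hA2 : ((f * x + y) ^ 5) ^ 2 =
      55 * f * x^10 + 340 * f * x^9 * y + 945 * f * x^8 * y^2 + 1560 * f * x^7 * y^3 + 1680 * f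
      * x^6 * y^4 + 1260 * f * x^5 * y^5 + 630 * f * x^4 * y^6 + 240 * f * x^3 * y^7 + 45
      * f * x^2 * y^8 + 10 * f * x * y^9 + 34 * x^10 + 210 * x^9 * y + 585 * x^8 * y^2 +
      960 * x^7 * y^3 + 1050 * x^6 * y^4 + 756 * x^5 * y^5 + 420 * x^4 * y^6 + 120 * x^3 *
      y^7 + 45 * x^2 * y^8 + y^10 := by
    rw [hA]
    linear_combination (25 * x^10 + 150 * x^9 * y + 425 * x^8 * y^2 + 700 * x^7 * y^3 + 750 * x^6 * y^4 + 550 *
      x^5 * y^5 + 300 * x^4 * y^6 + 100 * x^3 * y^7 + 25 * x^2 * y^8) * hr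
  have hAB : (f * x + y) ^ 5 * (x - f * y) ^ 5 =
      5 * f * x^10 - 25 * f * x^9 * y + 25 * f * x^8 * y^2 + 50 * f * x^7 * y^3 - 75 * f * x^6 *
      y^4 - 55 * f * x^5 * y^5 + 75 * f * x^4 * y^6 + 50 * f * x^3 * y^7 - 25 * f * x^2 *
      y^8 - 25 * f * x * y^9 - 5 * f * y^10 + 3 * x^10 - 15 * x^9 * y + 15 * x^8 * y^2 +
      30 * x^7 * y^3 - 45 * x^6 * y^4 - 33 * x^5 * y^5 + 45 * x^4 * y^6 + 30 * x^3 * y^7 -
      15 * x^2 * y^8 - 15 * x * y^9 - 3 * y^10 := by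
    rw [hA, hB]
    linear_combination (-25 * x^9 * y - 25 * x^8 * y^2 - 50 * x^7 * y^3 - 75 * x^6 * y^4 - 125 * x^5 * y^5 + 75 *
      x^4 * y^6 - 50 * x^3 * y^7 + 25 * x^2 * y^8 - 25 * x * y^9) * hr
  have hB2 : ((x - f * y) ^ 5) ^ 2 =
      -10 * f * x^9 * y + 45 * f * x^8 * y^2 - 240 * f * x^7 * y^3 + 630 * f * x^6 * y^4 - 1260
      * f * x^5 * y^5 + 1680 * f * x^4 * y^6 - 1560 * f * x^3 * y^7 + 945 * f * x^2 * y^8
      - 340 * f * x * y^9 + 55 * f * y^10 + x^10 + 45 * x^8 * y^2 - 120 * x^7 * y^3 + 420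
      * x^6 * y^4 - 756 * x^5 * y^5 + 1050 * x^4 * y^6 - 960 * x^3 * y^7 + 585 * x^2 * y^8
      - 210 * x * y^9 + 34 * y^10 := by
    rw [hB]
    linear_combination (25 * x^8 * y^2 - 100 * x^7 * y^3 + 300 * x^6 * y^4 - 550 * x^5 * y^5 + 750 * x^4 * y^6 -
      700 * x^3 * y^7 + 425 * x^2 * y^8 - 150 * x * y^9 + 25 * y^10) * hr
  simp only [wX, wY]
  rw [hA2, hAB, hB2]
  linear_combination (2100 * x^10 * y - 1200 * x^9 * y^2 + 900 * x^8 * y^3 - 300 * x^7 * y^4 + 600 * x^6 * y^5 -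
      22800 * x^5 * y^6 + 14100 * x^4 * y^7 - 8700 * x^3 * y^8 + 5400 * x^2 * y^9 - 3300 *
      x * y^10) * hr

theorem wY_M (hf : f ^ 2 = f + 1) (x y : K) :
    wY (f * x + y) (x - f * y) = -((175 + 275 * f)) * (wX x y - f * wY x y) := by
  have hr : f ^ 2 - f - 1 = 0 := by rw [hf]; ring
  have hA : (f * x + y) ^ 5 =
      5 * f * x^5 + 15 * f * x^4 * y + 20 * f * x^3 * y^2 + 10 * f * x^2 * y^3 + 5 * f * x * y^4
      + 3 * x^5 + 10 * x^4 * y + 10 * x^3 * y^2 + 10 * x^2 * y^3 + y^5 := by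
    linear_combination (f^3 * x^5 + f^2 * x^5 + 5 * f^2 * x^4 * y + 2 * f * x^5 + 5 * f * x^4 * y + 10 * f * x^3 *
      y^2 + 3 * x^5 + 10 * x^4 * y + 10 * x^3 * y^2 + 10 * x^2 * y^3) * hr
  have hB : (x - f * y) ^ 5 =
      -5 * f * x^4 * y + 10 * f * x^3 * y^2 - 20 * f * x^2 * y^3 + 15 * f * x * y^4 - 5 * f *
      y^5 + x^5 + 10 * x^3 * y^2 - 10 * x^2 * y^3 + 10 * x * y^4 - 3 * y^5 := by
    linear_combination (-f^3 * y^5 + 5 * f^2 * x * y^4 - f^2 * y^5 - 10 * f * x^2 * y^3 + 5 * f * x * y^4 - 2 * f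
      * y^5 + 10 * x^3 * y^2 - 10 * x^2 * y^3 + 10 * x * y^4 - 3 * y^5) * hr
  have hA2 : ((f * x + y) ^ 5) ^ 2 =
      55 * f * x^10 + 340 * f * x^9 * y + 945 * f * x^8 * y^2 + 1560 * f * x^7 * y^3 + 1680 * f
      * x^6 * y^4 + 1260 * f * x^5 * y^5 + 630 * f * x^4 * y^6 + 240 * f * x^3 * y^7 + 45
      * f * x^2 * y^8 + 10 * f * x * y^9 + 34 * x^10 + 210 * x^9 * y + 585 * x^8 * y^2 +
      960 * x^7 * y^3 + 1050 * x^6 * y^4 + 756 * x^5 * y^5 + 420 * x^4 * y^6 + 120 * x^3 *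
      y^7 + 45 * x^2 * y^8 + y^10 := by
    rw [hA]
    linear_combination (25 * x^10 + 150 * x^9 * y + 425 * x^8 * y^2 + 700 * x^7 * y^3 + 750 * x^6 * y^4 + 550 *
      x^5 * y^5 + 300 * x^4 * y^6 + 100 * x^3 * y^7 + 25 * x^2 * y^8) * hr
  have hAB : (f * x + y) ^ 5 * (x - f * y) ^ 5 =
      5 * f * x^10 - 25 * f * x^9 * y + 25 * f * x^8 * y^2 + 50 * f * x^7 * y^3 - 75 * f * x^6 *
      y^4 - 55 * f * x^5 * y^5 + 75 * f * x^4 * y^6 + 50 * f * x^3 * y^7 - 25 * f * x^2 *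
      y^8 - 25 * f * x * y^9 - 5 * f * y^10 + 3 * x^10 - 15 * x^9 * y + 15 * x^8 * y^2 +
      30 * x^7 * y^3 - 45 * x^6 * y^4 - 33 * x^5 * y^5 + 45 * x^4 * y^6 + 30 * x^3 * y^7 -
      15 * x^2 * y^8 - 15 * x * y^9 - 3 * y^10 := by
    rw [hA, hB]
    linear_combination (-25 * x^9 * y - 25 * x^8 * y^2 - 50 * x^7 * y^3 - 75 * x^6 * y^4 - 125 * x^5 * y^5 + 75 *
      x^4 * y^6 - 50 * x^3 * y^7 + 25 * x^2 * y^8 - 25 * x * y^9) * hr
  have hB2 : ((x - f * y) ^ 5) ^ 2 =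
      -10 * f * x^9 * y + 45 * f * x^8 * y^2 - 240 * f * x^7 * y^3 + 630 * f * x^6 * y^4 - 1260
      * f * x^5 * y^5 + 1680 * f * x^4 * y^6 - 1560 * f * x^3 * y^7 + 945 * f * x^2 * y^8
      - 340 * f * x * y^9 + 55 * f * y^10 + x^10 + 45 * x^8 * y^2 - 120 * x^7 * y^3 + 420
      * x^6 * y^4 - 756 * x^5 * y^5 + 1050 * x^4 * y^6 - 960 * x^3 * y^7 + 585 * x^2 * y^8
      - 210 * x * y^9 + 34 * y^10 := by
    rw [hB]
    linear_combination (25 * x^8 * y^2 - 100 * x^7 * y^3 + 300 * x^6 * y^4 - 550 * x^5 * y^5 + 750 * x^4 * y^6 -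
      700 * x^3 * y^7 + 425 * x^2 * y^8 - 150 * x * y^9 + 25 * y^10) * hr
  simp only [wX, wY]
  rw [hA2, hAB, hB2]
  linear_combination (3300 * x^10 * y + 5400 * x^9 * y^2 + 8700 * x^8 * y^3 + 14100 * x^7 * y^4 + 22800 * x^6 *
      y^5 + 600 * x^5 * y^6 + 300 * x^4 * y^7 + 900 * x^3 * y^8 + 1200 * x^2 * y^9 + 2100
      * x * y^10) * hr

theorem m_pow10 (hf : f ^ 2 = f + 1) (hm : m ^ 2 = -f - 2) :
    m ^ 10 = -(175 + 275 * f) := by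
  have hr : f ^ 2 - f - 1 = 0 := by rw [hf]; ring
  rw [show m ^ 10 = (m ^ 2) ^ 5 by ring, hm]
  linear_combination (-f^3 - 11 * f^2 - 52 * f - 143) * hr

theorem m_pow14 (hf : f ^ 2 = f + 1) (hm : m ^ 2 = -f - 2) :
    m ^ 14 = -(2250 + 3625 * f) := by
  have hr : f ^ 2 - f - 1 = 0 := by rw [hf]; ring
  rw [show m ^ 14 = (m ^ 2) ^ 7 by ring, hm]
  linear_combination (-f^5 - 15 * f^4 - 100 * f^3 - 395 * f^2 - 1055 * f - 2122) * hr

theorem m_pow20 (hf : f ^ 2 = f + 1) (hm : m ^ 2 = -f - 2) :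
    m ^ 20 = (106250 + 171875 * f) := by
  have hr : f ^ 2 - f - 1 = 0 := by rw [hf]; ring
  rw [show m ^ 20 = (m ^ 2) ^ 10 by ring, hm]
  linear_combination (f^8 + 21 * f^7 + 202 * f^6 + 1183 * f^5 + 4745 * f^4 + 13992 * f^3 + 32177 * f^2 + 61529 *
      f + 105226) * hr

theorem m_pow30 (hf : f ^ 2 = f + 1) (hm : m ^ 2 = -f - 2) :
    m ^ 30 = -(65859375 + 106562500 * f) := by
  have hr : f ^ 2 - f - 1 = 0 := by rw [hf]; ring
  rw [show m ^ 30 = (m ^ 2) ^ 15 by ring, hm]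
  linear_combination (-f^13 - 31 * f^12 - 452 * f^11 - 4123 * f^10 - 26415 * f^9 - 126634 * f^8 - 473369 * f^7 -
      1423683 * f^6 - 3544412 * f^5 - 7530655 * f^4 - 14150139 * f^3 - 24476314 * f^2 -
      40490133 * f - 65826607) * hr

theorem P_curve (hf : f ^ 2 = f + 1) (hm : m ^ 2 = -f - 2) (x y : K) :
    (yP f m x y) ^ 2 = (xP f x y) ^ 3 - 27 * c4F x y * xP f x y - 54 * c6F x y := by
  have hr : f ^ 2 - f - 1 = 0 := by rw [hf]; ring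
  simp only [yP]
  rw [mul_pow, hm]
  simp only [yY, xP, c4F, c6F, c4Ab, c6Ab]
  linear_combination (-(279936/125) * f * x^30 + (6905088/125) * f * x^25 * y^5 - (9949392/25) * f * x^20 * y^10
      + (16586208/25) * f * x^15 * y^15 + (2950992/25) * f * x^10 * y^20 + (489888/125) *
      f * x^5 * y^25 - (11664/125) * f * y^30 + (314928/125) * x^30 - (6601824/125) * x^25
      * y^5 + (6053616/25) * x^20 * y^10 + (9261216/25) * x^15 * y^15 + (944784/25) * x^10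
      * y^20 - (186624/125) * x^5 * y^25 - (23328/125) * y^30) * hr

theorem Q_curve (x y : K) :
    (yQ x y) ^ 2 = (xQ x y) ^ 3 - 27 * c4F x y * xQ x y - 54 * c6F x y := by
  simp only [yQ, xQ, c4F, c6F, c4Ab, c6Ab]
  ring

theorem tangent_slope (hf : f ^ 2 = f + 1) (x y : K) :
    2 * (-f - 2) * yY f x y * kP f x y = 3 * (xP f x y) ^ 2 - 27 * c4F x y := by
  have hr : f ^ 2 - f - 1 = 0 := by rw [hf]; ring
  simp only [yY, xP, kP, c4F, c4Ab]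
  linear_combination ((9072/25) * f * x^20 - (105624/25) * f * x^15 * y^5 + (55728/25) * f * x^10 * y^10 -
      (1296/25) * f * x^5 * y^15 - (648/25) * f * y^20 + (1944/25) * x^20 + (15552/25) *
      x^15 * y^5 - (406944/25) * x^10 * y^10 - (51192/25) * x^5 * y^15 - (1296/25) * y^20) * hr

theorem tangent_x (hf : f ^ 2 = f + 1) (x y : K) :
    (-f - 2) * (kP f x y) ^ 2 - 2 * xP f x y = xP (1 - f) x y := by
  have hr : f ^ 2 - f - 1 = 0 := by rw [hf]; ring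
  simp only [xP, kP]
  linear_combination (-(441/25) * f * x^10 + (126/25) * f * x^5 * y^5 - (9/25) * f * y^10 - (567/25) * x^10 -
      (738/25) * x^5 * y^5 + (117/25) * y^10) * hr

theorem tangent_y (hf : f ^ 2 = f + 1) (x y : K) :
    -(kP f x y * (xP (1 - f) x y - xP f x y) + yY f x y) = (f - 1) * yY (1 - f) x y := by
  have hr : f ^ 2 - f - 1 = 0 := by rw [hf]; ring
  simp only [xP, kP, yY]
  linear_combination ((432/25) * x^15 - (4428/25) * x^10 * y^5 - (3996/25) * x^5 * y^10 - (324/25) * y^15) * hr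

theorem xQ_sep (hf : f ^ 2 = f + 1) (x y : K) :
    (xQ x y - xP f x y) * (xQ x y - xP (1 - f) x y) * (x^13 * y^3 - 5 * x^11 * y^5 - 5 * x^10 * y^6 + 10 * x^9 * y^7 + 14 * x^8 * y^8 - 10 * x^6
      * y^10 - 10 * x^5 * y^11 - 5 * x^4 * y^12 - x^3 * y^13) =
      1296 / 5 * (dF x y) ^ 3 := by
  have hr : f ^ 2 - f - 1 = 0 := by rw [hf]; ring
  simp only [xP, xQ, dF]
  linear_combination (-(1296/25) * x^33 * y^3 + (1296/5) * x^31 * y^5 + (1296/5) * x^30 * y^6 - (2592/5) * x^29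
      * y^7 + (10368/25) * x^28 * y^8 - 5184 * x^26 * y^10 - 5184 * x^25 * y^11 + 11664 *
      x^24 * y^12 + (49248/5) * x^23 * y^13 + 19440 * x^21 * y^15 + 19440 * x^20 * y^16 -
      67392 * x^19 * y^17 - (443232/5) * x^18 * y^18 + 67392 * x^16 * y^20 + 67392 * x^15
      * y^21 + 19440 * x^14 * y^22 - (49248/5) * x^13 * y^23 + 11664 * x^11 * y^25 + 11664
      * x^10 * y^26 + 5184 * x^9 * y^27 + (10368/25) * x^8 * y^28 + (2592/5) * x^6 * y^30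
      + (2592/5) * x^5 * y^31 + (1296/5) * x^4 * y^32 + (1296/25) * x^3 * y^33) * hr

theorem phi_sq (hz : z ^ 4 + z ^ 3 + z ^ 2 + z + 1 = 0) : (-(z ^ 2 + z ^ 3)) ^ 2 = -(z ^ 2 + z ^ 3) + 1 := by
  linear_combination (z^2 + z - 1) * hz

theorem mu_sq (hz : z ^ 4 + z ^ 3 + z ^ 2 + z + 1 = 0) : (z - z ^ 4) ^ 2 = -(-(z ^ 2 + z ^ 3)) - 2 := by
  linear_combination (z^4 - z^3 - 2 * z + 2) * hz

theorem chord_slope (hz : z ^ 4 + z ^ 3 + z ^ 2 + z + 1 = 0) (x y : K) :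
    lS z x y * (xQ x y - xP (-(z ^ 2 + z ^ 3)) x y) = yQ x y + yP (-(z ^ 2 + z ^ 3)) (z - z ^ 4) x y := by
  simp only [lS, xP, xQ, yQ, yP, yY]
  linear_combination ((216/5) * z^3 * x^15 - (2484/5) * z^3 * x^10 * y^5 + (972/5) * z^3 * x^5 * y^10 + (108/5)
      * z^3 * y^15 + (432/25) * z^2 * x^15 - (216/5) * z^2 * x^13 * y^2 - (4968/25) * z^2
      * x^10 * y^5 + (2376/5) * z^2 * x^8 * y^7 + (1944/25) * z^2 * x^5 * y^10 + (216/5) *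
      z^2 * x^3 * y^12 + (216/25) * z^2 * y^15 - (1296/25) * z * x^15 + (216/5) * z * x^12
      * y^3 + (14364/25) * z * x^10 * y^5 - (2376/5) * z * x^7 * y^8 + (108/25) * z * x^5
      * y^10 - (216/5) * z * x^2 * y^13 - (108/25) * z * y^15 + (324/25) * x^15 + (216/5)
      * x^13 * y^2 - (216/5) * x^11 * y^4 - (2916/25) * x^10 * y^5 - (2376/5) * x^8 * y^7
      + (2376/5) * x^6 * y^9 - (7452/25) * x^5 * y^10 - (216/5) * x^3 * y^12 + (216/5) * x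
      * y^14 - (648/25) * y^15) * hz

theorem chord_x (hz : z ^ 4 + z ^ 3 + z ^ 2 + z + 1 = 0) (x y : K) :
    (lS z x y) ^ 2 - xQ x y - xP (-(z ^ 2 + z ^ 3)) x y = xQ (z ^ 3 * x) (z ^ 2 * y) := by
  simp only [lS, xP, xQ, yQ, yP, yY]
  linear_combination (-3 * z^26 * x^10 + 3 * z^25 * x^10 - 36 * z^24 * x^8 * y^2 + 36 * z^23 * x^8 * y^2 - 36 *
      z^23 * x^7 * y^3 + 36 * z^22 * x^7 * y^3 - 72 * z^22 * x^6 * y^4 - 3 * z^21 * x^10 +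
      72 * z^21 * x^6 * y^4 + 90 * z^21 * x^5 * y^5 + 3 * z^20 * x^10 - 90 * z^20 * x^5 *
      y^5 - 180 * z^20 * x^4 * y^6 - 36 * z^19 * x^8 * y^2 + 180 * z^19 * x^4 * y^6 + 108
      * z^19 * x^3 * y^7 + 36 * z^18 * x^8 * y^2 - 36 * z^18 * x^7 * y^3 - 108 * z^18 *
      x^3 * y^7 - 72 * z^18 * x^2 * y^8 + 36 * z^17 * x^7 * y^3 - 72 * z^17 * x^6 * y^4 +
      72 * z^17 * x^2 * y^8 + 36 * z^17 * x * y^9 - 3 * z^16 * x^10 + 72 * z^16 * x^6 *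
      y^4 + 90 * z^16 * x^5 * y^5 - 36 * z^16 * x * y^9 - 3 * z^16 * y^10 + 3 * z^15 *
      x^10 - 90 * z^15 * x^5 * y^5 - 180 * z^15 * x^4 * y^6 + 3 * z^15 * y^10 - 36 * z^14
      * x^8 * y^2 + 180 * z^14 * x^4 * y^6 + 108 * z^14 * x^3 * y^7 + 36 * z^13 * x^8 *
      y^2 - 36 * z^13 * x^7 * y^3 - 108 * z^13 * x^3 * y^7 - 72 * z^13 * x^2 * y^8 + 36 *
      z^12 * x^7 * y^3 - 72 * z^12 * x^6 * y^4 + 72 * z^12 * x^2 * y^8 + 36 * z^12 * x *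
      y^9 - 3 * z^11 * x^10 + 72 * z^11 * x^6 * y^4 + 90 * z^11 * x^5 * y^5 - 36 * z^11 *
      x * y^9 - 3 * z^11 * y^10 + 3 * z^10 * x^10 - 90 * z^10 * x^5 * y^5 - 180 * z^10 *
      x^4 * y^6 + 3 * z^10 * y^10 - 36 * z^9 * x^8 * y^2 + 180 * z^9 * x^4 * y^6 + 108 *
      z^9 * x^3 * y^7 + 36 * z^8 * x^8 * y^2 - 36 * z^8 * x^7 * y^3 - 108 * z^8 * x^3 *
      y^7 - 72 * z^8 * x^2 * y^8 + 36 * z^7 * x^7 * y^3 - 72 * z^7 * x^6 * y^4 + 72 * z^7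
      * x^2 * y^8 + 36 * z^7 * x * y^9 - 3 * z^6 * x^10 + 72 * z^6 * x^6 * y^4 + 90 * z^6
      * x^5 * y^5 - 36 * z^6 * x * y^9 - 3 * z^6 * y^10 + 3 * z^5 * x^10 - 90 * z^5 * x^5
      * y^5 - 180 * z^5 * x^4 * y^6 + 3 * z^5 * y^10 - 36 * z^4 * x^8 * y^2 + 180 * z^4 *
      x^4 * y^6 + 108 * z^4 * x^3 * y^7 + 36 * z^3 * x^8 * y^2 - 36 * z^3 * x^7 * y^3 -
      108 * z^3 * x^3 * y^7 - 72 * z^3 * x^2 * y^8 + (144/25) * z^2 * x^10 - (144/5) * z^2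
      * x^8 * y^2 + 36 * z^2 * x^7 * y^3 - 36 * z^2 * x^6 * y^4 - (144/25) * z^2 * x^5 *
      y^5 + (72/5) * z^2 * x^3 * y^7 + 72 * z^2 * x^2 * y^8 + 36 * z^2 * x * y^9 + (36/25)
      * z^2 * y^10 - (363/25) * z * x^10 + (216/5) * z * x^8 * y^2 + (144/5) * z * x^7 *
      y^3 + 36 * z * x^6 * y^4 + (378/25) * z * x^5 * y^5 + (72/5) * z * x^3 * y^7 -
      (72/5) * z * x^2 * y^8 - 36 * z * x * y^9 + (33/25) * z * y^10 + (399/25) * x^10 -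
      (144/5) * x^8 * y^2 - (216/5) * x^7 * y^3 - (144/5) * x^6 * y^4 - (594/25) * x^5 *
      y^5 - 72 * x^4 * y^6 + (72/5) * x^3 * y^7 - (72/5) * x^2 * y^8 + (72/5) * x * y^9 +
      (291/25) * y^10) * hz

theorem chord_y (hz : z ^ 4 + z ^ 3 + z ^ 2 + z + 1 = 0) (x y : K) :
    -(lS z x y * (xQ (z ^ 3 * x) (z ^ 2 * y) - xQ x y) + yQ x y) = yQ (z ^ 3 * x) (z ^ 2 * y) := by
  simp only [lS, xP, xQ, yQ, yP, yY]
  linear_combination (-108 * z^39 * x^13 * y^2 + 108 * z^38 * x^13 * y^2 + 108 * z^38 * x^12 * y^3 - 108 * z^37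
      * x^12 * y^3 - 432 * z^37 * x^11 * y^4 + 432 * z^36 * x^11 * y^4 - 540 * z^35 * x^9
      * y^6 - 108 * z^34 * x^13 * y^2 + 540 * z^34 * x^9 * y^6 + 648 * z^34 * x^8 * y^7 +
      108 * z^33 * x^13 * y^2 + 108 * z^33 * x^12 * y^3 - 648 * z^33 * x^8 * y^7 - 2268 *
      z^33 * x^7 * y^8 - 108 * z^32 * x^12 * y^3 - 432 * z^32 * x^11 * y^4 + 2268 * z^32 *
      x^7 * y^8 + 3132 * z^32 * x^6 * y^9 + 432 * z^31 * x^11 * y^4 - 3132 * z^31 * x^6 *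
      y^9 - 2700 * z^31 * x^5 * y^10 - 540 * z^30 * x^9 * y^6 + 2700 * z^30 * x^5 * y^10 +
      1620 * z^30 * x^4 * y^11 - (36/5) * z^29 * x^15 - 90 * z^29 * x^13 * y^2 + (18/5) *
      z^29 * x^10 * y^5 + 540 * z^29 * x^9 * y^6 + 648 * z^29 * x^8 * y^7 - 1620 * z^29 *
      x^4 * y^11 - 972 * z^29 * x^3 * y^12 + (54/5) * z^28 * x^15 + 90 * z^28 * x^13 * y^2
      + 90 * z^28 * x^12 * y^3 + (18/5) * z^28 * x^10 * y^5 - 648 * z^28 * x^8 * y^7 -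
      2268 * z^28 * x^7 * y^8 + 972 * z^28 * x^3 * y^12 + 432 * z^28 * x^2 * y^13 - (36/5)
      * z^27 * x^15 - (432/5) * z^27 * x^13 * y^2 - 90 * z^27 * x^12 * y^3 - 198 * z^27 *
      x^11 * y^4 + (18/5) * z^27 * x^10 * y^5 + (216/5) * z^27 * x^8 * y^7 + 2268 * z^27 *
      x^7 * y^8 + 3132 * z^27 * x^6 * y^9 - 432 * z^27 * x^2 * y^13 - 108 * z^27 * x *
      y^14 + (9/5) * z^26 * x^15 + (558/5) * z^26 * x^13 * y^2 - (342/5) * z^26 * x^12 *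
      y^3 + 180 * z^26 * x^11 * y^4 - (27/5) * z^26 * x^10 * y^5 + (216/5) * z^26 * x^8 *
      y^7 + (216/5) * z^26 * x^7 * y^8 - 3132 * z^26 * x^6 * y^9 - 2700 * z^26 * x^5 *
      y^10 + 108 * z^26 * x * y^14 + (9/5) * z^25 * x^15 - (342/5) * z^25 * x^13 * y^2 +
      (558/5) * z^25 * x^12 * y^3 - (774/5) * z^25 * x^11 * y^4 - (27/5) * z^25 * x^10 *
      y^5 - 108 * z^25 * x^9 * y^6 + (216/5) * z^25 * x^8 * y^7 + (216/5) * z^25 * x^7 *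
      y^8 + (432/5) * z^25 * x^6 * y^9 + 2700 * z^25 * x^5 * y^10 + 1620 * z^25 * x^4 *
      y^11 - (36/5) * z^24 * x^15 - (342/5) * z^24 * x^13 * y^2 - (432/5) * z^24 * x^12 *
      y^3 + (216/5) * z^24 * x^11 * y^4 + (2178/5) * z^24 * x^10 * y^5 - 108 * z^24 * x^9
      * y^6 - (864/5) * z^24 * x^8 * y^7 + (216/5) * z^24 * x^7 * y^8 + (432/5) * z^24 *
      x^6 * y^9 - 108 * z^24 * x^5 * y^10 - 1620 * z^24 * x^4 * y^11 - 972 * z^24 * x^3 *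
      y^12 + (54/5) * z^23 * x^15 + (558/5) * z^23 * x^13 * y^2 + (558/5) * z^23 * x^12 *
      y^3 + (216/5) * z^23 * x^11 * y^4 - (3762/5) * z^23 * x^10 * y^5 - (864/5) * z^23 *
      x^8 * y^7 - (1404/5) * z^23 * x^7 * y^8 + (432/5) * z^23 * x^6 * y^9 - 108 * z^23 *
      x^5 * y^10 + 216 * z^23 * x^4 * y^11 + 972 * z^23 * x^3 * y^12 + 432 * z^23 * x^2 *
      y^13 - (36/5) * z^22 * x^15 - (432/5) * z^22 * x^13 * y^2 - (342/5) * z^22 * x^12 *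
      y^3 - (774/5) * z^22 * x^11 * y^4 + (2178/5) * z^22 * x^10 * y^5 + (4752/5) * z^22 *
      x^8 * y^7 - (1404/5) * z^22 * x^7 * y^8 + (3672/5) * z^22 * x^6 * y^9 - 108 * z^22 *
      x^5 * y^10 + 216 * z^22 * x^4 * y^11 - (648/5) * z^22 * x^3 * y^12 - 432 * z^22 *
      x^2 * y^13 - 108 * z^22 * x * y^14 + (9/5) * z^21 * x^15 + (558/5) * z^21 * x^13 *
      y^2 - (342/5) * z^21 * x^12 * y^3 + (1116/5) * z^21 * x^11 * y^4 - (297/5) * z^21 *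
      x^10 * y^5 - (1188/5) * z^21 * x^8 * y^7 - (1188/5) * z^21 * x^7 * y^8 - (2268/5) *
      z^21 * x^6 * y^9 - 378 * z^21 * x^5 * y^10 + 216 * z^21 * x^4 * y^11 - (648/5) *
      z^21 * x^3 * y^12 + (432/5) * z^21 * x^2 * y^13 + 108 * z^21 * x * y^14 + (9/5) *
      z^20 * x^15 - (342/5) * z^20 * x^13 * y^2 + (558/5) * z^20 * x^12 * y^3 - (774/5) *
      z^20 * x^11 * y^4 - (297/5) * z^20 * x^10 * y^5 - (1188/5) * z^20 * x^8 * y^7 -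
      (1188/5) * z^20 * x^7 * y^8 + (3564/5) * z^20 * x^6 * y^9 - 378 * z^20 * x^5 * y^10
      - (648/5) * z^20 * x^3 * y^12 + (432/5) * z^20 * x^2 * y^13 - (216/5) * z^20 * x *
      y^14 - (36/5) * z^19 * x^15 - (342/5) * z^19 * x^13 * y^2 - (432/5) * z^19 * x^12 *
      y^3 + (216/5) * z^19 * x^11 * y^4 + (2178/5) * z^19 * x^10 * y^5 - (1188/5) * z^19 *
      x^8 * y^7 + (4752/5) * z^19 * x^7 * y^8 - (2376/5) * z^19 * x^6 * y^9 + (1584/5) *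
      z^19 * x^5 * y^10 - (558/5) * z^19 * x^3 * y^12 + (432/5) * z^19 * x^2 * y^13 -
      (216/5) * z^19 * x * y^14 + (18/5) * z^19 * y^15 + (54/5) * z^18 * x^15 + (558/5) *
      z^18 * x^13 * y^2 + (558/5) * z^18 * x^12 * y^3 + (216/5) * z^18 * x^11 * y^4 -
      (3762/5) * z^18 * x^10 * y^5 - (1188/5) * z^18 * x^8 * y^7 - (1188/5) * z^18 * x^7 *
      y^8 - (2376/5) * z^18 * x^6 * y^9 + (594/5) * z^18 * x^5 * y^10 + (342/5) * z^18 *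
      x^3 * y^12 + (342/5) * z^18 * x^2 * y^13 - (216/5) * z^18 * x * y^14 + (18/5) * z^18
      * y^15 - (36/5) * z^17 * x^15 - (432/5) * z^17 * x^13 * y^2 - (342/5) * z^17 * x^12
      * y^3 - (774/5) * z^17 * x^11 * y^4 + (2178/5) * z^17 * x^10 * y^5 + (4752/5) * z^17
      * x^8 * y^7 - (1188/5) * z^17 * x^7 * y^8 + (3564/5) * z^17 * x^6 * y^9 + (1584/5) *
      z^17 * x^5 * y^10 + (432/5) * z^17 * x^3 * y^12 - (558/5) * z^17 * x^2 * y^13 -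
      (126/5) * z^17 * x * y^14 + (18/5) * z^17 * y^15 + (9/5) * z^16 * x^15 + (558/5) *
      z^16 * x^13 * y^2 - (342/5) * z^16 * x^12 * y^3 + (1116/5) * z^16 * x^11 * y^4 -
      (297/5) * z^16 * x^10 * y^5 - (1188/5) * z^16 * x^8 * y^7 - (1188/5) * z^16 * x^7 *
      y^8 - (2376/5) * z^16 * x^6 * y^9 - (1881/5) * z^16 * x^5 * y^10 + (342/5) * z^16 *
      x^3 * y^12 - (558/5) * z^16 * x^2 * y^13 + (684/5) * z^16 * x * y^14 - (27/5) * z^16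
      * y^15 + (9/5) * z^15 * x^15 - (342/5) * z^15 * x^13 * y^2 + (558/5) * z^15 * x^12 *
      y^3 - (774/5) * z^15 * x^11 * y^4 - (297/5) * z^15 * x^10 * y^5 - (1188/5) * z^15 *
      x^8 * y^7 - (1188/5) * z^15 * x^7 * y^8 + (3564/5) * z^15 * x^6 * y^9 - (1881/5) *
      z^15 * x^5 * y^10 - (558/5) * z^15 * x^3 * y^12 + (342/5) * z^15 * x^2 * y^13 -
      (126/5) * z^15 * x * y^14 - (27/5) * z^15 * y^15 - (36/5) * z^14 * x^15 - (342/5) *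
      z^14 * x^13 * y^2 - (432/5) * z^14 * x^12 * y^3 + (216/5) * z^14 * x^11 * y^4 +
      (2178/5) * z^14 * x^10 * y^5 - (1188/5) * z^14 * x^8 * y^7 + (4752/5) * z^14 * x^7 *
      y^8 - (2376/5) * z^14 * x^6 * y^9 + (1584/5) * z^14 * x^5 * y^10 - (558/5) * z^14 *
      x^3 * y^12 + (432/5) * z^14 * x^2 * y^13 - (216/5) * z^14 * x * y^14 + (18/5) * z^14
      * y^15 + (54/5) * z^13 * x^15 + (558/5) * z^13 * x^13 * y^2 + (558/5) * z^13 * x^12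
      * y^3 + (216/5) * z^13 * x^11 * y^4 - (3762/5) * z^13 * x^10 * y^5 - (1188/5) * z^13
      * x^8 * y^7 - (1188/5) * z^13 * x^7 * y^8 - (2376/5) * z^13 * x^6 * y^9 + (594/5) *
      z^13 * x^5 * y^10 + (342/5) * z^13 * x^3 * y^12 + (342/5) * z^13 * x^2 * y^13 -
      (216/5) * z^13 * x * y^14 + (18/5) * z^13 * y^15 - (36/5) * z^12 * x^15 - (432/5) *
      z^12 * x^13 * y^2 - (342/5) * z^12 * x^12 * y^3 - (774/5) * z^12 * x^11 * y^4 +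
      (2178/5) * z^12 * x^10 * y^5 + (4752/5) * z^12 * x^8 * y^7 - (1188/5) * z^12 * x^7 *
      y^8 + (3564/5) * z^12 * x^6 * y^9 + (1584/5) * z^12 * x^5 * y^10 + (432/5) * z^12 *
      x^3 * y^12 - (558/5) * z^12 * x^2 * y^13 - (126/5) * z^12 * x * y^14 + (18/5) * z^12
      * y^15 + (9/5) * z^11 * x^15 + (558/5) * z^11 * x^13 * y^2 - (342/5) * z^11 * x^12 *
      y^3 + (1116/5) * z^11 * x^11 * y^4 - (297/5) * z^11 * x^10 * y^5 - (1188/5) * z^11 *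
      x^8 * y^7 - (1188/5) * z^11 * x^7 * y^8 - (2376/5) * z^11 * x^6 * y^9 - (1881/5) *
      z^11 * x^5 * y^10 + (342/5) * z^11 * x^3 * y^12 - (558/5) * z^11 * x^2 * y^13 +
      (684/5) * z^11 * x * y^14 - (27/5) * z^11 * y^15 + (9/5) * z^10 * x^15 - (342/5) *
      z^10 * x^13 * y^2 + (558/5) * z^10 * x^12 * y^3 - (774/5) * z^10 * x^11 * y^4 -
      (297/5) * z^10 * x^10 * y^5 - (1188/5) * z^10 * x^8 * y^7 - (1188/5) * z^10 * x^7 *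
      y^8 + (3564/5) * z^10 * x^6 * y^9 - (1881/5) * z^10 * x^5 * y^10 - (558/5) * z^10 *
      x^3 * y^12 + (342/5) * z^10 * x^2 * y^13 - (126/5) * z^10 * x * y^14 - (27/5) * z^10
      * y^15 - (36/5) * z^9 * x^15 - (342/5) * z^9 * x^13 * y^2 - (432/5) * z^9 * x^12 *
      y^3 + (216/5) * z^9 * x^11 * y^4 + (2178/5) * z^9 * x^10 * y^5 - (1188/5) * z^9 *
      x^8 * y^7 + (4752/5) * z^9 * x^7 * y^8 - (2376/5) * z^9 * x^6 * y^9 + (1584/5) * z^9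
      * x^5 * y^10 - (558/5) * z^9 * x^3 * y^12 + (432/5) * z^9 * x^2 * y^13 - (216/5) *
      z^9 * x * y^14 + (18/5) * z^9 * y^15 + (54/5) * z^8 * x^15 + (558/5) * z^8 * x^13 *
      y^2 + (558/5) * z^8 * x^12 * y^3 + (216/5) * z^8 * x^11 * y^4 - (3762/5) * z^8 *
      x^10 * y^5 - (1188/5) * z^8 * x^8 * y^7 - (1188/5) * z^8 * x^7 * y^8 - (2376/5) *
      z^8 * x^6 * y^9 + (594/5) * z^8 * x^5 * y^10 + (342/5) * z^8 * x^3 * y^12 + (342/5)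
      * z^8 * x^2 * y^13 - (216/5) * z^8 * x * y^14 + (18/5) * z^8 * y^15 - (36/5) * z^7 *
      x^15 - (432/5) * z^7 * x^13 * y^2 - (342/5) * z^7 * x^12 * y^3 - (774/5) * z^7 *
      x^11 * y^4 + (2178/5) * z^7 * x^10 * y^5 + (4752/5) * z^7 * x^8 * y^7 - (1188/5) *
      z^7 * x^7 * y^8 + (3564/5) * z^7 * x^6 * y^9 + (1584/5) * z^7 * x^5 * y^10 + (432/5)
      * z^7 * x^3 * y^12 - (558/5) * z^7 * x^2 * y^13 - (126/5) * z^7 * x * y^14 + (18/5)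
      * z^7 * y^15 + (9/5) * z^6 * x^15 + (558/5) * z^6 * x^13 * y^2 - (342/5) * z^6 *
      x^12 * y^3 + (1116/5) * z^6 * x^11 * y^4 - (297/5) * z^6 * x^10 * y^5 - (1188/5) *
      z^6 * x^8 * y^7 - (1188/5) * z^6 * x^7 * y^8 - (2376/5) * z^6 * x^6 * y^9 - (1881/5)
      * z^6 * x^5 * y^10 + (342/5) * z^6 * x^3 * y^12 - (558/5) * z^6 * x^2 * y^13 +
      (684/5) * z^6 * x * y^14 - (27/5) * z^6 * y^15 + (9/5) * z^5 * x^15 - (342/5) * z^5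
      * x^13 * y^2 + (558/5) * z^5 * x^12 * y^3 - (774/5) * z^5 * x^11 * y^4 - (297/5) *
      z^5 * x^10 * y^5 - (1188/5) * z^5 * x^8 * y^7 - (1188/5) * z^5 * x^7 * y^8 +
      (3564/5) * z^5 * x^6 * y^9 - (1881/5) * z^5 * x^5 * y^10 - (558/5) * z^5 * x^3 *
      y^12 + (342/5) * z^5 * x^2 * y^13 - (126/5) * z^5 * x * y^14 - (27/5) * z^5 * y^15 -
      (36/5) * z^4 * x^15 - (342/5) * z^4 * x^13 * y^2 - (432/5) * z^4 * x^12 * y^3 +
      (216/5) * z^4 * x^11 * y^4 + (2178/5) * z^4 * x^10 * y^5 - (1188/5) * z^4 * x^8 *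
      y^7 + (4752/5) * z^4 * x^7 * y^8 - (2376/5) * z^4 * x^6 * y^9 + (1584/5) * z^4 * x^5
      * y^10 - (558/5) * z^4 * x^3 * y^12 + (432/5) * z^4 * x^2 * y^13 - (216/5) * z^4 * x
      * y^14 + (18/5) * z^4 * y^15 + (54/5) * z^3 * x^15 + (558/5) * z^3 * x^13 * y^2 +
      (558/5) * z^3 * x^12 * y^3 + (216/5) * z^3 * x^11 * y^4 - (3762/5) * z^3 * x^10 *
      y^5 - (1188/5) * z^3 * x^8 * y^7 - (1188/5) * z^3 * x^7 * y^8 - (2376/5) * z^3 * x^6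
      * y^9 + (594/5) * z^3 * x^5 * y^10 + (342/5) * z^3 * x^3 * y^12 + (342/5) * z^3 *
      x^2 * y^13 - (216/5) * z^3 * x * y^14 + (18/5) * z^3 * y^15 - (36/5) * z^2 * x^15 -
      (432/5) * z^2 * x^13 * y^2 - (342/5) * z^2 * x^12 * y^3 - (774/5) * z^2 * x^11 * y^4
      + (2178/5) * z^2 * x^10 * y^5 + (4752/5) * z^2 * x^8 * y^7 - (1188/5) * z^2 * x^7 *
      y^8 + (3564/5) * z^2 * x^6 * y^9 + (1584/5) * z^2 * x^5 * y^10 + (432/5) * z^2 * x^3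
      * y^12 - (558/5) * z^2 * x^2 * y^13 - (126/5) * z^2 * x * y^14 + (18/5) * z^2 * y^15
      + (9/5) * z * x^15 + (558/5) * z * x^13 * y^2 - (342/5) * z * x^12 * y^3 + (1116/5)
      * z * x^11 * y^4 - (297/5) * z * x^10 * y^5 - (1188/5) * z * x^8 * y^7 - (1188/5) *
      z * x^7 * y^8 - (2376/5) * z * x^6 * y^9 - (1881/5) * z * x^5 * y^10 + (342/5) * z *
      x^3 * y^12 - (558/5) * z * x^2 * y^13 + (684/5) * z * x * y^14 - (27/5) * z * y^15 +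
      (9/5) * x^15 - (342/5) * x^13 * y^2 + (558/5) * x^12 * y^3 - (774/5) * x^11 * y^4 -
      (297/5) * x^10 * y^5 - (1188/5) * x^8 * y^7 - (1188/5) * x^7 * y^8 + (3564/5) * x^6
      * y^9 - (1881/5) * x^5 * y^10 - (558/5) * x^3 * y^12 + (342/5) * x^2 * y^13 -
      (126/5) * x * y^14 - (27/5) * y^15) * hz

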