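import Fermat.Agent.ThreeFive.Identities

/-!
# The universal five-torsion points and their equivariance
-/

set_option autoImplicit false
set_option linter.unusedSectionVars false

namespace Fermat.Agent.ThreeFive

open WeierstrassCurve

variable {K : Type*} [Field K]

/-- The short curve with invariants `c₄`, `c₆` up to the usual scaling. -/
def sc (c₄ c₆ : K) : WeierstrassCurve K := ⟨0, 0, 0, -27 * c₄, -54 * c₆⟩

lemma sc_Δ (c₄ c₆ : K) : (sc c₄ c₆).Δ = 1259712 * (c₄ ^ 3 - c₆ ^ 2) := by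
  simp only [sc, WeierstrassCurve.Δ, WeierstrassCurve.b₂, WeierstrassCurve.b₄,
    WeierstrassCurve.b₆, WeierstrassCurve.b₈]
  ring

lemma sc_isElliptic [CharZero K] {c₄ c₆ : K} (h : c₄ ^ 3 ≠ c₆ ^ 2) : (sc c₄ c₆).IsElliptic := by
  rw [isElliptic_iff, sc_Δ, isUnit_iff_ne_zero]
  exact mul_ne_zero (by norm_num) (sub_ne_zero.2 h)

lemma sc_ne [CharZero K] {c₄ c₆ : K} [(sc c₄ c₆).IsElliptic] : c₄ ^ 3 ≠ c₆ ^ 2 := by
  intro h
  have := (sc c₄ c₆).isUnit_Δ.ne_zero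
  rw [sc_Δ, h, sub_self, mul_zero] at this
  exact this rfl

lemma sc_equation {c₄ c₆ x y : K} :
    (sc c₄ c₆).toAffine.Equation x y ↔ y ^ 2 = x ^ 3 - 27 * c₄ * x - 54 * c₆ := by
  rw [Affine.equation_iff]
  simp only [sc]
  constructor <;> intro h <;> linear_combination h

lemma sc_negY (c₄ c₆ x y : K) : (sc c₄ c₆).toAffine.negY x y = -y := by
  simp [Affine.negY, sc]

/-- The value of the forms at a vector. -/
def IsOver (c₄ c₆ : K) (v : K × K) : Prop := c4F v.1 v.2 = c₄ ∧ c6F v.1 v.2 = c₆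

/-- The covariant vector. -/
def wV (v : K × K) : K × K := (wX v.1 v.2, wY v.1 v.2)

/-- The data for a fifth root of unity: `f = -(z² + z³)`, `m = z - z⁴`. -/
def PhiMu (f m : K) : Prop := f ^ 2 = f + 1 ∧ m ^ 2 = -f - 2

variable [DecidableEq K] {c₄ c₆ : K} [(sc c₄ c₆).IsElliptic]

/-- The point from coordinates. -/
def mkPt (x y : K) (h : y ^ 2 = x ^ 3 - 27 * c₄ * x - 54 * c₆) : (sc c₄ c₆).toAffine.Point :=
  .some x y (Affine.equation_iff_nonsingular.1 (sc_equation.2 h))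

lemma mkPt_congr {x y x' y' : K} {h : y ^ 2 = x ^ 3 - 27 * c₄ * x - 54 * c₆}
    {h' : y' ^ 2 = x' ^ 3 - 27 * c₄ * x' - 54 * c₆} (hx : x = x') (hy : y = y') :
    mkPt x y h = mkPt x' y' h' := by
  subst hx hy; rfl

lemma mkPt_inj {x y x' y' : K} {h : y ^ 2 = x ^ 3 - 27 * c₄ * x - 54 * c₆}
    {h' : y' ^ 2 = x' ^ 3 - 27 * c₄ * x' - 54 * c₆} (e : mkPt x y h = mkPt x' y' h') :
    x = x' ∧ y = y' :=
  (Affine.Point.some.injEq ..).mp e

lemma mkPt_ne_zero {x y : K} (h : y ^ 2 = x ^ 3 - 27 * c₄ * x - 54 * c₆) : mkPt x y h ≠ 0 :=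
  Affine.Point.some_ne_zero _

lemma neg_mkPt {x y : K} (h : y ^ 2 = x ^ 3 - 27 * c₄ * x - 54 * c₆) :
    -mkPt x y h = mkPt x (-y) (by rw [neg_sq]; exact h) := by
  simp only [mkPt, Affine.Point.neg_some, sc_negY]

variable [CharZero K] {v : K × K} {f m : K}

/-- The first point. -/
def ptP (hfm : PhiMu f m) (hv : IsOver c₄ c₆ v) : (sc c₄ c₆).toAffine.Point :=
  mkPt (xP f v.1 v.2) (yP f m v.1 v.2) (by rw [← hv.1, ← hv.2]; exact P_curve hfm.1 hfm.2 _ _)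

/-- The second point. -/
def ptQ (hv : IsOver c₄ c₆ v) : (sc c₄ c₆).toAffine.Point :=
  mkPt (xQ v.1 v.2) (yQ v.1 v.2) (by rw [← hv.1, ← hv.2]; exact Q_curve _ _)

lemma dF_ne_zero (hv : IsOver c₄ c₆ v) : dF v.1 v.2 ≠ 0 := by
  intro h
  have h' := c4F_cube_sub v.1 v.2
  rw [hv.1, hv.2, h] at h'
  exact sc_ne (K := K) (c₄ := c₄) (c₆ := c₆) (sub_eq_zero.1 (h'.trans (by ring)))

lemma PhiMu.conj (h : PhiMu f m) : PhiMu (1 - f) (m * (f - 1)) := by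
  obtain ⟨hf, hm⟩ := h
  refine ⟨by linear_combination hf, ?_⟩
  linear_combination (f - 1) ^ 2 * hm + (-f - 1) * hf

lemma PhiMu.ne_zero (h : PhiMu f m) : m ≠ 0 := by
  intro h0
  have hm := h.2
  rw [h0] at hm
  have hf2 : f = -2 := by linear_combination hm
  have hf := h.1
  rw [hf2] at hf
  norm_num at hf

lemma yY_ne_zero (hfm : PhiMu f m) (hv : IsOver c₄ c₆ v) : yY f v.1 v.2 ≠ 0 := by
  intro h
  have h1 : (sc c₄ c₆).toAffine.Nonsingular (xP f v.1 v.2) (yP f m v.1 v.2) :=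
    Affine.equation_iff_nonsingular.1 (sc_equation.2
      (by rw [← hv.1, ← hv.2]; exact P_curve hfm.1 hfm.2 _ _))
  have h2 := tangent_slope hfm.1 v.1 v.2
  rw [h, mul_zero, zero_mul, hv.1] at h2
  rw [Affine.nonsingular_iff] at h1
  rcases h1.2 with e | e
  · refine e ?_
    simp only [sc, yP, h]
    linear_combination h2
  · refine e ?_
    simp [sc, yP, h]

/-- Doubling conjugates. -/
theorem two_ptP (hfm : PhiMu f m) (hv : IsOver c₄ c₆ v) :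
    ptP hfm hv + ptP hfm hv = ptP hfm.conj hv := by
  have hy : yP f m v.1 v.2 ≠ (sc c₄ c₆).toAffine.negY (xP f v.1 v.2) (yP f m v.1 v.2) := by
    rw [sc_negY, Ne, eq_neg_iff_add_eq_zero, ← two_mul]
    exact mul_ne_zero two_ne_zero (mul_ne_zero hfm.ne_zero (yY_ne_zero hfm hv))
  have hs : (sc c₄ c₆).toAffine.slope (xP f v.1 v.2) (xP f v.1 v.2) (yP f m v.1 v.2)
      (yP f m v.1 v.2) = m * kP f v.1 v.2 := by
    rw [Affine.slope_of_Y_ne rfl hy, div_eq_iff (sub_ne_zero.2 hy), sc_negY, ← hv.1]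
    simp only [sc, yP]
    linear_combination (-1 : K) * tangent_slope hfm.1 v.1 v.2 -
      2 * kP f v.1 v.2 * yY f v.1 v.2 * hfm.2
  refine (Affine.Point.add_self_of_Y_ne hy).trans ?_
  simp only [ptP, mkPt, Affine.Point.some.injEq]
  have hx : (sc c₄ c₆).toAffine.addX (xP f v.1 v.2) (xP f v.1 v.2) (m * kP f v.1 v.2) =
      xP (1 - f) v.1 v.2 := by
    simp only [Affine.addX, sc]
    linear_combination tangent_x hfm.1 v.1 v.2 + (kP f v.1 v.2) ^ 2 * hfm.2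
  refine ⟨by rw [hs]; exact hx, ?_⟩
  rw [hs, Affine.addY, Affine.negAddY, hx, sc_negY]
  simp only [yP]
  linear_combination m * tangent_y hfm.1 v.1 v.2

lemma ptP_congr {f' m' : K} (hfm : PhiMu f m) (hfm' : PhiMu f' m') (hv : IsOver c₄ c₆ v)
    (hf : f = f') (hm : m = m') : ptP hfm hv = ptP hfm' hv := by
  subst hf hm; rfl

lemma PhiMu.neg (h : PhiMu f m) : PhiMu f (-m) := ⟨h.1, by rw [neg_sq]; exact h.2⟩

lemma ptP_neg (hfm : PhiMu f m) (hv : IsOver c₄ c₆ v) : ptP hfm.neg hv = -ptP hfm hv := by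
  rw [ptP, ptP, neg_mkPt]
  exact mkPt_congr rfl (by simp [yP])

theorem five_ptP (hfm : PhiMu f m) (hv : IsOver c₄ c₆ v) : (5 : ℤ) • ptP hfm hv = 0 := by
  have h4 : ptP hfm.conj.conj hv = -ptP hfm hv := by
    rw [← ptP_neg hfm hv]
    refine ptP_congr _ _ hv (by ring) ?_
    linear_combination (-m) * hfm.1
  rw [← two_ptP hfm.conj hv, ← two_ptP hfm hv] at h4
  rw [show (5 : ℤ) = 1 + 1 + 1 + 1 + 1 by norm_num]
  simp only [add_zsmul, one_zsmul]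
  calc _ = (ptP hfm hv + ptP hfm hv + (ptP hfm hv + ptP hfm hv)) + ptP hfm hv := by abel
    _ = 0 := by rw [h4]; exact neg_add_cancel _

/-- The second generator. -/
def tV (f m : K) : (K × K) →ₗ[K] (K × K) where
  toFun v := ((f * v.1 + v.2) / m, (v.1 - f * v.2) / m)
  map_add' u v := by ext <;> simp <;> ring
  map_smul' c v := by ext <;> simp <;> ring

lemma tV_apply (f m : K) (v : K × K) :
    tV f m v = (m⁻¹ * (f * v.1 + v.2), m⁻¹ * (v.1 - f * v.2)) := by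
  ext <;> simp [tV] <;> ring

lemma c4F_tV (hfm : PhiMu f m) (v : K × K) :
    c4F (tV f m v).1 (tV f m v).2 = c4F v.1 v.2 := by
  rw [tV_apply, c4F_smul, c4F_M hfm.1, inv_pow, ← m_pow20 hfm.1 hfm.2, ← mul_assoc,
    inv_mul_cancel₀ (pow_ne_zero _ hfm.ne_zero), one_mul]

lemma c6F_tV (hfm : PhiMu f m) (v : K × K) :
    c6F (tV f m v).1 (tV f m v).2 = c6F v.1 v.2 := by
  rw [tV_apply, c6F_smul, c6F_M hfm.1, inv_pow, ← m_pow30 hfm.1 hfm.2, ← mul_assoc,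
    inv_mul_cancel₀ (pow_ne_zero _ hfm.ne_zero), one_mul]

lemma IsOver.tV (hfm : PhiMu f m) (hv : IsOver c₄ c₆ v) : IsOver c₄ c₆ (tV f m v) :=
  ⟨(c4F_tV hfm v).trans hv.1, (c6F_tV hfm v).trans hv.2⟩

lemma xP_tV (hfm : PhiMu f m) (v : K × K) : xP f (tV f m v).1 (tV f m v).2 = xQ v.1 v.2 := by
  rw [tV_apply, xP_smul, xP_M hfm.1, inv_pow, ← m_pow10 hfm.1 hfm.2, ← mul_assoc,
    inv_mul_cancel₀ (pow_ne_zero _ hfm.ne_zero), one_mul]

lemma yP_tV (hfm : PhiMu f m) (v : K × K) : yP f m (tV f m v).1 (tV f m v).2 = yQ v.1 v.2 := by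
  rw [tV_apply, yP_smul, yP, yP_M hfm.1, inv_pow, ← m_pow14 hfm.1 hfm.2]
  have hm := hfm.ne_zero
  field_simp

lemma ptP_tV (hfm : PhiMu f m) (hv : IsOver c₄ c₆ v) : ptP hfm (hv.tV hfm) = ptQ hv :=
  mkPt_congr (xP_tV hfm v) (yP_tV hfm v)

lemma tV_tV (hfm : PhiMu f m) (v : K × K) : tV f m (tV f m v) = -v := by
  have hm := hfm.ne_zero
  ext <;> simp [tV] <;> field_simp <;> ring_nf
  · linear_combination v.1 * hfm.2 + v.1 * hfm.1
  · linear_combination v.2 * hfm.2 + v.2 * hfm.1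

theorem five_ptQ (hfm : PhiMu f m) (hv : IsOver c₄ c₆ v) : (5 : ℤ) • ptQ hv = 0 := by
  rw [← ptP_tV hfm hv]; exact five_ptP hfm _

lemma ptQ_tV (hfm : PhiMu f m) (hv : IsOver c₄ c₆ v) : ptQ (hv.tV hfm) = -ptP hfm hv := by
  rw [← ptP_tV hfm (hv.tV hfm), ptP, ptP, neg_mkPt]
  refine mkPt_congr ?_ ?_ <;> rw [tV_tV hfm] <;> simp [xP, yP, yY] <;> ring

lemma phiMu_of_root {z : K} (hz : z ^ 4 + z ^ 3 + z ^ 2 + z + 1 = 0) [CharZero K] :
    PhiMu (-(z ^ 2 + z ^ 3)) (z - z ^ 4) :=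
  ⟨phi_sq hz, mu_sq hz⟩

lemma xQ_ne_xP (hfm : PhiMu f m) (hv : IsOver c₄ c₆ v) :
    xQ v.1 v.2 ≠ xP f v.1 v.2 ∧ xQ v.1 v.2 ≠ xP (1 - f) v.1 v.2 := by
  have h := xQ_sep hfm.1 v.1 v.2
  have hd : (1296 / 5 : K) * dF v.1 v.2 ^ 3 ≠ 0 :=
    mul_ne_zero (by norm_num) (pow_ne_zero _ (dF_ne_zero hv))
  constructor <;> intro e <;> apply hd <;> rw [← h, e] <;> ring

section S

variable {z : K} (hz : z ^ 4 + z ^ 3 + z ^ 2 + z + 1 = 0)

/-- The first generator. -/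
def sV (z : K) : (K × K) →ₗ[K] (K × K) where
  toFun v := (z ^ 3 * v.1, z ^ 2 * v.2)
  map_add' u v := by ext <;> simp <;> ring
  map_smul' c v := by ext <;> simp <;> ring

include hz

lemma pow_five_eq_one : z ^ 5 = 1 := by linear_combination (z - 1) * hz

lemma pow_fifth (x : K) : (z ^ 3 * x) ^ 5 = x ^ 5 ∧ (z ^ 2 * x) ^ 5 = x ^ 5 := by
  constructor <;> rw [mul_pow, ← pow_mul, Nat.mul_comm, pow_mul, pow_five_eq_one hz, one_pow, one_mul]

lemma c4F_sV (v : K × K) : c4F (sV z v).1 (sV z v).2 = c4F v.1 v.2 := by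
  simp only [sV, LinearMap.coe_mk, AddHom.coe_mk, c4F, (pow_fifth hz _).1, (pow_fifth hz _).2]

lemma c6F_sV (v : K × K) : c6F (sV z v).1 (sV z v).2 = c6F v.1 v.2 := by
  simp only [sV, LinearMap.coe_mk, AddHom.coe_mk, c6F, (pow_fifth hz _).1, (pow_fifth hz _).2]

lemma IsOver.sV (hv : IsOver c₄ c₆ v) : IsOver c₄ c₆ (sV z v) :=
  ⟨(c4F_sV hz v).trans hv.1, (c6F_sV hz v).trans hv.2⟩

lemma ptP_sV (hv : IsOver c₄ c₆ v) :
    ptP (phiMu_of_root hz) (hv.sV hz) = ptP (phiMu_of_root hz) hv := by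
  refine mkPt_congr ?_ ?_ <;>
    simp only [ThreeFive.sV, LinearMap.coe_mk, AddHom.coe_mk, xP, yP, yY, (pow_fifth hz _).1,
      (pow_fifth hz _).2]

lemma ptQ_sV (hv : IsOver c₄ c₆ v) :
    ptQ (hv.sV hz) = ptQ hv + -ptP (phiMu_of_root hz) hv := by
  have hne := (xQ_ne_xP (phiMu_of_root hz) hv).1
  have hsl : (sc c₄ c₆).toAffine.slope (xQ v.1 v.2) (xP (-(z ^ 2 + z ^ 3)) v.1 v.2) (yQ v.1 v.2)
      (-yP (-(z ^ 2 + z ^ 3)) (z - z ^ 4) v.1 v.2) = lS z v.1 v.2 := by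
    rw [Affine.slope_of_X_ne hne, div_eq_iff (sub_ne_zero.2 hne), chord_slope hz]
    ring
  symm
  rw [ptQ, ptQ, ptP, neg_mkPt]
  refine (Affine.Point.add_of_X_ne hne).trans ?_
  simp only [mkPt, Affine.Point.some.injEq]
  have hx : (sc c₄ c₆).toAffine.addX (xQ v.1 v.2) (xP (-(z ^ 2 + z ^ 3)) v.1 v.2) (lS z v.1 v.2) =
      xQ (ThreeFive.sV z v).1 (ThreeFive.sV z v).2 := by
    simp only [Affine.addX, sc, ThreeFive.sV, LinearMap.coe_mk, AddHom.coe_mk]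
    linear_combination chord_x hz v.1 v.2
  refine ⟨by rw [hsl]; exact hx, ?_⟩
  rw [hsl, Affine.addY, Affine.negAddY, hx, sc_negY]
  simp only [ThreeFive.sV, LinearMap.coe_mk, AddHom.coe_mk]
  linear_combination chord_y hz v.1 v.2

end S

/-- `P`, `Q` are independent modulo five. -/
theorem indep (hfm : PhiMu f m) (hv : IsOver c₄ c₆ v) {a b : ℤ}
    (h : a • ptP hfm hv + b • ptQ hv = 0) : (5 : ℤ) ∣ a ∧ (5 : ℤ) ∣ b := by
  set P := ptP hfm hv
  set Q := ptQ hv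
  have h5P : (5 : ℤ) • P = 0 := five_ptP hfm hv
  have h5Q : (5 : ℤ) • Q = 0 := five_ptQ hfm hv
  have hp : Prime (5 : ℤ) := by norm_num [Int.prime_iff_natAbs_prime]
  have hb : (5 : ℤ) ∣ b := by
    by_contra hb
    obtain ⟨s, t, hst⟩ := (hp.irreducible.coprime_iff_not_dvd).2 hb
    have hQ : Q = (-(t * a)) • P := by
      calc Q = (s * 5 + t * b) • Q := by rw [hst, one_zsmul]
        _ = t • (b • Q) := by rw [add_zsmul, mul_zsmul, h5Q, zsmul_zero, zero_add, mul_zsmul]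
        _ = _ := by
          rw [eq_neg_of_add_eq_zero_right h, zsmul_neg, ← mul_zsmul, ← neg_zsmul]
    obtain ⟨k, hk, hQ⟩ : ∃ k : ℕ, k < 5 ∧ Q = k • P := by
      refine ⟨((-(t * a)) % 5).toNat, by omega, hQ.trans ?_⟩
      rw [← natCast_zsmul, Int.toNat_of_nonneg (Int.emod_nonneg _ (by norm_num))]
      conv_lhs => rw [← Int.emod_add_mul_ediv (-(t * a)) 5]
      rw [add_zsmul, mul_comm (5 : ℤ), mul_zsmul, h5P, zsmul_zero, add_zero]
    have h2 : (2 : ℕ) • P = ptP hfm.conj hv := by rw [two_nsmul]; exact two_ptP hfm hv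
    have h3 : (3 : ℕ) • P = -((2 : ℕ) • P) := by
      rw [eq_neg_iff_add_eq_zero, ← add_nsmul, ← natCast_zsmul]; exact h5P
    have h4 : (4 : ℕ) • P = -P := by
      rw [eq_neg_iff_add_eq_zero, ← succ_nsmul, ← natCast_zsmul]; exact h5P
    obtain ⟨hne, hne'⟩ := xQ_ne_xP hfm hv
    interval_cases k
    · exact mkPt_ne_zero _ (hQ.trans (zero_nsmul _))
    · exact hne (mkPt_inj (hQ.trans (one_nsmul _))).1
    · exact hne' (mkPt_inj (hQ.trans h2)).1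
    · rw [h3, h2] at hQ
      exact hne' (mkPt_inj (hQ.trans (neg_mkPt _))).1
    · rw [h4] at hQ
      exact hne (mkPt_inj (hQ.trans (neg_mkPt _))).1
  refine ⟨?_, hb⟩
  by_contra ha
  obtain ⟨s, t, hst⟩ := (hp.irreducible.coprime_iff_not_dvd).2 ha
  obtain ⟨b', rfl⟩ := hb
  have haP : a • P = 0 := by
    rwa [mul_comm (5 : ℤ) b', mul_zsmul, h5Q, zsmul_zero, add_zero] at h
  refine mkPt_ne_zero _ (?_ : P = 0)
  calc P = (s * 5 + t * a) • P := by rw [hst, one_zsmul]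
    _ = 0 := by rw [add_zsmul, mul_zsmul, h5P, mul_zsmul, haP, zsmul_zero, zsmul_zero, add_zero]

end Fermat.Agent.ThreeFive
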